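import Fermat.Agent.MLT.Two.Sys.Defs
import Mathlib.RingTheory.IntegralDomain
import Mathlib.FieldTheory.IsAlgClosed.Basic

/-!
# Components and square roots of characters through the auxiliary primes
-/

set_option autoImplicit false

noncomputable section

namespace FermatLib.MLT.Two

local notation "Qbar" => AlgebraicClosure ℚ
local notation "Γℚ" => (AlgebraicClosure ℚ ≃ₐ[ℚ] AlgebraicClosure ℚ)

variable {O : Type} [CommRing O] {k : Type} [Field k] (S : System O k)
  {ι : Type} [Fintype ι] (P : ι → AuxPlace)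

theorem auxLevel_squarefree {n : ℕ} (hP : IsDepth S n P) : Squarefree (auxLevel S P) := by
  classical
  have hcop : ∀ i, S.anchor.N.Coprime (P i).q := fun i =>
    Nat.Coprime.symm ((P i).hq.coprime_iff_not_dvd.mpr fun h =>
      hP.prime_to i (dvd_mul_of_dvd_right h 2))
  rw [auxLevel, Nat.squarefree_mul (Nat.Coprime.prod_right fun i _ => hcop i)]
  refine ⟨S.anchor.squarefree, Finset.squarefree_prod_of_pairwise_isCoprime
    (fun i _ j _ hij => Nat.coprime_iff_isRelPrime.mp ((Nat.coprime_primes (P i).hq (P j).hq).mpr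
      fun h => hij (hP.injective h))) fun i _ => (P i).hq.squarefree⟩

theorem two_not_dvd_auxLevel {n : ℕ} (hP : IsDepth S n P) : ¬ 2 ∣ auxLevel S P := by
  intro h
  rcases Nat.prime_two.dvd_mul.mp h with h | h
  · have := S.anchor.level_mod
    omega
  · obtain ⟨i, -, hi⟩ := (Prime.dvd_finsetProd_iff Nat.prime_two.prime _).mp h
    exact hP.prime_to i (((Nat.prime_dvd_prime_iff_eq Nat.prime_two (P i).hq).mp hi) ▸
      dvd_mul_right _ _)

instance neZero_auxPlace_q (i : ι) : NeZero (P i).q := ⟨(P i).hq.ne_zero⟩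

/-- `L = q (L / q)`. -/
def auxSplit (i : ι) : ℕ := auxLevel S P / (P i).q

theorem mul_auxSplit (i : ι) : (P i).q * auxSplit S P i = auxLevel S P :=
  Nat.mul_div_cancel' (dvd_auxLevel S P i)

theorem coprime_auxSplit {n : ℕ} (hP : IsDepth S n P) (i : ι) :
    (P i).q.Coprime (auxSplit S P i) := by
  refine (P i).hq.coprime_iff_not_dvd.mpr fun h => ?_
  exact (P i).hq.not_isUnit (auxLevel_squarefree S P hP _
    (mul_auxSplit S P i ▸ Nat.mul_dvd_mul_left _ h))

variable {n : ℕ} (hP : IsDepth S n P)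

/-- The units modulo `L` split at `q i`. -/
def auxUnitsEquiv (i : ι) :
    (ZMod (auxLevel S P))ˣ ≃* (ZMod (P i).q)ˣ × (ZMod (auxSplit S P i))ˣ :=
  ((Units.mapEquiv ((ZMod.ringEquivCongr (mul_auxSplit S P i).symm).trans
    (ZMod.chineseRemainder (coprime_auxSplit S P hP i))).toMulEquiv)).trans MulEquiv.prodUnits

/-- The inclusion of the units modulo `q i`. -/
def auxUnitsInl (i : ι) : (ZMod (P i).q)ˣ →* (ZMod (auxLevel S P))ˣ :=
  (auxUnitsEquiv S P hP i).symm.toMonoidHom.comp (MonoidHom.inl _ _)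

theorem auxUnitsEquiv_fst (i : ι) (u : (ZMod (auxLevel S P))ˣ) :
    (auxUnitsEquiv S P hP i u).1 = ZMod.unitsMap (dvd_auxLevel S P i) u := by
  refine Units.ext ?_
  let f : ZMod (auxLevel S P) →+* ZMod (P i).q :=
    (RingHom.fst _ _).comp ((ZMod.ringEquivCongr (mul_auxSplit S P i).symm).trans
      (ZMod.chineseRemainder (coprime_auxSplit S P hP i))).toRingHom
  show f (u : ZMod (auxLevel S P)) = _
  rw [RingHom.ext_zmod f (ZMod.castHom (dvd_auxLevel S P i) _)]
  rfl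

theorem unitsMap_auxUnitsInl_self (i : ι) (u : (ZMod (P i).q)ˣ) :
    ZMod.unitsMap (dvd_auxLevel S P i) (auxUnitsInl S P hP i u) = u := by
  rw [← auxUnitsEquiv_fst S P hP]
  simp [auxUnitsInl]

theorem unitsMap_auxUnitsInl_of_ne {i j : ι} (hij : j ≠ i) (u : (ZMod (P i).q)ˣ) :
    ZMod.unitsMap (dvd_auxLevel S P j) (auxUnitsInl S P hP i u) = 1 := by
  have hj : (P j).q ∣ auxSplit S P i := by
    have h : (P j).q ∣ (P i).q * auxSplit S P i := mul_auxSplit S P i ▸ dvd_auxLevel S P j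
    refine ((P j).hq.dvd_mul.mp h).resolve_left fun h' => hij (hP.injective ?_)
    exact (Nat.prime_dvd_prime_iff_eq (P j).hq (P i).hq).mp h'
  have key : ∀ w : (ZMod (auxLevel S P))ˣ, (auxUnitsEquiv S P hP i w).2 = 1 →
      ZMod.unitsMap (dvd_auxLevel S P j) w = 1 := fun w hw => by
    have hdvd : auxSplit S P i ∣ auxLevel S P := Dvd.intro_left _ (mul_auxSplit S P i)
    let f : ZMod (auxLevel S P) →+* ZMod (auxSplit S P i) :=
      (RingHom.snd _ _).comp ((ZMod.ringEquivCongr (mul_auxSplit S P i).symm).trans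
        (ZMod.chineseRemainder (coprime_auxSplit S P hP i))).toRingHom
    have e : ZMod.unitsMap hdvd w = 1 := by
      refine Units.ext (Eq.trans ?_ (congrArg Units.val hw))
      show _ = f (w : ZMod (auxLevel S P))
      rw [RingHom.ext_zmod f (ZMod.castHom hdvd _)]
      rfl
    rw [show dvd_auxLevel S P j = hj.trans hdvd from rfl, ← ZMod.unitsMap_comp hj hdvd,
      MonoidHom.comp_apply, e, map_one]
  exact key _ (by simp [auxUnitsInl])

variable {K : Type} [Field K]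

/-- The component at `q i` of a character. -/
def auxComp (χ : (ZMod (auxLevel S P))ˣ →* Kˣ) (i : ι) : (ZMod (P i).q)ˣ →* Kˣ :=
  χ.comp (auxUnitsInl S P hP i)

/-- The character with given components. -/
def auxProd (ψ : ∀ i, (ZMod (P i).q)ˣ →* Kˣ) : (ZMod (auxLevel S P))ˣ →* Kˣ :=
  ∏ i, (ψ i).comp (ZMod.unitsMap (dvd_auxLevel S P i))

theorem auxProd_apply (ψ : ∀ i, (ZMod (P i).q)ˣ →* Kˣ) (u : (ZMod (auxLevel S P))ˣ) :
    auxProd S P ψ u = ∏ i, ψ i (ZMod.unitsMap (dvd_auxLevel S P i) u) := by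
  simp [auxProd, MonoidHom.finsetProd_apply]

theorem eq_auxProd_auxComp {χ : (ZMod (auxLevel S P))ˣ →* Kˣ} (hχ : IsAuxChar S P n χ) :
    χ = auxProd S P (auxComp S P hP χ) := by
  classical
  refine MonoidHom.ext fun u => ?_
  set w := ∏ i, auxUnitsInl S P hP i (ZMod.unitsMap (dvd_auxLevel S P i) u) with hw
  have hmap : ∀ j, ZMod.unitsMap (dvd_auxLevel S P j) w = ZMod.unitsMap (dvd_auxLevel S P j) u := by
    intro j
    rw [hw, map_prod, Finset.prod_eq_single j
      (fun i _ hij => unitsMap_auxUnitsInl_of_ne S P hP (Ne.symm hij) _)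
      (fun h => absurd (Finset.mem_univ j) h), unitsMap_auxUnitsInl_self]
  have h1 : χ (u * w⁻¹) = 1 := hχ.eq_one _ fun j => by
    rw [map_mul, map_inv, hmap, mul_inv_cancel]
  rw [map_mul, map_inv, mul_inv_eq_one] at h1
  rw [h1, hw, map_prod, auxProd_apply]
  rfl

theorem isAuxChar_auxProd {ψ : ∀ i, (ZMod (P i).q)ˣ →* Kˣ} {m : ℕ}
    (h : ∀ i u, ψ i u ^ 2 ^ m = 1) : IsAuxChar S P m (auxProd S P ψ) := by
  refine ⟨fun u => ?_, fun u hu => ?_⟩
  · rw [auxProd_apply, ← Finset.prod_pow, Finset.prod_eq_one fun i _ => h i _]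
  · rw [auxProd_apply]
    exact Finset.prod_eq_one fun i _ => by rw [hu i, map_one]

/-- Square roots of the inverses of the components. -/
theorem exists_sqrt_inv_comp [IsAlgClosed K] {χ : (ZMod (auxLevel S P))ˣ →* Kˣ}
    (hχ : IsAuxChar S P n χ) :
    ∃ ψ : ∀ i, (ZMod (P i).q)ˣ →* Kˣ, (∀ i, ψ i ^ 2 * auxComp S P hP χ i = 1) ∧
      (∀ i, auxComp S P hP χ i = 1 → ψ i = 1) ∧ ∀ i u, ψ i u ^ 2 ^ (n + 1) = 1 := by
  classical
  suffices h : ∀ i, ∃ φ : (ZMod (P i).q)ˣ →* Kˣ, φ ^ 2 * auxComp S P hP χ i = 1 ∧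
      (auxComp S P hP χ i = 1 → φ = 1) ∧ ∀ u, φ u ^ 2 ^ (n + 1) = 1 by
    choose ψ h1 h2 h3 using h
    exact ⟨ψ, h1, h2, h3⟩
  intro i
  by_cases h1 : auxComp S P hP χ i = 1
  · exact ⟨1, MonoidHom.ext fun u => by simp [h1], fun _ => rfl, fun u => by simp⟩
  have : Fact (P i).q.Prime := ⟨(P i).hq⟩
  obtain ⟨g, hg⟩ := IsCyclic.exists_generator (α := (ZMod (P i).q)ˣ)
  set z := auxComp S P hP χ i g with hz
  have hz2 : z ^ 2 ^ n = 1 := hχ.pow_eq_one _
  obtain ⟨y, hy⟩ := IsAlgClosed.exists_pow_nat_eq ((z⁻¹ : Kˣ) : K) two_pos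
  have hy0 : y ≠ 0 := fun h => (z⁻¹).ne_zero (by rw [← hy, h, zero_pow two_ne_zero])
  let yu : Kˣ := Units.mk0 y hy0
  have hyu : yu ^ 2 = z⁻¹ := Units.ext (by simp [yu, hy])
  have hyord : yu ^ 2 ^ (n + 1) = 1 := by
    rw [pow_succ', pow_mul, hyu, inv_pow, hz2, inv_one]
  have hord : orderOf yu ∣ orderOf g := by
    rw [orderOf_eq_card_of_forall_mem_zpowers hg, Nat.card_eq_fintype_card,
      ZMod.card_units (P i).q]
    exact (orderOf_dvd_of_pow_eq_one hyord).trans (hP.one_mod i)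
  refine ⟨monoidHomOfForallMemZpowers hg hord, MonoidHom.ext fun u => ?_, fun h => absurd h h1,
    fun u => ?_⟩
  · obtain ⟨m, rfl⟩ := Subgroup.mem_zpowers_iff.mp (hg u)
    rw [MonoidHom.mul_apply, MonoidHom.pow_apply, map_zpow, map_zpow,
      monoidHomOfForallMemZpowers_apply_gen, ← zpow_natCast, ← zpow_mul, mul_comm m, zpow_mul,
      zpow_natCast, hyu, inv_zpow, ← hz, inv_mul_cancel, MonoidHom.one_apply]
  · obtain ⟨m, rfl⟩ := Subgroup.mem_zpowers_iff.mp (hg u)
    rw [map_zpow, monoidHomOfForallMemZpowers_apply_gen, ← zpow_natCast, ← zpow_mul, mul_comm m,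
      zpow_mul, zpow_natCast, hyord, one_zpow]

end FermatLib.MLT.Two

end
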