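import Fermat.Agent.Modular.TwistSystemEigen
import Fermat.Agent.MLT.Two.Sys.Chars

/-!
# Twisting away all components but one

For primes `Q` at which `χ` is nontrivial the iterated twist is injective whatever character is
left at the end.
-/

set_option autoImplicit false

noncomputable section

open CongruenceSubgroup

namespace FermatLib.MLT.Two

open FermatLib.Modular.Twist

local notation "Qbar" => AlgebraicClosure ℚ
local notation "Γℚ" => (AlgebraicClosure ℚ ≃ₐ[ℚ] AlgebraicClosure ℚ)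

variable {K : Type} [Field K] [CharZero K]

omit [CharZero K] in
theorem charVal_of_coprime {L l : ℕ} (χ : (ZMod L)ˣ →* Kˣ) (h : l.Coprime L) :
    charVal χ l = (χ (ZMod.unitOfCoprime l h) : K) := dif_pos h

theorem unitsMap_unitOfCoprime {m L n : ℕ} (hm : m ∣ L) (hn : n.Coprime L) :
    ZMod.unitsMap hm (ZMod.unitOfCoprime n hn) =
      ZMod.unitOfCoprime n (hn.coprime_dvd_right hm) :=
  Units.ext (by simp [ZMod.unitsMap_val, ZMod.cast_natCast hm])

/-- **The iterated twist at primes where the character is nontrivial.** -/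
theorem exists_partialTwist (Q : Finset ℕ) : ∀ (L : ℕ) [NeZero L] (χ : (ZMod L)ˣ →* Kˣ)
    (ψ : (q : ℕ) → (ZMod q)ˣ →* Kˣ),
    (∀ q ∈ Q, q.Prime ∧ q ∣ L ∧ ¬ q ^ 2 ∣ L) → (∀ q ∈ Q, ψ q ≠ 1) →
    ∀ N : ℕ, N = L * ∏ q ∈ Q, q →
    (∀ q ∈ Q, ∃ (n : ℕ) (hn : n.Coprime L),
      (∀ m, m ∣ N → m.Coprime q → (n : ZMod m) = 1) ∧ χ (ZMod.unitOfCoprime n hn) ≠ 1) →
    ∀ χ' : (ZMod N)ˣ →* Kˣ,
    (∀ (n : ℕ) (hn : n.Coprime N) (hn' : n.Coprime L),
      (χ' (ZMod.unitOfCoprime n hn) : K) =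
        (χ (ZMod.unitOfCoprime n hn') : K) * twistFactor Q ψ n ^ 2) →
    ∃ Φ : bettiH1 (Gamma0 L) (nebenChar χ) K →ₗ[K] bettiH1 (Gamma0 N) (nebenChar χ') K,
      Function.Injective Φ ∧ ∀ l : Nat.Primes, (l : ℕ) ∉ Q → ∀ x,
        bettiHeckeOp N K χ' l (Φ x) = twistFactor Q ψ (l : ℕ) • Φ (bettiHeckeOp L K χ l x) := by
  classical
  induction Q using Finset.induction_on with
  | empty =>
    intro L _ χ ψ _ _ N hN _ χ' hχ'
    rw [Finset.prod_empty, mul_one] at hN
    subst hN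
    have he : χ' = χ := MonoidHom.ext fun t => Units.ext (by
      have hco : (t : ZMod N).val.Coprime N := ZMod.val_coe_unit_coprime t
      have h := hχ' _ hco hco
      rw [twistFactor, Finset.prod_empty, one_pow, mul_one] at h
      rwa [show ZMod.unitOfCoprime _ hco = t from Units.ext (by simp)] at h)
    subst he
    exact ⟨LinearMap.id, fun _ _ h => h, fun l _ x => by simp [twistFactor]⟩
  | insert q Q hqQ ih =>
    intro L _ χ ψ hQ hψ N hN hn χ' hχ'
    obtain ⟨hq, hqL, hq2⟩ := hQ q (Finset.mem_insert_self q Q)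
    have : Fact q.Prime := ⟨hq⟩
    have : NeZero (L * q) := ⟨mul_ne_zero (NeZero.ne L) hq.ne_zero⟩
    have hψq : ψ q ≠ 1 := hψ q (Finset.mem_insert_self q Q)
    have hN' : N = L * q * ∏ r ∈ Q, r := by rw [hN, Finset.prod_insert hqQ, mul_assoc]
    have hQ₁ : ∀ r ∈ Q, r.Prime ∧ r ∣ L * q ∧ ¬ r ^ 2 ∣ L * q := fun r hr => by
      obtain ⟨h1, h2, h3⟩ := hQ r (Finset.mem_insert_of_mem hr)
      refine ⟨h1, h2.mul_right q, fun h => h3 ?_⟩
      exact ((Nat.coprime_primes h1 hq).2 fun e => hqQ (e ▸ hr)).pow_left 2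
        |>.dvd_of_dvd_mul_right h
    set χ₁ := twistChar L q χ (ψ q) with hχ₁
    have hval : ∀ (n : ℕ) (hn : n.Coprime (L * q)),
        (χ₁ (ZMod.unitOfCoprime n hn) : K) =
          (χ (ZMod.unitOfCoprime n (hn.coprime_dvd_right (dvd_mul_right L q))) : K) *
            (ψ q (ZMod.unitOfCoprime n (hn.coprime_dvd_right (dvd_mul_left q L))) : K) ^ 2 := by
      intro n hn
      rw [hχ₁, twistChar, MonoidHom.mul_apply, MonoidHom.pow_apply, MonoidHom.comp_apply,
        MonoidHom.comp_apply, unitsMap_unitOfCoprime, unitsMap_unitOfCoprime, Units.val_mul,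
        Units.val_pow_eq_pow_val]
    have hn₁ : ∀ r ∈ Q, ∃ (n : ℕ) (hn : n.Coprime (L * q)),
        (∀ m, m ∣ N → m.Coprime r → (n : ZMod m) = 1) ∧
          χ₁ (ZMod.unitOfCoprime n hn) ≠ 1 := by
      intro r hr
      obtain ⟨n, hnL, hn1, hne⟩ := hn r (Finset.mem_insert_of_mem hr)
      have hqr : q.Coprime r :=
        (Nat.coprime_primes hq (hQ r (Finset.mem_insert_of_mem hr)).1).2 fun e => hqQ (e ▸ hr)
      have hq1 : (n : ZMod q) = 1 :=
        hn1 q (hN' ▸ (dvd_mul_left q L).mul_right _) hqr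
      have hnq : n.Coprime q := by
        rw [← ZMod.isUnit_iff_coprime, hq1]
        exact isUnit_one
      refine ⟨n, hnL.mul_right hnq, hn1, fun h => hne (Units.ext ?_)⟩
      have h' := hval n (hnL.mul_right hnq)
      rw [h, show ZMod.unitOfCoprime n hnq = (1 : (ZMod q)ˣ) from Units.ext hq1, map_one,
        Units.val_one, one_pow, mul_one] at h'
      exact h'.symm
    obtain ⟨Φ, hΦi, hΦl⟩ := ih (L * q) χ₁ ψ hQ₁ (fun r hr => hψ r (Finset.mem_insert_of_mem hr))
      N hN' hn₁ χ' (fun n h h' => by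
        rw [hval n h', hχ' n h (h'.coprime_dvd_right (dvd_mul_right L q)), twistFactor, twistFactor,
          Finset.prod_insert hqQ, ofUnitHom_natCast (h'.coprime_dvd_right (dvd_mul_left q L))]
        ring)
    obtain ⟨n, hnL, hn1, hne⟩ := hn q (Finset.mem_insert_self q Q)
    have hbi : Function.Injective (bettiTwist L q K hqL χ (ψ q)) := by
      refine bettiTwist_injective hqL hq2 hψq ⟨(n : ℤ), ZMod.unitOfCoprime n hnL, by simp, ?_, hne⟩
      have hdiv : L / q ∣ L := Nat.div_dvd_of_dvd hqL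
      have hcop : Nat.Coprime (L / q) q := Nat.Coprime.symm <| hq.coprime_iff_not_dvd.2 fun h =>
        hq2 (by rw [pow_two]; exact (Nat.dvd_div_iff_mul_dvd hqL).mp h)
      have h1 := hn1 (L / q) (hN ▸ hdiv.mul_right _) hcop
      rw [← ZMod.intCast_zmod_eq_zero_iff_dvd]
      push_cast
      rw [h1, sub_self]
    refine ⟨Φ.comp (bettiTwist L q K hqL χ (ψ q)), hΦi.comp hbi, fun l hl x => ?_⟩
    rw [Finset.mem_insert, not_or] at hl
    have hlq : ¬ (l : ℕ) ∣ q := fun h => hl.1 ((Nat.prime_dvd_prime_iff_eq l.2 hq).1 h)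
    rw [LinearMap.comp_apply, hΦl l hl.2, bettiHeckeOp_bettiTwist hqL χ (ψ q) l hlq, map_smul,
      smul_smul, twistFactor, twistFactor, Finset.prod_insert hqQ,
      ofUnitHom_natCast (l.2.coprime_iff_not_dvd.2 hlq), mul_comm, LinearMap.comp_apply]

section single

variable {O : Type} [CommRing O] {k : Type} [Field k] (S : System O k)
  {ι : Type} [Fintype ι] {n : ℕ} {P : ι → AuxPlace}
  {χ : (ZMod (auxLevel S P))ˣ →* Kˣ} {lam : ℕ → K}

omit [CharZero K] in
/-- `χ` at a natural number is the product of its components. -/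
theorem charVal_eq_prod (hP : IsDepth S n P) (hχ : IsAuxChar S P n χ) {l : ℕ}
    (hl : l.Coprime (auxLevel S P)) :
    charVal χ l = ∏ i, MulChar.ofUnitHom (auxComp S P hP χ i) (l : ZMod (P i).q) := by
  rw [charVal_of_coprime χ hl]
  conv_lhs => rw [eq_auxProd_auxComp S P hP hχ]
  rw [auxProd_apply, Units.coe_prod]
  refine Finset.prod_congr rfl fun i _ => ?_
  rw [unitsMap_unitOfCoprime, ofUnitHom_natCast (hl.coprime_dvd_right (dvd_auxLevel S P i))]

omit [CharZero K] in
/-- `auxProd ψ` at a natural number. -/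
theorem charVal_auxProd (ψ : ∀ i, (ZMod (P i).q)ˣ →* Kˣ) {l : ℕ}
    (hl : l.Coprime (auxLevel S P)) :
    charVal (auxProd S P ψ) l = ∏ i, MulChar.ofUnitHom (ψ i) (l : ZMod (P i).q) := by
  rw [charVal_of_coprime _ hl, auxProd_apply, Units.coe_prod]
  refine Finset.prod_congr rfl fun i _ => ?_
  rw [unitsMap_unitOfCoprime, ofUnitHom_natCast (hl.coprime_dvd_right (dvd_auxLevel S P i))]

/-- **An eigenclass of a system twisted down to a single component.**  `M` contains the level and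
the other primes. -/
theorem exists_singleComp_class (hP : IsDepth S n P) (hχ : IsAuxChar S P n χ)
    (hne : goodEigen (auxLevel S P) χ lam ≠ ⊥)
    {ψ : ∀ i, (ZMod (P i).q)ˣ →* Kˣ} (hψ : ∀ i, ψ i ^ 2 * auxComp S P hP χ i = 1)
    (hψ1 : ∀ i, auxComp S P hP χ i = 1 → ψ i = 1) (i : ι) :
    ∃ M : ℕ, NeZero M ∧ ¬ (P i).q ∣ M ∧ S.anchor.N ∣ M ∧
      (∀ l : ℕ, l.Prime → ¬ l ∣ (P i).q * M * 2 → ¬ l ∣ 2 * auxLevel S P) ∧
      auxLevel S P ∣ (P i).q * M ∧
      ∃ x : bettiH1 (Gamma0 ((P i).q * M)) (nebenChar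
          ((auxComp S P hP χ i).comp (ZMod.unitsMap (dvd_mul_right (P i).q M)))) K, x ≠ 0 ∧
        ∀ l : Nat.Primes, ¬ (l : ℕ) ∣ (P i).q * M * 2 →
          bettiHeckeOp ((P i).q * M) K
              ((auxComp S P hP χ i).comp (ZMod.unitsMap (dvd_mul_right (P i).q M))) l x =
            (MulChar.ofUnitHom (ψ i)⁻¹ ((l : ℕ) : ZMod (P i).q) *
              (charVal (auxProd S P ψ) l * lam l)) • x := by
  classical
  obtain ⟨y, hy, hy0⟩ := (Submodule.ne_bot_iff _).mp hne
  let q : ℕ := (P i).q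
  let J : Finset ι := Finset.univ.filter fun j => j ≠ i ∧ auxComp S P hP χ j ≠ 1
  let Q : Finset ℕ := J.image fun j => (P j).q
  have hJ : ∀ {j}, j ∈ J → j ≠ i ∧ auxComp S P hP χ j ≠ 1 := fun hj => (Finset.mem_filter.mp hj).2
  let ψQ : (r : ℕ) → (ZMod r)ˣ →* Kˣ :=
    fun r => ∏ j, if h : (P j).q = r then h ▸ ψ j else 1
  have hψQ : ∀ j, ψQ (P j).q = ψ j := fun j => by
    show ∏ j', (if h : (P j').q = (P j).q then h ▸ ψ j' else 1) = _
    rw [Finset.prod_eq_single j (fun j' _ hj' => dif_neg fun h => hj' (hP.injective h))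
      (fun h => absurd (Finset.mem_univ j) h), dif_pos rfl]
  let R : ℕ := auxSplit S P i
  let M : ℕ := R * ∏ r ∈ Q, r
  have hqR : q * R = auxLevel S P := mul_auxSplit S P i
  have hqM : q * M = auxLevel S P * ∏ r ∈ Q, r := by rw [← hqR, mul_assoc]
  have hQmem : ∀ r ∈ Q, ∃ j, j ∈ J ∧ (P j).q = r := fun r hr => Finset.mem_image.mp hr
  have hQdvd : ∀ r ∈ Q, r ∣ auxLevel S P := fun r hr => by
    obtain ⟨j, -, rfl⟩ := hQmem r hr
    exact dvd_auxLevel S P j
  have hqQ : q ∉ Q := fun h => by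
    obtain ⟨j, hj, he⟩ := hQmem q h
    exact (hJ hj).1 (hP.injective he)
  have hsq := auxLevel_squarefree S P hP
  have hprimeQ : ∀ r ∈ Q, r.Prime := fun r hr => by
    obtain ⟨j, -, rfl⟩ := hQmem r hr
    exact (P j).hq
  have hMdvd : ∀ m, m ∣ R ∨ m ∈ Q → m ∣ M := by
    rintro m (h | h)
    · exact h.mul_right _
    · exact (Finset.dvd_prod_of_mem id h).mul_left R
  have hNM : S.anchor.N ∣ M := by
    refine hMdvd _ (Or.inl ?_)
    have hc : S.anchor.N.Coprime q := Nat.Coprime.symm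
      ((P i).hq.coprime_iff_not_dvd.mpr fun h => hP.prime_to i (dvd_mul_of_dvd_right h 2))
    exact hc.dvd_of_dvd_mul_left (hqR.symm ▸ level_dvd_auxLevel S P)
  have hqndM : ¬ q ∣ M := by
    intro h
    rcases (P i).hq.dvd_mul.mp h with h | h
    · exact (P i).hq.not_dvd_one ((coprime_auxSplit S P hP i).eq_one_of_dvd h ▸ dvd_refl _)
    · obtain ⟨r, hr, hd⟩ := ((P i).hq.prime.dvd_finsetProd_iff _).mp h
      exact hqQ (by rwa [show q = r from (Nat.prime_dvd_prime_iff_eq (P i).hq (hprimeQ r hr)).mp hd])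
  have hM0 : M ≠ 0 := fun h => hqndM (h ▸ dvd_zero q)
  have : NeZero M := ⟨hM0⟩
  have : NeZero (q * M) := ⟨mul_ne_zero (P i).hq.ne_zero hM0⟩
  have hgood : ∀ l : ℕ, l.Prime → ¬ l ∣ q * M * 2 → ¬ l ∣ 2 * auxLevel S P := fun l _ hl h =>
    hl (h.trans (by rw [hqM, mul_comm _ 2]; exact mul_dvd_mul_left 2 (dvd_mul_right _ _)))
  have hfac : ∀ m : ℕ, m.Coprime (auxLevel S P) →
      twistFactor Q ψQ m = ∏ j ∈ J, MulChar.ofUnitHom (ψ j) (m : ZMod (P j).q) := fun m _ => by
    rw [twistFactor, Finset.prod_image fun a _ b _ h => hP.injective h]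
    exact Finset.prod_congr rfl fun j _ => by rw [hψQ]
  -- the components outside `J` other than `i` are trivial
  have hsplit : ∀ (f : ∀ j, (ZMod (P j).q)ˣ →* Kˣ), (∀ j, auxComp S P hP χ j = 1 → f j = 1) →
      ∀ m : ℕ, m.Coprime (auxLevel S P) →
      ∏ j, MulChar.ofUnitHom (f j) (m : ZMod (P j).q) =
        MulChar.ofUnitHom (f i) (m : ZMod q) *
          ∏ j ∈ J, MulChar.ofUnitHom (f j) (m : ZMod (P j).q) := by
    intro f hf m hm
    rw [← Finset.mul_prod_erase _ _ (Finset.mem_univ i)]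
    refine congrArg (_ * ·) (Finset.prod_subset (fun j hj => ?_) fun j hj hjJ => ?_).symm
    · exact Finset.mem_erase.mpr ⟨(hJ hj).1, Finset.mem_univ j⟩
    · have h1 : auxComp S P hP χ j = 1 := by
        by_contra h1
        exact hjJ (Finset.mem_filter.mpr ⟨Finset.mem_univ j, Finset.ne_of_mem_erase hj, h1⟩)
      rw [hf j h1, ofUnitHom_natCast (hm.coprime_dvd_right (dvd_auxLevel S P j))]
      rfl
  have hχval : ∀ m : ℕ, m.Coprime (auxLevel S P) →
      charVal χ m * twistFactor Q ψQ m ^ 2 =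
        MulChar.ofUnitHom (auxComp S P hP χ i) (m : ZMod q) := by
    intro m hm
    rw [charVal_eq_prod S hP hχ hm, hsplit _ (fun j h => h) m hm, hfac m hm, ← Finset.prod_pow,
      mul_assoc, ← Finset.prod_mul_distrib, Finset.prod_eq_one fun j _ => ?_, mul_one]
    have hmj := hm.coprime_dvd_right (dvd_auxLevel S P j)
    rw [ofUnitHom_natCast hmj, ofUnitHom_natCast hmj, ← Units.val_pow_eq_pow_val, ← Units.val_mul,
      ← MonoidHom.pow_apply, ← MonoidHom.mul_apply, mul_comm (auxComp S P hP χ j), hψ j,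
      MonoidHom.one_apply, Units.val_one]
  obtain ⟨Φ, hΦi, hΦl⟩ := exists_partialTwist Q (auxLevel S P) χ ψQ
    (fun r hr => ⟨hprimeQ r hr, hQdvd r hr, fun h => (hprimeQ r hr).not_isUnit
      (hsq r (by rwa [← pow_two]))⟩)
    (fun r hr h1 => by
      obtain ⟨j, hj, rfl⟩ := hQmem r hr
      rw [hψQ] at h1
      exact (hJ hj).2 (MonoidHom.ext fun u => by simpa [h1] using DFunLike.congr_fun (hψ j) u))
    (q * M) hqM
    (fun r hr => by
      obtain ⟨j, hj, rfl⟩ := hQmem r hr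
      obtain ⟨u, hu⟩ : ∃ u, auxComp S P hP χ j u ≠ 1 := by
        by_contra hall
        push Not at hall
        exact (hJ hj).2 (MonoidHom.ext hall)
      -- the other factors of the final level
      let R' : ℕ := auxSplit S P j * ∏ r ∈ Q.erase (P j).q, r
      have hcop : (P j).q.Coprime R' := by
        refine (coprime_auxSplit S P hP j).mul_right (Nat.Coprime.prod_right fun r hr => ?_)
        exact (Nat.coprime_primes (P j).hq (hprimeQ r (Finset.mem_of_mem_erase hr))).2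
          (Finset.ne_of_mem_erase hr).symm
      have hN : q * M = (P j).q * (P j).q * R' := by
        rw [hqM, ← Finset.mul_prod_erase Q _ hr, ← mul_auxSplit S P j]
        ring
      obtain ⟨m, hm1, hm2⟩ := Nat.chineseRemainder hcop (u : ZMod (P j).q).val 1
      have hmu : (m : ZMod (P j).q) = u := by
        rw [(ZMod.natCast_eq_natCast_iff _ _ _).2 hm1, ZMod.natCast_zmod_val]
      have hmR : (m : ZMod R') = 1 := by
        rw [(ZMod.natCast_eq_natCast_iff _ _ _).2 hm2, Nat.cast_one]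
      have hone : ∀ d, d ∣ q * M → d.Coprime (P j).q → (m : ZMod d) = 1 := fun d hd hdc => by
        have hdR : d ∣ R' := Nat.Coprime.dvd_of_dvd_mul_left (hdc.mul_right hdc) (hN ▸ hd)
        have := congrArg (ZMod.castHom hdR (ZMod d)) hmR
        rwa [map_natCast, map_one] at this
      have hmq : m.Coprime (P j).q := by
        rw [← ZMod.isUnit_iff_coprime, hmu]
        exact u.isUnit
      have hmL : m.Coprime (auxLevel S P) := by
        rw [← mul_auxSplit S P j]
        refine hmq.mul_right ?_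
        rw [← ZMod.isUnit_iff_coprime, hone _ ?_ (coprime_auxSplit S P hP j).symm]
        · exact isUnit_one
        · exact hN ▸ ((dvd_mul_right _ _).mul_left ((P j).q * (P j).q))
      refine ⟨m, hmL, hone, fun h => hu (Units.ext ?_)⟩
      have h' : charVal χ m = 1 := by rw [charVal_of_coprime χ hmL, h, Units.val_one]
      rw [charVal_eq_prod S hP hχ hmL, Finset.prod_eq_single j ?_
        (fun h => absurd (Finset.mem_univ j) h), ofUnitHom_natCast hmq,
        show ZMod.unitOfCoprime m hmq = u from Units.ext hmu] at h'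
      · exact h'
      · intro b _ hb
        refine ofUnitHom_natCast_of_eq_one (hone _ ?_ ?_) _
        · exact hqM ▸ (dvd_auxLevel S P b).mul_right _
        · exact (Nat.coprime_primes (P b).hq (P j).hq).2 fun e => hb (hP.injective e))
    ((auxComp S P hP χ i).comp (ZMod.unitsMap (dvd_mul_right q M)))
    (fun m hm hm' => by
      rw [MonoidHom.comp_apply, unitsMap_unitOfCoprime, ← ofUnitHom_natCast, ← hχval m hm',
        charVal_of_coprime χ hm'])
  refine ⟨M, ⟨hM0⟩, hqndM, hNM, hgood, hqM ▸ dvd_mul_right _ _, Φ y,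
    fun h => hy0 (hΦi (by rw [h, map_zero])), fun l hl => ?_⟩
  have hlL : ¬ (l : ℕ) ∣ 2 * auxLevel S P := hgood l l.2 hl
  have hcop : (l : ℕ).Coprime (auxLevel S P) :=
    l.2.coprime_iff_not_dvd.2 fun h => hlL (h.mul_left 2)
  have hlQ : (l : ℕ) ∉ Q := fun h => hlL ((hQdvd _ h).mul_left 2)
  rw [hΦl l hlQ, mem_goodEigen.mp hy l hlL, map_smul, smul_smul]
  refine congrArg (· • Φ y) ?_
  have hlq := hcop.coprime_dvd_right (dvd_auxLevel S P i)
  rw [charVal_auxProd S ψ hcop, hsplit ψ hψ1 _ hcop, ← hfac _ hcop, ofUnitHom_natCast hlq,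
    ofUnitHom_natCast hlq, MonoidHom.inv_apply, mul_assoc, ← mul_assoc (((ψ i _)⁻¹ : Kˣ) : K),
    Units.inv_mul, one_mul]

end single

end FermatLib.MLT.Two

end
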