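import Fermat.Agent.Galois.RepAdic

/-!
# Twisting an adic representation by a character of finite level
-/

set_option autoImplicit false

noncomputable section

open Polynomial

namespace FermatLib.MLT.Two

open FermatLib.Galois

local notation "Qbar" => AlgebraicClosure ℚ
local notation "Γℚ" => (AlgebraicClosure ℚ ≃ₐ[ℚ] AlgebraicClosure ℚ)

variable {A : Type} [CommRing A] [IsLocalRing A]

/-- The twist of an adic representation by a character trivial on a finite level. -/
def twistAdic (ρ : GaloisRepAdic A) (φ : Γℚ →* Aˣ)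
    (hφ : ∃ F : IntermediateField ℚ Qbar, FiniteDimensional ℚ F ∧
      ∀ σ ∈ F.fixingSubgroup, φ σ = 1) : GaloisRepAdic A where
  V := ρ.V
  finrank_eq := ρ.finrank_eq
  ρ :=
    { toFun := fun σ => (φ σ : A) • ρ.ρ σ
      map_one' := by simp
      map_mul' := fun σ τ => by rw [map_mul, map_mul, Units.val_mul, smul_mul_smul_comm] }
  isAdicContinuous := by
    intro n
    obtain ⟨F, hF, hFφ⟩ := hφ
    obtain ⟨L, hL, hLρ⟩ := ρ.isAdicContinuous n
    have := hF
    have := hL
    refine ⟨L ⊔ F, IntermediateField.finiteDimensional_sup L F, fun σ hσ v => ?_⟩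
    have h1 : φ σ = 1 := hFφ σ ((IntermediateField.mem_fixingSubgroup_iff _ _).mpr fun x hx =>
      hσ x ((le_sup_right : F ≤ L ⊔ F) hx))
    show (φ σ : A) • ρ.ρ σ v - v ∈ _
    rw [h1, Units.val_one, one_smul]
    exact hLρ σ (fun x hx => hσ x ((le_sup_left : L ≤ L ⊔ F) hx)) v

variable (ρ : GaloisRepAdic A) (φ : Γℚ →* Aˣ)
  (hφ : ∃ F : IntermediateField ℚ Qbar, FiniteDimensional ℚ F ∧
    ∀ σ ∈ F.fixingSubgroup, φ σ = 1)

theorem trace_twistAdic (σ : Γℚ) : (twistAdic ρ φ hφ).trace σ = (φ σ : A) * ρ.trace σ := by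
  show LinearMap.trace A ρ.V ((φ σ : A) • ρ.ρ σ) = _
  rw [map_smul, smul_eq_mul]
  rfl

theorem det_twistAdic (σ : Γℚ) :
    LinearMap.det ((twistAdic ρ φ hφ).ρ σ) = (φ σ : A) ^ 2 * LinearMap.det (ρ.ρ σ) := by
  show LinearMap.det ((φ σ : A) • ρ.ρ σ) = _
  rw [LinearMap.det_smul, ρ.finrank_eq]

theorem charpoly_twistAdic (σ : Γℚ) :
    LinearMap.charpoly ((twistAdic ρ φ hφ).ρ σ) = X ^ 2 - C ((φ σ : A) * ρ.trace σ) * X +
      C ((φ σ : A) ^ 2 * LinearMap.det (ρ.ρ σ)) := by
  rw [adic_charpoly_eq, trace_twistAdic, det_twistAdic]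

theorem isAbsolutelyIrreducible_twistAdic (h : ρ.residual.IsAbsolutelyIrreducible) :
    (twistAdic ρ φ hφ).residual.IsAbsolutelyIrreducible := by
  rw [← hasFullSpan_adicMat_iff] at h ⊢
  obtain ⟨g, hg⟩ := h
  refine ⟨g, ?_⟩
  have key : repGram (adicMat (twistAdic ρ φ hφ)) g =
      Matrix.diagonal (fun i => (φ (g i) : A)) * repGram (adicMat ρ) g *
        Matrix.diagonal (fun i => (φ (g i) : A)) := by
    ext a b
    simp only [Matrix.mul_diagonal, Matrix.diagonal_mul, repGram, Matrix.of_apply, ← map_mul,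
      adicMat, trace_repMatrix]
    show (twistAdic ρ φ hφ).trace (g a * g b) = _ * ρ.trace (g a * g b) * _
    rw [trace_twistAdic, map_mul, Units.val_mul]
    ring
  have hd : IsUnit (∏ i, (φ (g i) : A)) :=
    IsUnit.prod_univ_iff.mpr fun i => (φ (g i)).isUnit
  rw [key, Matrix.det_mul, Matrix.det_mul, Matrix.det_diagonal]
  exact (hd.mul hg).mul hd

/-- The coefficients of a monic quadratic. -/
theorem eq_of_quadratic_eq {R : Type*} [CommRing R] {a b a' b' : R}
    (h : X ^ 2 - C a * X + C b = X ^ 2 - C a' * X + C b') : a = a' ∧ b = b' := by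
  refine ⟨?_, ?_⟩
  · simpa using congrArg (fun f => f.coeff 1) h
  · simpa using congrArg (fun f => f.coeff 0) h

end FermatLib.MLT.Two

end
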