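import Fermat.Agent.MLT.Two.Sys.Defs
import Fermat.Agent.Galois.RepDVR
import Fermat.Agent.Galois.RepAdic
import Fermat.Agent.Modular.TwistSystemEigen
import Mathlib.FieldTheory.IntermediateField.Adjoin.Algebra

/-!
# Coefficient rings inside an algebraically closed field
-/

set_option autoImplicit false

noncomputable section

open IsLocalRing

namespace FermatLib.MLT.Two

variable {O : Type} [CommRing O] [IsDomain O] [IsDiscreteValuationRing O]
  [IsAdicComplete (maximalIdeal O) O] [CharZero O]

section field

variable {k : Type} [Field k] [Finite k] (S : System O k)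

omit [IsAdicComplete (maximalIdeal O) O] [CharZero O] [IsDomain O] [IsDiscreteValuationRing O] in
include S in
theorem finite_residueField_of_system [IsLocalRing O] : Finite (ResidueField O) := by
  have hker : RingHom.ker S.red = maximalIdeal O :=
    IsLocalRing.eq_maximalIdeal (RingHom.ker_isMaximal_of_surjective _ S.red_surjective)
  exact Finite.of_equiv k ((S.red.quotientKerEquivOfSurjective S.red_surjective).symm.trans
    (Ideal.quotEquivOfEq hker)).toEquiv

end field

variable [Finite (ResidueField O)] {K : Type} [Field K] [Algebra O K]

omit [CharZero O] [IsAdicComplete (maximalIdeal O) O] [Finite (ResidueField O)] [IsDomain O]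
  [IsDiscreteValuationRing O] in
/-- A ring map from an integral extension of a domain is injective if it is on the base. -/
theorem injective_of_comp_algebraMap {A B : Type} [CommRing A] [Nontrivial A] [CommRing B] [IsDomain B]
    [Algebra A B] [Algebra.IsIntegral A B] {f : B →+* K} {g : A →+* K}
    (h : f.comp (algebraMap A B) = g) (hg : Function.Injective g) : Function.Injective f := by
  rw [RingHom.injective_iff_ker_eq_bot]
  haveI : (RingHom.ker f).IsPrime := RingHom.ker_isPrime f
  refine Ideal.eq_bot_of_comap_eq_bot (R := A) ?_
  rw [RingHom.comap_ker, h, (RingHom.injective_iff_ker_eq_bot g).mp hg]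

/-- Finitely many elements integral over `O` lie in a complete discrete valuation ring inside
`K` which is finite over `O`. -/
theorem exists_coeffRing [CharZero K] (hO : Function.Injective (algebraMap O K)) (s : Set K)
    (hs : s.Finite) (hint : ∀ x ∈ s, IsIntegral O x) :
    ∃ (O' : Type) (_ : CommRing O') (_ : IsDomain O') (_ : IsDiscreteValuationRing O')
      (_ : IsAdicComplete (maximalIdeal O') O') (_ : Finite (ResidueField O')) (_ : CharZero O')
      (_ : Algebra O O') (_ : Module.Finite O O') (_ : IsLocalHom (algebraMap O O'))
      (j' : O' →+* K),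
      Function.Injective j' ∧ j'.comp (algebraMap O O') = algebraMap O K ∧
        ∀ x ∈ s, x ∈ j'.range := by
  let K₀ := FractionRing O
  letI : Algebra K₀ K := (IsFractionRing.lift hO).toAlgebra
  haveI : IsScalarTower O K₀ K := IsScalarTower.of_algebraMap_eq fun x =>
    (IsFractionRing.lift_algebraMap hO x).symm
  haveI : CharZero K₀ := charZero_of_injective_algebraMap (IsFractionRing.injective O K₀)
  haveI : Finite s := hs.to_subtype
  let K' : IntermediateField K₀ K := IntermediateField.adjoin K₀ s
  haveI : FiniteDimensional K₀ K' :=
    IntermediateField.finiteDimensional_adjoin fun x hx => (hint x hx).tower_top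
  obtain ⟨O', _, _, _, _, _, _, _, _, hfr, hst, hinj, hfin, hch⟩ := FermatLib.Galois.exists_dvr_extension O K₀ K'
  let j' : O' →+* K := (algebraMap K' K).comp (algebraMap O' K')
  refine ⟨O', inferInstance, inferInstance, inferInstance, inferInstance, hfin inferInstance,
    hch inferInstance, inferInstance, inferInstance, inferInstance, j',
    (algebraMap K' K).injective.comp (IsFractionRing.injective O' K'), ?_, fun x hx => ?_⟩
  · refine RingHom.ext fun c => ?_
    show algebraMap K' K (algebraMap O' K' (algebraMap O O' c)) = _
    rw [← IsScalarTower.algebraMap_apply O O' K']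
    rfl
  · have hxK : x ∈ K' := IntermediateField.subset_adjoin K₀ s hx
    have hxint : IsIntegral O (⟨x, hxK⟩ : K') :=
      (isIntegral_algHom_iff (K'.val.restrictScalars O) Subtype.val_injective).mp (hint x hx)
    obtain ⟨y, hy⟩ := IsIntegrallyClosed.algebraMap_eq_of_integral (R := O') (K := K')
      (hxint.tower_top)
    exact ⟨y, congrArg (algebraMap K' K) hy⟩

/-- A finite `ℤ`-algebra point with values generated inside the image of `j'` factors. -/
theorem exists_factor_point {O' : Type} [CommRing O'] {j' : O' →+* K} (hj' : Function.Injective j')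
    {T : Type*} [CommRing T] (θ : T →+* K) (gens : Set T) (hgens : Submodule.span ℤ gens = ⊤)
    (h : ∀ t ∈ gens, θ t ∈ j'.range) : ∃ π : T →+* O', j'.comp π = θ := by
  have hmem : ∀ t, θ t ∈ j'.range := fun t => by
    have ht : t ∈ Submodule.span ℤ gens := hgens ▸ Submodule.mem_top
    induction ht using Submodule.span_induction with
    | mem x hx => exact h x hx
    | zero => rw [map_zero]; exact zero_mem _
    | add x y _ _ hx hy => rw [map_add]; exact add_mem hx hy
    | smul m x _ hx => rw [map_zsmul]; exact zsmul_mem hx m
  let e := RingEquiv.ofBijective j'.rangeRestrict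
    ⟨fun a b hab => hj' (congrArg Subtype.val hab), j'.rangeRestrict_surjective⟩
  refine ⟨e.symm.toRingHom.comp (θ.codRestrict j'.range hmem), RingHom.ext fun t => ?_⟩
  show j' (e.symm ⟨θ t, hmem t⟩) = θ t
  exact congrArg Subtype.val (e.apply_symm_apply ⟨θ t, hmem t⟩)

end FermatLib.MLT.Two

end
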