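import Fermat.Agent.MLT.Two.Sys.Defs
import Fermat.Agent.Galois.FrobeniusDensity
import Mathlib.RingTheory.LocalRing.Basic
import Mathlib.FieldTheory.IntermediateField.Adjoin.Basic

/-!
# V4-Sys: a prime `≡ 1 (mod M)` at which a residual system is not Eisenstein

A commutator of a swap and a rotation is a rotation fixing all roots of unity; a Frobenius near it
has odd trace, so an eigenvalue congruent to it differs from `l + 1`.
-/

set_option autoImplicit false

noncomputable section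

namespace FermatLib.MLT.Two

local notation "Qbar" => AlgebraicClosure ℚ
local notation "Γℚ" => (AlgebraicClosure ℚ ≃ₐ[ℚ] AlgebraicClosure ℚ)

variable {O : Type} [CommRing O] {k : Type} [Field k] (S : System O k)

/-- An element fixing `μ_M` acting residually as a rotation. -/
theorem exists_rot_modCycloChar_eq_one (M : ℕ) [NeZero M] :
    ∃ g : Γℚ, S.anchor.ρ g = rotMat S.anchor.ω 1 ∧ FermatLib.Galois.modCycloChar M g = 1 := by
  obtain ⟨r, hr⟩ := S.anchor.exists_rot
  obtain ⟨s, hs⟩ := S.anchor.exists_swap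
  set ω := S.anchor.ω
  have hω : ω ^ 2 + ω + 1 = 0 := S.anchor.omega_rel
  have h2 : (2 : k) = 0 := S.anchor.two_eq_zero
  have h3 : ω ^ 3 = 1 := by linear_combination (ω - 1) * hω
  have hinv : S.anchor.ρ r⁻¹ = rotMat ω 2 := by
    have h1 : S.anchor.ρ r⁻¹ * S.anchor.ρ r = 1 := by rw [← map_mul, inv_mul_cancel, map_one]
    refine left_inv_eq_right_inv h1 ?_
    rw [hr]
    ext i j
    fin_cases i <;> fin_cases j <;> simp [rotMat, Matrix.mul_apply, Fin.sum_univ_two] <;>
      first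
        | linear_combination h3
        | linear_combination (ω ^ 3 + 1) * h3
  have hsinv : S.anchor.ρ s⁻¹ = swapMat ω 0 := by
    have h1 : S.anchor.ρ s⁻¹ * S.anchor.ρ s = 1 := by rw [← map_mul, inv_mul_cancel, map_one]
    refine left_inv_eq_right_inv h1 ?_
    rw [hs]
    ext i j
    fin_cases i <;> fin_cases j <;> simp [swapMat, Matrix.mul_apply, Fin.sum_univ_two]
  refine ⟨s * r * s⁻¹ * r⁻¹, ?_, ?_⟩
  · rw [map_mul, map_mul, map_mul, hs, hr, hsinv, hinv]
    ext i j
    fin_cases i <;> fin_cases j <;>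
      simp [rotMat, swapMat, Matrix.mul_apply, Fin.sum_univ_two] <;>
      first
        | linear_combination ω * h3
        | linear_combination ω ^ 2 * h3
  · rw [map_mul, map_mul, map_mul, map_inv, map_inv, mul_comm (FermatLib.Galois.modCycloChar M s),
      mul_inv_cancel_right, mul_inv_cancel]

/-- A prime `≡ 1 (mod M)`, outside any finite set, with odd `S.ap`. -/
theorem exists_prime_red_ap_ne_zero (M : ℕ) [NeZero M] (Ex : Finset ℕ) :
    ∃ l : Nat.Primes, (l : ℕ) ∉ Ex ∧ ((l : ℕ) : ZMod M) = 1 ∧ S.red (S.ap l : O) ≠ 0 := by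
  obtain ⟨g, hg, hgc⟩ := exists_rot_modCycloChar_eq_one S M
  obtain ⟨L₁, hL₁, hρ⟩ := S.anchor.finiteLevel
  obtain ⟨L₂, hL₂, hc⟩ := FermatLib.Galois.exists_finite_level_modCycloChar M
  have := hL₁
  have := hL₂
  have : FiniteDimensional ℚ (L₁ ⊔ L₂ : IntermediateField ℚ Qbar) :=
    IntermediateField.finiteDimensional_sup L₁ L₂
  obtain ⟨ℓ, hℓ, hℓE, A, hA, σ, hσ, a, b, ha, hb⟩ :=
    FermatLib.Galois.exists_isFrobeniusAt_agreeOn (L₁ ⊔ L₂) g
      (Ex ∪ (2 * S.anchor.N * M).primeFactors)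
  have hfix : ∀ u v : Γℚ, (∀ x ∈ L₁ ⊔ L₂, u x = v x) → S.anchor.ρ u = S.anchor.ρ v ∧
      FermatLib.Galois.modCycloChar M u = FermatLib.Galois.modCycloChar M v := by
    intro u v huv
    have hx : ∀ x ∈ L₁ ⊔ L₂, (v⁻¹ * u) x = x := fun x hx => by
      rw [AlgEquiv.mul_apply, huv x hx, ← AlgEquiv.mul_apply, inv_mul_cancel, AlgEquiv.one_apply]
    constructor
    · have h1 := hρ (v⁻¹ * u) fun x h => hx x ((le_sup_left : L₁ ≤ L₁ ⊔ L₂) h)
      calc S.anchor.ρ u = S.anchor.ρ (v * (v⁻¹ * u)) := by rw [mul_inv_cancel_left]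
        _ = _ := by rw [map_mul, h1, mul_one]
    · have h1 := hc (v⁻¹ * u) ((IntermediateField.mem_fixingSubgroup_iff _ _).mpr fun x h =>
        hx x ((le_sup_right : L₂ ≤ L₁ ⊔ L₂) h))
      rw [map_mul, map_inv, inv_mul_eq_one] at h1
      exact h1.symm
  have hnd : ¬ ℓ ∣ 2 * S.anchor.N * M := fun h => hℓE (Finset.mem_union_right _
    (Nat.mem_primeFactors.mpr ⟨hℓ, h, mul_ne_zero (mul_ne_zero two_ne_zero
      S.anchor.squarefree.ne_zero) (NeZero.ne M)⟩))
  have hℓ2 : ℓ ≠ 2 := fun h => hnd (by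
    subst h
    exact Dvd.dvd.mul_right (dvd_mul_right 2 _) _)
  have hℓN : ¬ ℓ ∣ S.anchor.N := fun h => hnd (Dvd.dvd.mul_right (h.mul_left 2) _)
  have hℓM : ¬ ℓ ∣ M := fun h => hnd (h.mul_left _)
  have hσc : FermatLib.Galois.modCycloChar M σ = 1 := by
    rw [(hfix _ _ ha).2, map_pow, hgc, one_pow]
  refine ⟨⟨ℓ, hℓ⟩, fun h => hℓE (Finset.mem_union_left _ h), ?_, fun h0 => ?_⟩
  · have := FermatLib.Galois.modCycloChar_frobenius (n := M) hℓ hℓM hA hσ
    rw [hσc] at this
    simpa using this.symm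
  · set ω := S.anchor.ω
    have hω : ω ^ 2 + ω + 1 = 0 := S.anchor.omega_rel
    have h3 : ω ^ 3 = 1 := by linear_combination (ω - 1) * hω
    have htr : (S.anchor.ρ σ).trace = 0 := by
      have h1 := (S.frobenius ℓ hℓ hℓ2 hℓN A hA σ hσ).1
      rw [← S.map_eq σ, ← h0, ← h1]
      simp [Matrix.trace]
    have hpow : ∀ n : ℕ, rotMat ω 1 ^ n = rotMat ω n := by
      intro n
      induction n with
      | zero => ext i j; fin_cases i <;> fin_cases j <;> simp [rotMat]
      | succ n ih =>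
        rw [pow_succ, ih]
        ext i j
        fin_cases i <;> fin_cases j <;> simp [rotMat, Matrix.mul_apply, Fin.sum_univ_two] <;> ring
    have hσρ : S.anchor.ρ σ = rotMat ω a := by rw [(hfix _ _ ha).1, map_pow, hg, hpow]
    have hne : S.anchor.ρ σ ≠ 1 := by
      intro h1
      have h2 := (hfix _ _ hb).1
      rw [map_pow, h1, one_pow, hg] at h2
      have h00 := congrFun (congrFun h2 0) 0
      simp [rotMat] at h00
      rw [← h00] at hω
      apply one_ne_zero (α := k)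
      linear_combination hω - S.anchor.two_eq_zero
    rw [hσρ, rotMat, Matrix.trace_fin_two_of] at htr
    rw [mul_comm 2 a, pow_mul] at htr
    rw [hσρ, rotMat, mul_comm 2 a, pow_mul] at hne
    set z := ω ^ a with hz
    have hz3 : z ^ 3 = 1 := by rw [hz, ← pow_mul, mul_comm, pow_mul, h3, one_pow]
    have hzz : z * (z + 1) = 0 := by linear_combination htr
    rcases mul_eq_zero.mp hzz with h | h
    · simp [h] at hz3
    · have hz1 : z = 1 := by linear_combination h - S.anchor.two_eq_zero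
      refine hne ?_
      rw [hz1, one_pow]
      exact Matrix.one_fin_two.symm

variable [IsLocalRing O] {K : Type} [Field K] [Algebra O K]

/-- **A residual system is not Eisenstein at some prime `≡ 1 (mod M)`.** -/
theorem exists_prime_ne_succ {L : ℕ} [NeZero L] (M : ℕ) [NeZero M] {lam : ℕ → K}
    (hres : IsResidualSystem S L lam) :
    ∃ l : Nat.Primes, ¬ (l : ℕ) ∣ 2 * L ∧ ((l : ℕ) : ZMod M) = 1 ∧
      lam l ≠ ((l : ℕ) : K) + 1 := by
  obtain ⟨l, hlE, hl1, hap⟩ := exists_prime_red_ap_ne_zero S M (2 * L).primeFactors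
  have hl : ¬ (l : ℕ) ∣ 2 * L := fun h =>
    hlE (Nat.mem_primeFactors.mpr ⟨l.2, h, mul_ne_zero two_ne_zero (NeZero.ne L)⟩)
  refine ⟨l, hl, hl1, fun heq => ?_⟩
  obtain ⟨a, ha, hnu⟩ := hres l l.2 hl
  refine hnu ?_
  have hodd : S.red ((((l : ℕ) + 1 : ℕ) : O) - (S.ap l : O)) ≠ 0 := by
    have hodd2 : (2 : ℕ) ∣ (l : ℕ) + 1 := by
      have h2 : (l : ℕ) ≠ 2 := fun h => hl (h ▸ dvd_mul_right 2 L)
      have := l.2.odd_of_ne_two h2
      obtain ⟨d, hd⟩ := this
      omega
    obtain ⟨c, hc⟩ := hodd2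
    rw [map_sub, hc, Nat.cast_mul, map_mul, Nat.cast_two, map_ofNat, S.anchor.two_eq_zero, zero_mul,
      zero_sub, neg_ne_zero]
    exact hap
  have hu : IsUnit ((((l : ℕ) + 1 : ℕ) : O) - (S.ap l : O)) := by
    have := RingHom.ker_isMaximal_of_surjective S.red S.red_surjective
    rw [← IsLocalRing.notMem_maximalIdeal, ← IsLocalRing.eq_maximalIdeal ‹(RingHom.ker S.red).IsMaximal›]
    exact hodd
  convert hu.map (algebraMap O (integralClosure O K)) using 1
  refine Subtype.ext ?_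
  push_cast
  rw [ha, heq]
  simp

end FermatLib.MLT.Two

end
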