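import Fermat.Agent.MLT.Two.Sys.SemisimpleTrivial
import Fermat.Agent.MLT.Two.Sys.NonEisenstein
import Fermat.Agent.Modular.TwistSystemInjective
import Mathlib.Algebra.CharP.Lemmas
import Mathlib.FieldTheory.Finite.Basic

/-!
# V4-Sys: semisimplicity of good Hecke operators on the systems

A character of two-power order through auxiliary primes is removed one prime at a time by an
injective twist with a square root of the inverse of its component.
-/

set_option autoImplicit false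

noncomputable section

open CongruenceSubgroup

namespace FermatLib.MLT.Two.Semisimple

open FermatLib.Modular.Twist

section twist

variable {K : Type} [Field K] [IsAlgClosed K] [CharZero K]

omit [CharZero K] in
/-- A square root of the inverse of a character of two-power order of `(ℤ/q)ˣ`. -/
theorem exists_sqrt_char {q n : ℕ} [Fact q.Prime] (hq : 2 ^ (n + 1) ∣ q - 1)
    (θ : (ZMod q)ˣ →* Kˣ) (hθ : ∀ u, θ u ^ 2 ^ n = 1) :
    ∃ ψ : (ZMod q)ˣ →* Kˣ, (∀ u, ψ u ^ 2 = (θ u)⁻¹) ∧ ∀ u, ψ u ^ 2 ^ (n + 1) = 1 := by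
  obtain ⟨g, hg⟩ := IsCyclic.exists_generator (α := (ZMod q)ˣ)
  obtain ⟨z, hz⟩ := IsAlgClosed.exists_pow_nat_eq (((θ g)⁻¹ : Kˣ) : K) two_pos
  have hz0 : z ≠ 0 := fun h => Units.ne_zero (θ g)⁻¹ (by rw [← hz, h, zero_pow two_ne_zero])
  set w : Kˣ := Units.mk0 z hz0
  have hw2 : w ^ 2 = (θ g)⁻¹ := Units.ext (by rw [Units.val_pow_eq_pow_val]; exact hz)
  have hwn : w ^ 2 ^ (n + 1) = 1 := by
    rw [pow_succ', pow_mul, hw2, inv_pow, hθ, inv_one]
  have hord : orderOf w ∣ orderOf g := by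
    rw [orderOf_eq_card_of_forall_mem_zpowers hg, Nat.card_eq_fintype_card, ZMod.card_units]
    exact (orderOf_dvd_of_pow_eq_one hwn).trans hq
  let ψ : (ZMod q)ˣ →* Kˣ := monoidHomOfForallMemZpowers hg hord
  have hψg : ψ g = w := monoidHomOfForallMemZpowers_apply_gen hg hord
  refine ⟨ψ, fun u => ?_, fun u => ?_⟩ <;>
    obtain ⟨j, rfl⟩ := Subgroup.mem_zpowers_iff.mp (hg u) <;> rw [map_zpow, hψg]
  · rw [map_zpow, ← zpow_natCast, ← zpow_mul, mul_comm, zpow_mul, zpow_natCast, hw2, inv_zpow]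
  · rw [← zpow_natCast, ← zpow_mul, mul_comm, zpow_mul, zpow_natCast, hwn, one_zpow]

omit [IsAlgClosed K] [CharZero K] in
/-- Generalised eigenvectors along an intertwiner which rescales. -/
theorem pow_sub_smul_apply_intertwine {V W : Type*} [AddCommGroup V] [Module K V]
    [AddCommGroup W] [Module K W] (tw : V →ₗ[K] W) (A : Module.End K V) (B : Module.End K W)
    (c a : K) (h : ∀ z, B (tw z) = c • tw (A z)) (j : ℕ) (y : V) :
    ((B - (c * a) • (1 : Module.End K W)) ^ j) (tw y) =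
      c ^ j • tw (((A - a • (1 : Module.End K V)) ^ j) y) := by
  induction j with
  | zero => simp
  | succ j ihj =>
    rw [pow_succ' (B - _), pow_succ' (A - _), Module.End.mul_apply, Module.End.mul_apply, ihj]
    generalize ((A - a • (1 : Module.End K V)) ^ j) y = z
    simp only [map_smul, map_sub, LinearMap.sub_apply, LinearMap.smul_apply, Module.End.one_apply,
      h]
    module

/-- **Semisimplicity for characters through primes exactly dividing the level.** -/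
theorem bettiHeckeOp_eq_smul {n : ℕ} (Q : Finset ℕ) : ∀ (L : ℕ) [NeZero L]
    (χ : (ZMod L)ˣ →* Kˣ),
    (∀ q ∈ Q, q.Prime ∧ q ∣ L ∧ ¬ q ^ 2 ∣ L ∧ 2 ^ (n + 1) ∣ q - 1) →
    (∀ u, χ u ^ 2 ^ n = 1) →
    (∀ u : (ZMod L)ˣ, (∀ q ∈ Q, ∀ h : q ∣ L, ZMod.unitsMap h u = 1) → χ u = 1) →
    ∀ (x : bettiH1 (Gamma0 L) (nebenChar χ) K) (l₀ : Nat.Primes) (ν : K) (m₀ : ℕ),
    (((l₀ : ℕ) : ZMod (L * ∏ q ∈ Q, q)) = 1) → ν ≠ (l₀ : ℕ) + 1 →
    ((bettiHeckeOp L K χ l₀ - ν • (1 : Module.End K (bettiH1 (Gamma0 L) (nebenChar χ) K))) ^ m₀) x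
      = 0 →
    ∀ (l : Nat.Primes), ¬ (l : ℕ) ∣ L → ∀ (μ : K) (m : ℕ),
    ((bettiHeckeOp L K χ l - μ • (1 : Module.End K (bettiH1 (Gamma0 L) (nebenChar χ) K))) ^ m) x
      = 0 →
    bettiHeckeOp L K χ l x = μ • x := by
  classical
  induction Q using Finset.induction with
  | empty =>
    intro L _ χ _ _ hker x l₀ ν m₀ hl₀ hν hx₀ l hl μ m hx
    obtain rfl : χ = 1 := MonoidHom.ext fun u => hker u (by simp)
    refine bettiHeckeOp_eq_smul_trivial ?_ hν hx₀ hl hx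
    rw [Finset.prod_empty] at hl₀
    have := congrArg (ZMod.castHom (dvd_mul_right L 1) (ZMod L)) hl₀
    rwa [map_natCast, map_one] at this
  | insert q Q hqQ ih =>
    intro L _ χ hQ hpow hker x l₀ ν m₀ hl₀ hν hx₀ l hl μ m hx
    rw [Finset.prod_insert hqQ] at hl₀
    have hQ' : ∀ r ∈ Q, r.Prime ∧ r ∣ L ∧ ¬ r ^ 2 ∣ L ∧ 2 ^ (n + 1) ∣ r - 1 := fun r hr =>
      hQ r (Finset.mem_insert_of_mem hr)
    by_cases htriv : ∀ u : (ZMod L)ˣ, (∀ r ∈ Q, ∀ h : r ∣ L, ZMod.unitsMap h u = 1) → χ u = 1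
    · refine ih L χ hQ' hpow htriv x l₀ ν m₀ ?_ hν hx₀ l hl μ m hx
      have := congrArg (ZMod.castHom (Dvd.intro_left q (by ring) :
        L * ∏ r ∈ Q, r ∣ L * (q * ∏ r ∈ Q, r)) (ZMod (L * ∏ r ∈ Q, r))) hl₀
      rwa [map_natCast, map_one] at this
    obtain ⟨hq, hqL, hq2, hqn⟩ := hQ q (Finset.mem_insert_self q Q)
    have : Fact q.Prime := ⟨hq⟩
    have : NeZero q := ⟨hq.ne_zero⟩
    obtain ⟨M, hLM⟩ := hqL
    have hMdvd : M ∣ L := ⟨q, by rw [hLM, mul_comm]⟩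
    have : NeZero M := ⟨fun h => NeZero.ne L (by rw [hLM, h, mul_zero])⟩
    have hcop : Nat.Coprime q M := hq.coprime_iff_not_dvd.2 fun h =>
      hq2 (by rw [pow_two, hLM]; exact Nat.mul_dvd_mul_left q h)
    have hqL' : q ∣ L := ⟨M, hLM⟩
    -- the section of the reduction at `q`
    have hsec : ∀ t : (ZMod q)ˣ, ∃ s : (ZMod L)ˣ, ZMod.unitsMap hqL' s = t ∧
        ((M : ℕ) : ℤ) ∣ ((s : ZMod L).val : ℤ) - 1 := by
      intro t
      obtain ⟨c, hc1, hc2⟩ := Nat.chineseRemainder hcop (t : ZMod q).val 1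
      have hcL : c.Coprime L := by
        rw [hLM]
        refine Nat.Coprime.mul_right ?_ ?_
        · exact (Nat.ModEq.gcd_eq hc1).trans (ZMod.val_coe_unit_coprime t)
        · exact (Nat.ModEq.gcd_eq hc2).trans (Nat.gcd_one_left M)
      refine ⟨ZMod.unitOfCoprime c hcL, Units.ext ?_, ?_⟩
      · rw [ZMod.unitsMap_val, ZMod.coe_unitOfCoprime, ← ZMod.castHom_apply (h := hqL'),
          map_natCast, (ZMod.natCast_eq_natCast_iff _ _ _).mpr hc1, ZMod.natCast_zmod_val]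
      · rw [ZMod.coe_unitOfCoprime, ← ZMod.intCast_zmod_eq_zero_iff_dvd]
        push_cast
        rw [sub_eq_zero, ZMod.val_natCast, ← ZMod.natCast_mod, Nat.mod_mod_of_dvd _ hMdvd,
          ZMod.natCast_mod, ← Nat.cast_one]
        exact (ZMod.natCast_eq_natCast_iff _ _ _).mpr hc2
    choose s hs hsM using hsec
    have hsr : ∀ t, ∀ r ∈ Q, ∀ h : r ∣ L, ZMod.unitsMap h (s t) = 1 := by
      intro t r hr h
      have hrM : r ∣ M := by
        obtain ⟨hrp, -, -, -⟩ := hQ' r hr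
        have : r ∣ q * M := hLM ▸ h
        exact (hrp.dvd_mul.mp this).resolve_left fun hd =>
          hqQ ((Nat.prime_dvd_prime_iff_eq hrp hq).mp hd ▸ hr)
      refine Units.ext ?_
      have h1 := (Int.natCast_dvd_natCast.mpr hrM).trans (hsM t)
      rw [← ZMod.intCast_zmod_eq_zero_iff_dvd] at h1
      push_cast at h1
      rw [ZMod.unitsMap_val, ← ZMod.castHom_apply (h := h), Units.val_one]
      conv_lhs => rw [← ZMod.natCast_zmod_val (s t : ZMod L)]
      rw [map_natCast]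
      exact sub_eq_zero.mp h1
    have hsplit : ∀ u : (ZMod L)ˣ, (∀ r ∈ Q, ∀ h : r ∣ L, ZMod.unitsMap h u = 1) →
        χ u = χ (s (ZMod.unitsMap hqL' u)) := by
      intro u hu
      have h1 : χ (u * (s (ZMod.unitsMap hqL' u))⁻¹) = 1 := by
        refine hker _ fun r hr h => ?_
        rw [map_mul, map_inv]
        rcases Finset.mem_insert.mp hr with rfl | hr
        · rw [hs, mul_inv_cancel]
        · rw [hu r hr h, hsr _ r hr h, inv_one, mul_one]
      rwa [map_mul, map_inv, mul_inv_eq_one] at h1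
    have hmul : ∀ a b, χ (s (a * b)) = χ (s a) * χ (s b) := by
      intro a b
      rw [← map_mul χ, hsplit (s a * s b) fun r hr h => by
        rw [map_mul, hsr a r hr h, hsr b r hr h, one_mul], map_mul, hs, hs]
    let θ : (ZMod q)ˣ →* Kˣ := MonoidHom.mk' (fun t => χ (s t)) hmul
    obtain ⟨ψ, hψ2, hψn⟩ := exists_sqrt_char hqn θ fun t => hpow (s t)
    push Not at htriv
    obtain ⟨u₁, hu₁, hu₁'⟩ := htriv
    set t₁ := ZMod.unitsMap hqL' u₁ with ht₁
    have ht₁' : χ (s t₁) ≠ 1 := by rwa [ht₁, ← hsplit u₁ hu₁]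
    have hψ : ψ ≠ 1 := by
      intro h
      have h1 := hψ2 t₁
      rw [h, MonoidHom.one_apply, one_pow, eq_comm, inv_eq_one] at h1
      exact ht₁' h1
    have hdiv : L / q = M := by rw [hLM, Nat.mul_div_cancel_left _ hq.pos]
    have htw := bettiTwist_injective (L := L) (q := q) (K := K) (V := K) (χ := χ) hqL' hq2 hψ
      ⟨((s t₁ : ZMod L).val : ℤ), s t₁, by rw [Int.cast_natCast, ZMod.natCast_zmod_val],
        by rw [hdiv]; exact hsM t₁, ht₁'⟩
    have : NeZero (L * q) := ⟨mul_ne_zero (NeZero.ne L) hq.ne_zero⟩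
    obtain ⟨tw, htw, hintw⟩ : ∃ tw : bettiH1 (Gamma0 L) (nebenChar χ) K →ₗ[K]
        bettiH1 (Gamma0 (L * q)) (nebenChar (twistChar L q χ ψ)) K, Function.Injective tw ∧
        ∀ (p : Nat.Primes) (hp : ¬ (p : ℕ) ∣ q) z,
          bettiHeckeOp (L * q) K (twistChar L q χ ψ) p (tw z) =
            (ψ (ZMod.unitOfCoprime (p : ℕ) (p.2.coprime_iff_not_dvd.2 hp)) : K) •
              tw (bettiHeckeOp L K χ p z) :=
      ⟨Modular.Twist.bettiTwist L q K hqL' χ ψ, htw,
        fun p hp z => bettiHeckeOp_bettiTwist hqL' χ ψ p hp z⟩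
    have hint : ∀ (p : Nat.Primes) (hp : ¬ (p : ℕ) ∣ q) (a : K) (j : ℕ) y,
        ((bettiHeckeOp (L * q) K (twistChar L q χ ψ) p -
            ((ψ (ZMod.unitOfCoprime (p : ℕ) (p.2.coprime_iff_not_dvd.2 hp)) : K) * a) •
              (1 : Module.End K (bettiH1 (Gamma0 (L * q)) (nebenChar (twistChar L q χ ψ)) K))) ^ j) (tw y) =
          ((ψ (ZMod.unitOfCoprime (p : ℕ) (p.2.coprime_iff_not_dvd.2 hp)) : K)) ^ j •
            tw (((bettiHeckeOp L K χ p -
              a • (1 : Module.End K (bettiH1 (Gamma0 L) (nebenChar χ) K))) ^ j) y) :=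
      fun p hp a j y => pow_sub_smul_apply_intertwine tw _ _ _ a (hintw p hp) j y
    have hlq : ¬ (l : ℕ) ∣ q := fun h => hl (h.trans hqL')
    have hl₀q : ((l₀ : ℕ) : ZMod q) = 1 := by
      have hd : q ∣ L * (q * ∏ r ∈ Q, r) := (dvd_mul_right q _).mul_left L
      have := congrArg (ZMod.castHom hd (ZMod q)) hl₀
      rwa [map_natCast, map_one] at this
    have hl₀nd : ¬ (l₀ : ℕ) ∣ q := by
      intro h
      have hlq' := (Nat.prime_dvd_prime_iff_eq l₀.2 hq).mp h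
      rw [hlq', ZMod.natCast_self] at hl₀q
      exact zero_ne_one hl₀q
    have hψl₀ : ψ (ZMod.unitOfCoprime (l₀ : ℕ) (l₀.2.coprime_iff_not_dvd.2 hl₀nd)) = 1 := by
      rw [show ZMod.unitOfCoprime (l₀ : ℕ) (l₀.2.coprime_iff_not_dvd.2 hl₀nd) = (1 : (ZMod q)ˣ)
        from Units.ext hl₀q, map_one]
    have hx₀' := hint l₀ hl₀nd ν m₀ x
    rw [hx₀, map_zero, smul_zero, hψl₀, Units.val_one, one_mul] at hx₀'
    have hx' := hint l hlq μ m x
    rw [hx, map_zero, smul_zero] at hx'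
    have hpow' : ∀ u, (twistChar L q χ ψ) u ^ 2 ^ n = 1 := by
      intro u
      rw [twistChar, MonoidHom.mul_apply, MonoidHom.pow_apply, mul_pow, ← pow_mul,
        ← pow_succ', MonoidHom.comp_apply, MonoidHom.comp_apply, hpow, hψn, one_mul]
    have hker' : ∀ u : (ZMod (L * q))ˣ, (∀ r ∈ Q, ∀ h : r ∣ L * q, ZMod.unitsMap h u = 1) →
        (twistChar L q χ ψ) u = 1 := by
      intro u hu
      rw [twistChar, MonoidHom.mul_apply, MonoidHom.pow_apply, MonoidHom.comp_apply,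
        MonoidHom.comp_apply, hψ2, mul_inv_eq_one]
      have := hsplit (ZMod.unitsMap (dvd_mul_right L q) u) fun r hr h => by
        rw [← MonoidHom.comp_apply, ZMod.unitsMap_comp]
        exact hu r hr _
      rw [this, ← MonoidHom.comp_apply (ZMod.unitsMap hqL'), ZMod.unitsMap_comp]
      rfl
    have hQL : ∀ r ∈ Q, r.Prime ∧ r ∣ L * q ∧ ¬ r ^ 2 ∣ L * q ∧ 2 ^ (n + 1) ∣ r - 1 := by
      intro r hr
      obtain ⟨h1, h2, h3, h4⟩ := hQ' r hr
      refine ⟨h1, h2.mul_right q, fun h => h3 ?_, h4⟩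
      refine Nat.Coprime.dvd_of_dvd_mul_right (Nat.Coprime.pow_left 2 ?_) h
      exact (Nat.coprime_primes h1 hq).mpr fun e => hqQ (e ▸ hr)
    have hl₀' : ((l₀ : ℕ) : ZMod (L * q * ∏ r ∈ Q, r)) = 1 := by rwa [← mul_assoc] at hl₀
    have hlL : ¬ (l : ℕ) ∣ L * q := fun h => (l.2.dvd_mul.mp h).elim hl hlq
    have hres := ih (L * q) (twistChar L q χ ψ) hQL hpow' hker' (tw x) l₀ ν m₀ hl₀' hν hx₀' l hlL _ m hx'
    rw [hintw l hlq, mul_smul, ← map_smul tw μ x] at hres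
    exact htw ((Units.isUnit _).smul_left_cancel.mp hres)

end twist

end FermatLib.MLT.Two.Semisimple

namespace FermatLib.MLT.Two

variable {O : Type} [CommRing O] [IsLocalRing O] {k : Type} [Field k] (S : System O k)
  {ι : Type} [Fintype ι] {n : ℕ} {P : ι → AuxPlace}
  {K : Type} [Field K] [IsAlgClosed K] [CharZero K] [Algebra O K]
  {χ : (ZMod (auxLevel S P))ˣ →* Kˣ} {lam : ℕ → K}

/-- The good Hecke operators act semisimply on the systems. -/
theorem mem_goodEigen_of_generalised_aux (hP : IsDepth S n P) (hχ : IsAuxChar S P n χ)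
    (hres : IsResidualSystem S (auxLevel S P) lam)
    {x : bettiH1 (Gamma0 (auxLevel S P)) (nebenChar χ) K}
    (hx : ∀ l : Nat.Primes, ¬ (l : ℕ) ∣ 2 * auxLevel S P →
      ∃ m : ℕ, ((bettiHeckeOp (auxLevel S P) K χ l -
        lam l • (1 : Module.End K (bettiH1 (Gamma0 (auxLevel S P)) (nebenChar χ) K))) ^ m) x = 0) :
    x ∈ goodEigen (auxLevel S P) χ lam := by
  classical
  
  let Q : Finset ℕ := Finset.univ.image fun i => (P i).q
  have hQ0 : ∏ q ∈ Q, q ≠ 0 := Finset.prod_ne_zero_iff.mpr fun q hq => by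
    obtain ⟨i, -, rfl⟩ := Finset.mem_image.mp hq
    exact (P i).hq.ne_zero
  have : NeZero ((auxLevel S P) * ∏ q ∈ Q, q) := ⟨mul_ne_zero (NeZero.ne (auxLevel S P)) hQ0⟩
  obtain ⟨l₀, hl₀, hl₀1, hne⟩ := exists_prime_ne_succ S ((auxLevel S P) * ∏ q ∈ Q, q) hres
  have hQ : ∀ q ∈ Q, q.Prime ∧ q ∣ (auxLevel S P) ∧ ¬ q ^ 2 ∣ (auxLevel S P) ∧ 2 ^ (n + 1) ∣ q - 1 := by
    intro q hq
    obtain ⟨i, -, rfl⟩ := Finset.mem_image.mp hq
    refine ⟨(P i).hq, dvd_auxLevel S P i, fun h => ?_, hP.one_mod i⟩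
    rw [auxLevel, ← Finset.mul_prod_erase _ _ (Finset.mem_univ i), pow_two, mul_left_comm] at h
    have h' : (P i).q ∣ S.anchor.N * ∏ j ∈ Finset.univ.erase i, (P j).q :=
      (Nat.mul_dvd_mul_iff_left (P i).hq.pos).mp h
    rcases (P i).hq.dvd_mul.mp h' with h1 | h1
    · exact hP.prime_to i (h1.mul_left 2)
    · obtain ⟨j, hj, hd⟩ := ((P i).hq.prime.dvd_finsetProd_iff _).mp h1
      exact Finset.ne_of_mem_erase hj
        (hP.injective ((Nat.prime_dvd_prime_iff_eq (P i).hq (P j).hq).mp hd)).symm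
  refine mem_goodEigen.mpr fun l hl => ?_
  obtain ⟨m, hm⟩ := hx l hl
  obtain ⟨m₀, hm₀⟩ := hx l₀ hl₀
  exact Semisimple.bettiHeckeOp_eq_smul Q (auxLevel S P) χ hQ hχ.pow_eq_one
    (fun u hu => hχ.eq_one u fun i =>
      hu _ (Finset.mem_image_of_mem _ (Finset.mem_univ i)) (dvd_auxLevel S P i))
    x l₀ (lam l₀) m₀ hl₀1 hne hm₀ l (fun h => hl (h.mul_left 2)) (lam l) m hm

end FermatLib.MLT.Two

end
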