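import Fermat.Agent.MLT.BettiHecke
import Fermat.Agent.MLT.Two.Defs
import Fermat.Agent.Galois.CyclotomicFrobenius

/-!
# Eigen systems at an auxiliary level

`L = N ∏ q` for the level `N` of a system and auxiliary places.  A system is a character `χ`
through the auxiliary primes and a family `lam l`, `l ∤ 2 L`, with a nonzero common eigenclass in
`H¹(Γ₀(L), χ)` over an algebraically closed field `K`.  `μ` is a further twisting character.
-/

set_option autoImplicit false

noncomputable section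

open CongruenceSubgroup

namespace FermatLib.MLT.Two

local notation "Qbar" => AlgebraicClosure ℚ
local notation "Γℚ" => (AlgebraicClosure ℚ ≃ₐ[ℚ] AlgebraicClosure ℚ)

variable {O : Type} [CommRing O] {k : Type} [Field k] (S : System O k)
  {ι : Type} [Fintype ι] (P : ι → AuxPlace)

/-- The level `N ∏ q`. -/
def auxLevel : ℕ := S.anchor.N * ∏ i, (P i).q

instance : NeZero (auxLevel S P) :=
  ⟨mul_ne_zero S.anchor.squarefree.ne_zero (Finset.prod_ne_zero_iff.mpr fun i _ => (P i).hq.ne_zero)⟩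

theorem dvd_auxLevel (i : ι) : (P i).q ∣ auxLevel S P :=
  (Finset.dvd_prod_of_mem (fun i => (P i).q) (Finset.mem_univ i)).trans (dvd_mul_left _ _)

theorem level_dvd_auxLevel : S.anchor.N ∣ auxLevel S P := dvd_mul_right _ _

variable {K : Type} [Field K]

/-- The value of a character modulo `L` at a natural number prime to `L`. -/
def charVal {L : ℕ} (χ : (ZMod L)ˣ →* Kˣ) (l : ℕ) : K :=
  if h : l.Coprime L then (χ (ZMod.unitOfCoprime l h) : K) else 0

/-- A character of exponent `2 ^ n` through the auxiliary primes. -/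
structure IsAuxChar (n : ℕ) (χ : (ZMod (auxLevel S P))ˣ →* Kˣ) : Prop where
  pow_eq_one : ∀ u, χ u ^ 2 ^ n = 1
  eq_one : ∀ u, (∀ i, ZMod.unitsMap (dvd_auxLevel S P i) u = 1) → χ u = 1

/-- The classes with eigenvalue `lam l` under every `T l`, `l ∤ 2 L`. -/
def goodEigen (L : ℕ) (χ : (ZMod L)ˣ →* Kˣ) (lam : ℕ → K) :
    Submodule K (bettiH1 (Gamma0 L) (nebenChar χ) K) :=
  ⨅ (l : Nat.Primes) (_ : ¬ (l : ℕ) ∣ 2 * L),
    LinearMap.ker (bettiHeckeOp L K χ l - lam l • (1 : Module.End K _))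

theorem mem_goodEigen {L : ℕ} {χ : (ZMod L)ˣ →* Kˣ} {lam : ℕ → K}
    {x : bettiH1 (Gamma0 L) (nebenChar χ) K} :
    x ∈ goodEigen L χ lam ↔
      ∀ l : Nat.Primes, ¬ (l : ℕ) ∣ 2 * L → bettiHeckeOp L K χ l x = lam l • x := by
  simp only [goodEigen, Submodule.mem_iInf, LinearMap.mem_ker, LinearMap.sub_apply,
    LinearMap.smul_apply, Module.End.one_apply, sub_eq_zero]

section residual

variable [Algebra O K]

/-- The system is congruent to that of the curve modulo the primes above 2. -/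
def IsResidualSystem (L : ℕ) (lam : ℕ → K) : Prop :=
  ∀ l : ℕ, l.Prime → ¬ l ∣ 2 * L →
    ∃ a : integralClosure O K, (a : K) = lam l ∧ ¬ IsUnit (a - (S.ap l : integralClosure O K))

end residual

/-- The representation at a point with coefficients `A ⊆ K` of a system twisted by `μ`, with
every local property. -/
structure IsPointRep {A : Type} [CommRing A] (j : A →+* K) (redA : A →+* k)
    (χ μ : (ZMod (auxLevel S P))ˣ →* Kˣ) (lam : ℕ → K)
    (ρ : Γℚ →* Matrix (Fin 2) (Fin 2) A) : Prop where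
  map_eq : ∀ g, (ρ g).map redA = S.anchor.ρ g
  finiteLevel : ∀ m : ℕ, GaloisFactorsThroughFiniteLevel
    ((Ideal.Quotient.mk (Ideal.span {(2 : A) ^ m})).mapMatrix.toMonoidHom.comp ρ)
  flat : ∀ m : ℕ, FermatLib.Galois.FlatModel.HasModelAt 2
    (Fin 2 → A ⧸ Ideal.span {(2 : A) ^ m}) fun g v =>
      ((ρ g).map (Ideal.Quotient.mk (Ideal.span {(2 : A) ^ m}))).mulVec v
  unramified : ∀ q : ℕ, q.Prime → q ≠ 2 → ¬ q ∣ S.anchor.N → (∀ i, (P i).q ≠ q) →
    ∀ B : ValuationSubring Qbar, B.LiesOverPrime q → ∀ τ ∈ B.inertiaSubgroupIn ℚ, ρ τ = 1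
  level : ∀ q : ℕ, q.Prime → q ∣ S.anchor.N → ∀ B : ValuationSubring Qbar, B.LiesOverPrime q →
    ∀ τ ∈ B.inertiaSubgroupIn ℚ, ∀ τ' ∈ B.inertiaSubgroupIn ℚ, (ρ τ - 1) * (ρ τ' - 1) = 0
  frobenius : ∀ l : ℕ, l.Prime → ¬ l ∣ 2 * auxLevel S P →
    ∀ B : ValuationSubring Qbar, B.LiesOverPrime l → ∀ F : Γℚ, B.IsFrobeniusAt F l →
      j (ρ F).trace = charVal μ l * lam l ∧
      j (ρ F).det = charVal χ l * charVal μ l ^ 2 * (l : K)
  inertia : ∀ i, ∀ τ ∈ (P i).A.inertiaSubgroupIn ℚ,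
    j (ρ τ).trace = (μ (FermatLib.Galois.modCycloChar (auxLevel S P) τ) : K) *
      (1 + (χ (FermatLib.Galois.modCycloChar (auxLevel S P) τ) : K)) ∧
    j (ρ τ).det = (μ (FermatLib.Galois.modCycloChar (auxLevel S P) τ) : K) ^ 2 *
      (χ (FermatLib.Galois.modCycloChar (auxLevel S P) τ) : K)

end FermatLib.MLT.Two

end
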