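import Fermat.Agent.Galois.AttachKummer
import Fermat.Agent.S19
import Fermat.Agent.S37
import Fermat.Agent.Galois.FlatTransferRep
import Fermat.Agent.Modular.KummerHecke

/-!
# Galois inputs on `J₀(N)` used for the systems at an auxiliary level

The congruence relation (S37) and the models of the torsion (S19), with their consequences.
-/

set_option autoImplicit false

noncomputable section

open ModularCurve

namespace FermatLib.MLT.Two

open FermatLib.Galois FermatLib.Galois.Attach FermatLib.Galois.FlatModel

/-- The congruence relation on `J₀(N)` (S37). -/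
theorem sysSpecializationInput (N p : ℕ) [NeZero N] (hp : p.Prime) : SpecializationInput N p :=
  have _ := hp
  Fermat.Agent.S37.result N p (FermatLib.Modular.heckeOperatorsCommuteBar N)

/-- Models of the torsion of `J₀(N)` over `ℤ_(p)` for `p ∤ N` (S19). -/
theorem sysTorsionModel (N p : ℕ) [NeZero N] [Fact p.Prime] (hpN : ¬ p ∣ N) (k : ℕ) :
    HasModelAt p (Submodule.torsionBy ℤ (JZero N) ((p : ℤ) ^ k)).toAddSubgroup (torsionAct _) :=
  hasModelAt_torsion_of_model _ (Fermat.Agent.S19.result N p hpN k)

/-- The attached representations. -/
theorem sysPadicAttachment : FermatLib.Galois.PadicAttachment :=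
  padicAttachment_of_equiv (fun N p _ hp => FermatLib.Modular.kummerHeckeEquiv N p hp)
    (fun N p _ hp => sysSpecializationInput N p hp)

/-- The inputs of the transfer. -/
theorem sysTorsionGaloisInputs (N p : ℕ) [NeZero N] (hp : p.Prime) : TorsionGaloisInputs N p :=
  torsionGaloisInputs_of_equiv hp (FermatLib.Modular.kummerHeckeEquiv N p hp)
    (sysSpecializationInput N p hp)

end FermatLib.MLT.Two

end
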