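import Fermat.Agent.Galois.TransferHecke
import Fermat.Agent.Galois.FlatTransferRep
import Fermat.Agent.Igusa.MonoInertia

/-!
# Transfer from `J₀(N)` to the representation at a point of the Hecke algebra

The same statements as for a Hecke–Galois datum, for any adic representation with the expected
characteristic polynomials and absolutely irreducible residual representation.
-/

set_option autoImplicit false

noncomputable section

open ModularCurve CuspForm Polynomial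

namespace FermatLib.MLT.Two

open FermatLib.Galois FermatLib.Galois.FlatModel

local notation "Qbar" => AlgebraicClosure ℚ
local notation "Γℚ" => (AlgebraicClosure ℚ ≃ₐ[ℚ] AlgebraicClosure ℚ)

variable {p N : ℕ} [NeZero N] {S : Finset ℕ} {T : Type} [CommRing T] [IsLocalRing T]
  [IsNoetherianRing T] {ρ : GaloisRepAdic T}

/-- The hypotheses on a representation at a point of the Hecke algebra away from `S`. -/
structure IsAttachedPoint (p N : ℕ) [NeZero N] (S : Finset ℕ) (ρ : GaloisRepAdic T)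
    (π : ↥(CuspForm.heckeAlgebra N 2 (↑S : Set ℕ)) →+* T) : Prop where
  prime : p.Prime
  mem : (p : T) ∈ IsLocalRing.maximalIdeal T
  mem_set : p ∈ S
  level_subset : ∀ q : ℕ, q.Prime → q ∣ N → q ∈ S
  charpoly_frob : ∀ (ℓ : ℕ) (hℓ : ℓ.Prime) (hℓN : ¬ ℓ ∣ N) (hℓS : ℓ ∉ (↑S : Set ℕ)),
    ∀ A : ValuationSubring Qbar, A.LiesOverPrime ℓ → ∀ σ : Γℚ, A.IsFrobeniusAt σ ℓ →
      LinearMap.charpoly (ρ.ρ σ) = X ^ 2 - C (π (heckeAlgebra.T hℓ hℓN hℓS)) * X + C ((ℓ : T))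
  residual_absIrr : ρ.residual.IsAbsolutelyIrreducible

variable {π : ↥(CuspForm.heckeAlgebra N 2 (↑S : Set ℕ)) →+* T}

/-- Relations on `J₀(N)[p^k]` hold at the point modulo `I`, for large `k`. -/
theorem IsAttachedPoint.exists_transfer (H : IsAttachedPoint p N S ρ π)
    (hJ : TorsionGaloisInputs N p) (I : Ideal T) (hI : ∃ n, IsLocalRing.maximalIdeal T ^ n ≤ I) :
    ∃ k : ℕ, ∀ {ι : Type} [Fintype ι] (t : ι → awayHeckeAlg (↑S : Set ℕ)) (g : ι → Γℚ),
      (letI := heckeModuleBar N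
       ∀ x : JZero N, p ^ k • x = 0 → ∑ i, (t i : HeckeAlg) • g i • x = 0) →
      ∀ v : ρ.V, ∑ i, π (awayHeckeEval N _ (t i)) • ρ.ρ (g i) v ∈
        I • (⊤ : Submodule T ρ.V) := by
  letI := heckeModuleBar N
  obtain ⟨n, hn⟩ := hI
  obtain ⟨j', hj'⟩ := exists_pow_dvd_shift N p (↑S : Set ℕ) n
  obtain ⟨k, hk⟩ := hJ.faithful j'
  refine ⟨k, fun {ι} _ t g hx v => ?_⟩
  have : SMulCommClass Γℚ (awayHeckeAlg (↑S : Set ℕ)) (JZero N) :=
    ⟨fun σ t x => hJ.galoisCommute σ (t : HeckeAlg) x⟩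
  have b : Module.Basis (Fin 2) T ρ.V := Module.finBasisOfFinrankEq T ρ.V ρ.finrank_eq
  have hSN : ∀ ℓ : ℕ, ℓ.Prime → ℓ ∉ S → ¬ ℓ ∣ N * p := fun ℓ hℓ hℓS h => by
    rcases hℓ.dvd_mul.mp h with h | h
    · exact hℓS (H.level_subset ℓ hℓ h)
    · exact hℓS ((Nat.prime_dvd_prime_iff_eq hℓ H.prime).mp h ▸ H.mem_set)
  refine transfer_sum_mem_of_level (p := p) (k := k) ρ b (π.comp (awayHeckeEval N _))
    (awayHeckeGen (↑S : Set ℕ)) H.prime H.mem_set (fun ℓ hℓ hℓS A hA σ hσ => ?_)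
    (fun ℓ hℓ hℓS A hA σ hσ x hx => ?_) ?_ ⟨n, hn⟩ (fun t ht => ?_)
    (span_range_repMatrix_eq_top ρ b H.residual_absIrr) t g hx v
  · have hℓN : ¬ ℓ ∣ N := fun h => hℓS (H.level_subset ℓ hℓ h)
    rw [H.charpoly_frob ℓ hℓ hℓN hℓS A hA σ hσ, RingHom.comp_apply,
      awayHeckeEval_awayHeckeGen N hℓ hℓN]
  · have h := hJ.frobQuadratic ℓ hℓ (hSN ℓ hℓ hℓS) A hA σ hσ x ⟨k, hx⟩
    rwa [← coe_awayHeckeGen (S := (↑S : Set ℕ)) hℓ hℓS] at h
  · obtain ⟨L, hL, hfix⟩ := holdsNearOne_forall_mem (hJ.finite_torsion k).toFinset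
      (fun x σ => σ • x = x) fun x _ => hJ.holdsNearOne x
    exact ⟨L, hL, fun σ hσ x hx => hfix σ hσ x ((hJ.finite_torsion k).mem_toFinset.mpr hx)⟩
  · have hmem : (t : HeckeAlg) ∈ awayHeckeAlg {q : ℕ | q ∣ N} :=
      awayHeckeAlg_le (fun ℓ hℓ => Finset.mem_coe.mpr (H.level_subset _ ℓ.2 hℓ)) t.2
    obtain ⟨u, hu⟩ := hk (t : HeckeAlg) hmem ht
    obtain ⟨w, hw⟩ := hj' (awayHeckeEval N _ t) ⟨u, (inclusion_awayHeckeEval N _ t).trans hu⟩
    rw [RingHom.comp_apply, hw, map_nsmul, nsmul_eq_mul, Nat.cast_pow]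
    exact hn (Ideal.mul_mem_right _ _ (Ideal.pow_mem_pow H.mem n))

/-- Flatness at `p` of the representation at a point. -/
theorem IsAttachedPoint.isFlatAt (H : IsAttachedPoint p N S ρ π)
    (hJ : TorsionGaloisInputs N p) [Finite (IsLocalRing.ResidueField T)]
    (hmodel : ∀ k : ℕ, HasModelAt p
      (Submodule.torsionBy ℤ (JZero N) ((p : ℤ) ^ k)).toAddSubgroup (torsionAct _)) :
    ρ.IsFlatAt p := by
  letI := heckeModuleBar N
  have : SMulCommClass Γℚ (awayHeckeAlg (↑S : Set ℕ)) (JZero N) :=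
    ⟨fun σ t x => hJ.galoisCommute σ (t : HeckeAlg) x⟩
  refine isFlatAt_of_transfer (P := awayHeckeAlg (↑S : Set ℕ)) ρ (π.comp (awayHeckeEval N _)) p
    hmodel fun I hI => ?_
  obtain ⟨k, hk⟩ := H.exists_transfer hJ I (IsLocalRing.finite_quotient_iff.1 hI)
  exact ⟨k, fun n t g hx v => hk t g hx v⟩

/-- Unipotence of inertia at a prime exactly dividing the level, for pairs of elements. -/
theorem IsAttachedPoint.sub_one_mul_sub_one (H : IsAttachedPoint p N S ρ π)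
    (hJ : TorsionGaloisInputs N p) {q : ℕ} (hq : q.Prime) (hqp : q ≠ p) (hqN : q ∣ N)
    (hq2 : ¬ q ^ 2 ∣ N) {A : ValuationSubring Qbar} (hA : A.LiesOverPrime q)
    {σ τ : Γℚ} (hσ : σ ∈ A.inertiaSubgroupIn ℚ) (hτ : τ ∈ A.inertiaSubgroupIn ℚ) :
    (ρ.ρ τ - 1) * (ρ.ρ σ - 1) = 0 := by
  obtain ⟨M, rfl⟩ := hqN
  have : Fact q.Prime := ⟨hq⟩
  have : NeZero M := ⟨fun h => NeZero.ne (q * M) (by rw [h, mul_zero])⟩
  have hqM : ¬ q ∣ M := fun h => hq2 (by rw [pow_two]; exact Nat.mul_dvd_mul_left q h)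
  refine LinearMap.ext fun v => ?_
  have : IsHausdorff (IsLocalRing.maximalIdeal T) ρ.V :=
    IsHausdorff.of_le_jacobson _ _ (IsLocalRing.maximalIdeal_le_jacobson _)
  rw [LinearMap.zero_apply]
  refine IsHausdorff.haus this _ fun n => ?_
  rw [SModEq.zero]
  obtain ⟨k, hk⟩ := H.exists_transfer hJ _ ⟨n, le_rfl⟩
  have h := hk (ι := Fin 4) ![1, -1, -1, 1] ![τ * σ, τ, σ, 1] (fun x hx => by
    letI := heckeModuleBar (q * M)
    have e := Igusa.Mono.inertia_smul_smul_sub_eq hqM A hA hσ hτ (d := p ^ k)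
      (Nat.one_le_pow _ _ H.prime.pos)
      (fun h => hqp ((Nat.prime_dvd_prime_iff_eq hq H.prime).mp (hq.dvd_of_dvd_pow h))) x
      (by rw [natCast_zsmul]; exact hx)
    simp only [Fin.sum_univ_four, Matrix.cons_val_zero, Matrix.cons_val_one, Matrix.cons_val,
      OneMemClass.coe_one, NegMemClass.coe_neg, one_smul, neg_smul, mul_smul]
    rw [smul_sub, ← sub_eq_zero] at e
    rw [← e]
    abel) v
  simp only [Fin.sum_univ_four, Matrix.cons_val_zero, Matrix.cons_val_one, Matrix.cons_val,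
    map_one, map_neg, one_smul, neg_smul, map_mul,
    Module.End.mul_apply, Module.End.one_apply] at h
  convert h using 1
  simp only [Module.End.mul_apply, LinearMap.sub_apply, Module.End.one_apply, map_sub]
  abel

end FermatLib.MLT.Two

end
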