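import Fermat.Agent.MLT.Two.Sys.EigenPoint
import Fermat.Agent.MLT.Two.Sys.CoeffRing
import Fermat.Agent.MLT.Two.Sys.Transfer
import Fermat.Agent.MLT.Two.Sys.Inputs

/-!
# The representation attached to a system twisted to trivial nebentype
-/

set_option autoImplicit false

noncomputable section

open IsLocalRing Polynomial

namespace FermatLib.MLT.Two

open FermatLib.Galois

local notation "Qbar" => AlgebraicClosure ℚ
local notation "Γℚ" => (AlgebraicClosure ℚ ≃ₐ[ℚ] AlgebraicClosure ℚ)

variable {O : Type} [CommRing O] {k : Type} [Field k] (S : System O k)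

section residual

variable [IsLocalRing O] {O₁ : Type} [CommRing O₁] [IsLocalRing O₁] [Algebra O O₁]
  [IsLocalHom (algebraMap O O₁)]

theorem ker_red_eq_maximalIdeal : RingHom.ker S.red = maximalIdeal O :=
  IsLocalRing.eq_maximalIdeal (RingHom.ker_isMaximal_of_surjective _ S.red_surjective)

/-- The residue field of the curve's coefficients inside that of a local extension. -/
def residueEmbed : k →+* ResidueField O₁ :=
  S.red.liftOfSurjective S.red_surjective ⟨(residue O₁).comp (algebraMap O O₁), fun c hc => by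
    rw [ker_red_eq_maximalIdeal] at hc
    rw [RingHom.mem_ker, RingHom.comp_apply, residue_eq_zero_iff]
    exact map_nonunit (algebraMap O O₁) _ hc⟩

theorem residueEmbed_red (c : O) :
    residueEmbed S (O₁ := O₁) (S.red c) = residue O₁ (algebraMap O O₁ c) :=
  RingHom.liftOfRightInverse_comp_apply _ _ (Function.rightInverse_surjInv S.red_surjective) _ c

/-- A representation congruent to the curve at Frobenius elements outside a finite set is
residually absolutely irreducible, with the residual traces of the curve. -/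
theorem residual_absIrr_of_frobenius (ρ₀ : GaloisRepAdic O₁) (Ex : Finset ℕ)
    (hEx : ∀ l : ℕ, l.Prime → l ∉ Ex → ¬ l ∣ 2 * S.anchor.N)
    (h : ∀ l : ℕ, l.Prime → l ∉ Ex → ∀ B : ValuationSubring Qbar, B.LiesOverPrime l →
      ∀ F : Γℚ, B.IsFrobeniusAt F l →
        residue O₁ (ρ₀.trace F) = residue O₁ (algebraMap O O₁ (S.ap l : O)) ∧
        residue O₁ (LinearMap.det (ρ₀.ρ F)) = residue O₁ (algebraMap O O₁ (l : O))) :
    ρ₀.residual.IsAbsolutelyIrreducible ∧
      ∀ g, residue O₁ (ρ₀.trace g) = residueEmbed S (S.anchor.ρ g).trace := by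
  set ρb := repMap (residueEmbed S (O₁ := O₁)) S.anchor.ρ with hρb
  have hfin : GaloisFactorsThroughFiniteLevel ρb := by
    obtain ⟨L, hL, hfix⟩ := S.anchor.finiteLevel
    exact ⟨L, hL, fun σ hσ => by
      rw [hρb, repMap_apply, hfix σ hσ]
      exact Matrix.map_one _ (map_zero _) (map_one _)⟩
  have hfin₀ : GaloisFactorsThroughFiniteLevel (residualMat ρ₀.residual) := by
    obtain ⟨L, hL, hfix⟩ := ρ₀.residual.factorsThroughFiniteLevel
    exact ⟨L, hL, fun σ hσ => by
      show (LinearMap.toMatrixAlgEquiv (residualBasis ρ₀.residual)) (ρ₀.residual.ρ σ) = 1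
      rw [hfix σ hσ, map_one]⟩
  have htr : ∀ g, (residualMat ρ₀.residual g).trace = (ρb g).trace := by
    refine trace_eq_of_forall_frobenius _ _ hfin₀ hfin Ex fun l hl hlEx B hB F hF => ?_
    obtain ⟨ht, hd⟩ := h l hl hlEx B hB F hF
    have hl2N := hEx l hl hlEx
    have hl2 : l ≠ 2 := fun e => hl2N (by rw [e]; exact dvd_mul_right 2 _)
    obtain ⟨at', ad'⟩ := S.frobenius l hl hl2 (fun e => hl2N (dvd_mul_of_dvd_right e 2)) B hB F hF
    have hm := S.map_eq F
    have htrA : (S.anchor.ρ F).trace = S.red (S.ap l : O) := by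
      rw [← hm, ← at', Matrix.trace_fin_two, Matrix.trace_fin_two, map_add]
      rfl
    have hdetA : (S.anchor.ρ F).det = S.red (l : O) := by
      rw [← hm, ← ad', RingHom.map_det]
      rfl
    constructor
    · rw [residualMat, trace_repMatrix, trace_residual, ht, hρb, trace_repMap, htrA,
        residueEmbed_red]
    · rw [residualMat, det_repMatrix, det_residual, hd, hρb, repMap_apply]
      show _ = ((residueEmbed S (O₁ := O₁)).mapMatrix (S.anchor.ρ F)).det
      rw [← RingHom.map_det, hdetA, residueEmbed_red]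
  refine ⟨(isAbsolutelyIrreducible_iff_hasFullSpan _).mpr
    ((S.anchor.hasFullSpan.repMap _).of_trace_eq fun g => (htr g).symm), fun g => ?_⟩
  rw [← trace_residual, ← trace_repMatrix (residualBasis ρ₀.residual)]
  exact (htr g).trans (trace_repMap _ _ _)

end residual

section attached

variable [IsDomain O] [IsDiscreteValuationRing O] [IsAdicComplete (maximalIdeal O) O] [CharZero O]
  [Finite k] {ι : Type} [Fintype ι] {n : ℕ} {P : ι → AuxPlace}
  {K : Type} [Field K] [IsAlgClosed K] [CharZero K] [Algebra O K]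
  {χ : (ZMod (auxLevel S P))ˣ →* Kˣ} {lam : ℕ → K}

/-- The excluded primes of the twisted level. -/
def auxBadSet (hP : IsDepth S n P) (χ : (ZMod (auxLevel S P))ˣ →* Kˣ) : Finset ℕ :=
  insert 2 (auxTwistLevel S hP χ).primeFactors

omit [IsDomain O] [IsDiscreteValuationRing O] [IsAdicComplete (maximalIdeal O) O] [CharZero O]
  [Finite k] [IsAlgClosed K] [CharZero K] [Algebra O K] in
theorem dvd_auxTwistLevel_iff {hP : IsDepth S n P} {l : ℕ} (hl : l.Prime) :
    l ∣ auxTwistLevel S hP χ ↔ l ∣ auxLevel S P := by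
  refine ⟨fun h => ?_, fun h => dvd_mul_of_dvd_left h _⟩
  rcases hl.dvd_mul.mp h with h | h
  · exact h
  · obtain ⟨q, hq, hlq⟩ := (Prime.dvd_finsetProd_iff hl.prime _).mp h
    obtain ⟨i, -, rfl⟩ := auxTwistSet_spec S hP hq
    rw [(Nat.prime_dvd_prime_iff_eq hl (P i).hq).mp hlq]
    exact dvd_auxLevel S P i

omit [IsDomain O] [IsDiscreteValuationRing O] [IsAdicComplete (maximalIdeal O) O] [CharZero O]
  [Finite k] [IsAlgClosed K] [CharZero K] [Algebra O K] in
theorem notMem_auxBadSet_iff {hP : IsDepth S n P} {l : ℕ} (hl : l.Prime) :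
    l ∉ auxBadSet S hP χ ↔ ¬ l ∣ 2 * auxLevel S P := by
  rw [auxBadSet, Finset.mem_insert, Nat.mem_primeFactors_of_ne_zero (NeZero.ne _),
    hl.dvd_mul, Nat.prime_dvd_prime_iff_eq hl Nat.prime_two, dvd_auxTwistLevel_iff S hl]
  simp [hl]

/-- A root of unity of `2`-power order in a field of characteristic two is one. -/
theorem eq_one_of_pow_two_pow {F : Type*} [Field F] (h2 : (2 : F) = 0) {z : F} {m : ℕ}
    (h : z ^ 2 ^ m = 1) : z = 1 := by
  induction m generalizing z with
  | zero => simpa using h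
  | succ m ih =>
    rw [pow_succ', pow_mul] at h
    have h1 : z ^ 2 = 1 := ih h
    have h0 : (z - 1) ^ 2 = 0 := by linear_combination h1 + (1 - z) * h2
    exact sub_eq_zero.mp (eq_zero_of_pow_eq_zero h0)

omit [IsAlgClosed K] [CharZero K] in
/-- The residual congruence, read in a coefficient ring inside `K`. -/
theorem residue_eq_of_residual {O₁ : Type} [CommRing O₁] [IsLocalRing O₁] [Algebra O O₁]
    [Algebra.IsIntegral O O₁] {j₁ : O₁ →+* K}
    (hj : j₁.comp (algebraMap O O₁) = algebraMap O K) {L : ℕ}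
    (hres : IsResidualSystem S L lam) {l : ℕ} (hl : l.Prime) (hlL : ¬ l ∣ 2 * L) {x : O₁}
    (hx : j₁ x = lam l) : residue O₁ x = residue O₁ (algebraMap O O₁ (S.ap l : O)) := by
  obtain ⟨a, ha, hnu⟩ := hres l hl hlL
  let jA : O₁ →ₐ[O] K := { j₁ with commutes' := RingHom.congr_fun hj }
  have hint : ∀ y : O₁, jA y ∈ integralClosure O K := fun y =>
    (Algebra.IsIntegral.isIntegral (R := O) y).map jA
  let g : O₁ →ₐ[O] integralClosure O K := jA.codRestrict _ hint
  rw [← sub_eq_zero, ← map_sub, residue_eq_zero_iff, mem_maximalIdeal, mem_nonunits_iff]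
  intro hu
  refine hnu ?_
  have := hu.map g
  have hgx : g x = a := Subtype.ext (hx.trans ha.symm)
  rwa [map_sub, hgx, AlgHom.commutes, map_intCast] at this

/-- The representation attached to a system twisted to trivial nebentype, over a coefficient
ring inside `K` containing given integral elements. -/
theorem exists_attachedRep (hP : IsDepth S n P) (hO : Function.Injective (algebraMap O K))
    (hχ : IsAuxChar S P n χ) (hres : IsResidualSystem S (auxLevel S P) lam)
    (hne : goodEigen (auxLevel S P) χ lam ≠ ⊥) {ψ : ∀ i, (ZMod (P i).q)ˣ →* Kˣ}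
    (hψ : ∀ i, ψ i ^ 2 * auxComp S P hP χ i = 1)
    (hψ1 : ∀ i, auxComp S P hP χ i = 1 → ψ i = 1) (hψn : ∀ i u, ψ i u ^ 2 ^ (n + 1) = 1)
    (s : Set K) (hs : s.Finite) (hint : ∀ x ∈ s, IsIntegral O x) :
    ∃ (O₁ : Type) (_ : CommRing O₁) (_ : IsDomain O₁) (_ : IsDiscreteValuationRing O₁)
      (_ : IsAdicComplete (maximalIdeal O₁) O₁) (_ : Finite (ResidueField O₁)) (_ : CharZero O₁)
      (_ : Algebra O O₁) (_ : Module.Finite O O₁) (_ : IsLocalHom (algebraMap O O₁))
      (j₁ : O₁ →+* K), Function.Injective j₁ ∧ j₁.comp (algebraMap O O₁) = algebraMap O K ∧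
      (∀ x ∈ s, x ∈ j₁.range) ∧
      ∃ (ρ₀ : GaloisRepAdic O₁)
        (π : ↥(CuspForm.heckeAlgebra (auxTwistLevel S hP χ) 2
          (↑(auxBadSet S hP χ) : Set ℕ)) →+* O₁),
        IsAttachedPoint 2 (auxTwistLevel S hP χ) (auxBadSet S hP χ) ρ₀ π ∧
        (∀ g, residue O₁ (ρ₀.trace g) = residueEmbed S (S.anchor.ρ g).trace) ∧
        (∀ l : ℕ, l.Prime → ¬ l ∣ 2 * auxLevel S P →
          ∀ B : ValuationSubring Qbar, B.LiesOverPrime l → ∀ F : Γℚ, B.IsFrobeniusAt F l →
            (LinearMap.charpoly (ρ₀.ρ F)).map j₁ =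
              X ^ 2 - C (charVal (auxProd S P ψ) l * lam l) * X + C (l : K)) ∧
        ∀ q : ℕ, q.Prime → ¬ q ∣ 2 * auxLevel S P → ρ₀.IsUnramifiedAt q := by
  classical
  obtain ⟨θ, hθ⟩ := exists_twistedPoint S hP hχ hres hne hψ hψ1
  haveI : Finite (ResidueField O) := finite_residueField_of_system S
  set N' := auxTwistLevel S hP χ with hN'
  set S' := auxBadSet S hP χ with hS'
  have hmono := CuspForm.heckeAlgebra_mono (N := N') (k := 2) (Set.empty_subset (↑S' : Set ℕ))
  let θ' : ↥(CuspForm.heckeAlgebra N' 2 (↑S' : Set ℕ)) →+* K :=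
    θ.comp (Subalgebra.inclusion hmono).toRingHom
  haveI : Module.Finite ℤ ↥(CuspForm.heckeAlgebra N' 2 (↑S' : Set ℕ)) :=
    FermatLib.Modular.heckeAlgebra_moduleFinite N' 2 _
  obtain ⟨gens, hgens⟩ := Module.finite_def.mp
    (inferInstance : Module.Finite ℤ ↥(CuspForm.heckeAlgebra N' 2 (↑S' : Set ℕ)))
  let vals : Set K := Set.range fun u => (auxProd S P ψ u : K)
  obtain ⟨O₀, _, _, _, _, _, _, _, _, _, j₀, hj₀, hj₀O, hmem⟩ :=
    exists_coeffRing hO (s ∪ θ' '' (gens : Set _) ∪ vals)
      ((hs.union (gens.finite_toSet.image _)).union (Set.finite_range _))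
      (by
        rintro x ((hx | ⟨t, -, rfl⟩) | ⟨u, rfl⟩)
        · exact hint x hx
        · exact ((Algebra.IsIntegral.isIntegral (R := ℤ) t).map θ'.toIntAlgHom).tower_top
        · refine IsIntegral.of_pow (n := 2 ^ (n + 1)) (pow_pos two_pos _) ?_
          rw [← Units.val_pow_eq_pow_val, (isAuxChar_auxProd S P hψn).pow_eq_one u, Units.val_one]
          exact isIntegral_one)
  obtain ⟨π₀, hπ₀⟩ := exists_factor_point hj₀ θ' (gens : Set _) hgens
    fun t ht => hmem _ (Or.inl (Or.inr ⟨t, ht, rfl⟩))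
  have h2mem : ((2 : ℕ) : O₀) ∈ maximalIdeal O₀ := by
    rw [← map_natCast (algebraMap O O₀)]
    refine map_nonunit (algebraMap O O₀) _ ?_
    rw [← ker_red_eq_maximalIdeal S, RingHom.mem_ker, map_natCast, Nat.cast_two]
    exact S.anchor.two_eq_zero
  have hNS : ∀ q : ℕ, q.Prime → q ∣ N' → q ∈ S' := fun q hq hqN =>
    Finset.mem_insert_of_mem (Nat.mem_primeFactors.mpr ⟨hq, hqN, NeZero.ne _⟩)
  haveI : Fact (Nat.Prime 2) := ⟨Nat.prime_two⟩
  obtain ⟨O₁, _, _, _, _, _, _, _, _, _, hinj, ρ₀, hcp, hunr⟩ :=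
    sysPadicAttachment 2 N' S' (Finset.mem_insert_self _ _) hNS O₀ h2mem π₀
  obtain ⟨j₁, hj₁⟩ := FermatLib.Modular.Twist.exists_ringHom_extends_field (B := O₁) hinj j₀
  letI : Algebra O O₁ := ((algebraMap O₀ O₁).comp (algebraMap O O₀)).toAlgebra
  haveI : IsScalarTower O O₀ O₁ := IsScalarTower.of_algebraMap_eq fun _ => rfl
  haveI : Module.Finite O O₁ := Module.Finite.trans O₀ O₁
  haveI : IsLocalHom (algebraMap O O₁) := RingHom.isLocalHom_comp _ _
  have hj₁O : j₁.comp (algebraMap O O₁) = algebraMap O K := by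
    rw [RingHom.algebraMap_toAlgebra, ← RingHom.comp_assoc, hj₁, hj₀O]
  have hrange : ∀ x ∈ s ∪ θ' '' (gens : Set _) ∪ vals, x ∈ j₁.range := fun x hx => by
    obtain ⟨y, rfl⟩ := hmem x hx
    exact ⟨algebraMap O₀ O₁ y, RingHom.congr_fun hj₁ y⟩
  have hval : ∀ (l : ℕ) (hl : l.Prime) (hlN : ¬ l ∣ N') (hlS : l ∉ (↑S' : Set ℕ)), l ≠ 2 →
      j₁ (algebraMap O₀ O₁ (π₀ (CuspForm.heckeAlgebra.T hl hlN hlS))) =
        charVal (auxProd S P ψ) l * lam l := by
    intro l hl hlN hlS hl2
    rw [← RingHom.comp_apply, hj₁, ← RingHom.comp_apply, hπ₀, ← hθ l hl hlN hl2]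
    refine congrArg θ (Subtype.ext ?_)
    simp
  have hgood : ∀ l : ℕ, l.Prime → ¬ l ∣ 2 * auxLevel S P →
      ¬ l ∣ N' ∧ l ∉ (↑S' : Set ℕ) ∧ l ≠ 2 := fun l hl h => by
    refine ⟨fun h' => h (dvd_mul_of_dvd_right ((dvd_auxTwistLevel_iff S hl).mp h') 2),
      (notMem_auxBadSet_iff S hl).mpr h, fun e => h (by rw [e]; exact dvd_mul_right 2 _)⟩
  have hfrob : ∀ l : ℕ, l.Prime → ¬ l ∣ 2 * auxLevel S P →
      ∀ B : ValuationSubring Qbar, B.LiesOverPrime l → ∀ F : Γℚ, B.IsFrobeniusAt F l →
        (LinearMap.charpoly (ρ₀.ρ F)).map j₁ =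
          X ^ 2 - C (charVal (auxProd S P ψ) l * lam l) * X + C (l : K) := by
    intro l hl h B hB F hF
    obtain ⟨hlN, hlS, hl2⟩ := hgood l hl h
    rw [hcp l hl hlN hlS B hB F hF]
    simp only [Polynomial.map_add, Polynomial.map_sub, Polynomial.map_mul, Polynomial.map_pow,
      Polynomial.map_X, Polynomial.map_C, hval l hl hlN hlS hl2, map_natCast, Polynomial.map_natCast]
  have hinj₁ : Function.Injective j₁ := injective_of_comp_algebraMap hj₁ hj₀
  obtain ⟨hirr, htr⟩ := residual_absIrr_of_frobenius S ρ₀ S'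
    (fun l hl hlS hd => (notMem_auxBadSet_iff S hl).mp hlS
      (hd.trans (mul_dvd_mul_left 2 (level_dvd_auxLevel S P))))
    fun l hl hlS B hB F hF => by
      have h := (notMem_auxBadSet_iff S hl).mp hlS
      obtain ⟨hlN, hlS', hl2⟩ := hgood l hl h
      have hcharF := hcp l hl hlN hlS' B hB F hF
      rw [adic_charpoly_eq] at hcharF
      have hc0 := congrArg (Polynomial.coeff · 0) hcharF
      have hc1 := congrArg (Polynomial.coeff · 1) hcharF
      simp [coeff_X] at hc0 hc1
      refine ⟨?_, by rw [hc0, map_natCast (algebraMap O O₁)]⟩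
      have hcop : l.Coprime (auxLevel S P) :=
        hl.coprime_iff_not_dvd.mpr fun h' => h (dvd_mul_of_dvd_right h' 2)
      set w := auxProd S P ψ (ZMod.unitOfCoprime l hcop) with hw
      obtain ⟨u, hu⟩ := hrange (w : K) (Or.inr ⟨_, rfl⟩)
      have hu1 : residue O₁ u = 1 := by
        refine eq_one_of_pow_two_pow (m := n + 1) ?_ ?_
        · rw [← map_ofNat (residueEmbed S (O₁ := O₁)) 2, S.anchor.two_eq_zero, map_zero]
        · rw [← map_pow, show u ^ 2 ^ (n + 1) = 1 from hinj₁ (by
            rw [map_pow, hu, ← Units.val_pow_eq_pow_val,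
              (isAuxChar_auxProd S P hψn).pow_eq_one, Units.val_one, map_one]), map_one]
      have hu0 : IsUnit u := by
        rw [← IsLocalRing.notMem_maximalIdeal, ← residue_eq_zero_iff, hu1]
        exact one_ne_zero
      obtain ⟨v, rfl⟩ := hu0
      have key := residue_eq_of_residual S hj₁O hres hl h
        (x := ((v⁻¹ : O₁ˣ) : O₁) * ρ₀.trace F) (by
          have hv : j₁ (v : O₁) * j₁ ((v⁻¹ : O₁ˣ) : O₁) = 1 := by
            rw [← map_mul, ← Units.val_mul, mul_inv_cancel, Units.val_one, map_one]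
          rw [map_mul, hc1, hval l hl hlN hlS' hl2, charVal, dif_pos hcop, ← hw, ← hu]
          linear_combination lam l * hv)
      rw [map_mul, map_units_inv, hu1, inv_one, one_mul] at key
      exact key
  exact ⟨O₁, inferInstance, inferInstance, inferInstance, inferInstance, inferInstance,
    inferInstance, inferInstance, inferInstance, inferInstance, j₁, hinj₁, hj₁O,
    fun x hx => hrange x (Or.inl (Or.inl hx)), ρ₀, (algebraMap O₀ O₁).comp π₀,
    { prime := Nat.prime_two
      mem := by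
        rw [← map_natCast (algebraMap O₀ O₁)]
        exact map_nonunit (algebraMap O₀ O₁) _ h2mem
      mem_set := Finset.mem_insert_self _ _
      level_subset := hNS
      charpoly_frob := fun l hl hlN hlS B hB F hF => hcp l hl hlN hlS B hB F hF
      residual_absIrr := hirr }, htr, hfrob, fun q hq h => by
      obtain ⟨hqN, -, hq2⟩ := hgood q hq h
      exact hunr q hq hqN hq2⟩

end attached

end FermatLib.MLT.Two

end
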