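import Fermat.Agent.MLT.Two.Sys.Residual
import Fermat.Agent.MLT.Odd.HeckeRepDescentPrep
import Fermat.Agent.Galois.RepDescentAdic
import Fermat.Prelude.Thm_IsLocalRing_isAdicComplete_of_module_finite
import Mathlib.RingTheory.AdicCompletion.Basic
import Mathlib.RingTheory.Henselian

/-!
# Descent of a representation to the coefficient ring of a point

A representation over a finite extension `B` of `A ⊆ B`, whose traces and determinants at
Frobenius elements lie in `A` and reduce to those of the curve, is defined over `A` with residual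
representation exactly that of the curve.
-/

set_option autoImplicit false

noncomputable section

open IsLocalRing Matrix Polynomial

namespace FermatLib.MLT.Two

open FermatLib.Galois

local notation "Qbar" => AlgebraicClosure ℚ
local notation "Γℚ" => (AlgebraicClosure ℚ ≃ₐ[ℚ] AlgebraicClosure ℚ)
local notation "M₂" R:max => Matrix (Fin 2) (Fin 2) R

variable {O : Type} [CommRing O] [IsLocalRing O] [IsNoetherianRing O]
  {A : Type} [CommRing A] [IsLocalRing A] [Algebra O A] [Module.Finite O A]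
  {B : Type} [CommRing B] [IsLocalRing B] [Algebra O B] [Module.Finite O B]

/-- The image of `A` is closed. -/
theorem mem_range_of_forall_sub_mem (f : A →ₐ[O] B) {y : B}
    (h : ∀ m : ℕ, ∃ a, y - f a ∈ maximalIdeal B ^ m) : y ∈ f.range := by
  set N := LinearMap.range f.toLinearMap with hN
  suffices hy : y ∈ N by exact hy
  rw [← Submodule.Quotient.mk_eq_zero N]
  have hH : IsHausdorff (maximalIdeal O) (B ⧸ N) :=
    IsHausdorff.of_le_jacobson _ _ (IsLocalRing.maximalIdeal_le_jacobson _)
  refine hH.haus _ fun i => ?_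
  obtain ⟨m, hm⟩ := FermatLib.MLT.HeckeRep.exists_maximalIdeal_pow_le_map (𝒪 := O) (B := B) i
  obtain ⟨a, ha⟩ := h m
  rw [SModEq.zero]
  have h1 : y - f a ∈ maximalIdeal O ^ i • (⊤ : Submodule O B) := by
    rw [Ideal.smul_top_eq_map]
    exact hm ha
  have h2 := Submodule.mem_map_of_mem (f := N.mkQ) h1
  rw [Submodule.map_smul'', map_sub, Submodule.mkQ_apply, Submodule.mkQ_apply,
    show (Submodule.Quotient.mk (f a) : B ⧸ N) = 0 from (Submodule.Quotient.mk_eq_zero N).mpr ⟨a, rfl⟩,
    sub_zero] at h2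
  exact Submodule.smul_mono le_rfl le_top h2

variable {k : Type} [Field k] (S : System O k)

/-- Traces and determinants everywhere, from those at Frobenius elements. -/
theorem trace_det_mem_range (f : A →ₐ[O] B) (ρB : Γℚ →* M₂ B)
    (hcont : ∀ m : ℕ, GaloisFactorsThroughFiniteLevel
      ((Ideal.Quotient.mk (maximalIdeal B ^ m)).mapMatrix.toMonoidHom.comp ρB))
    (Ex : Finset ℕ)
    (h : ∀ l : ℕ, l.Prime → l ∉ Ex → ∀ P : ValuationSubring Qbar, P.LiesOverPrime l →
      ∀ F : Γℚ, P.IsFrobeniusAt F l → (ρB F).trace ∈ f.range ∧ (ρB F).det ∈ f.range)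
    (g : Γℚ) : (ρB g).trace ∈ f.range ∧ (ρB g).det ∈ f.range := by
  suffices h' : ∀ m : ℕ, (∃ a, (ρB g).trace - f a ∈ maximalIdeal B ^ m) ∧
      ∃ a, (ρB g).det - f a ∈ maximalIdeal B ^ m from
    ⟨mem_range_of_forall_sub_mem f fun m => (h' m).1, mem_range_of_forall_sub_mem f fun m => (h' m).2⟩
  intro m
  obtain ⟨L, hL, hfix⟩ := hcont m
  haveI := hL
  let π := Ideal.Quotient.mk (maximalIdeal B ^ m)
  have hstep : ∀ u v : Γℚ, (∀ x ∈ L, u x = v x) → (ρB u).map π = (ρB v).map π := by
    intro u v huv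
    have hf : ∀ x ∈ L, (v⁻¹ * u) x = x := fun x hx => by
      rw [AlgEquiv.mul_apply, huv x hx, ← AlgEquiv.mul_apply, inv_mul_cancel, AlgEquiv.one_apply]
    have := hfix (v⁻¹ * u) hf
    rw [show u = v * (v⁻¹ * u) by group, map_mul, Matrix.map_mul]
    rw [show (ρB (v⁻¹ * u)).map π = 1 from this, mul_one]
  have key := forall_of_forall_isFrobeniusAt (P := fun u => ∀ b : ℕ,
    (∃ a, π (ρB (u ^ b)).trace = π (f a)) ∧ ∃ a, π (ρB (u ^ b)).det = π (f a)) Ex L
    (fun u v huv hu b => ?_) (fun σ b hσ c => ?_) (fun l hl hlEx P hP F hF b => ?_) g 1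
  · rw [pow_one] at key
    obtain ⟨⟨a, ha⟩, a', ha'⟩ := key
    exact ⟨⟨a, (Ideal.Quotient.eq).mp ha⟩, a', (Ideal.Quotient.eq).mp ha'⟩
  · have hb : (ρB (v ^ b)).map π = (ρB (u ^ b)).map π := by
      have h1 := hstep v u fun x hx => (huv x hx).symm
      have e : ∀ w : Γℚ, (ρB (w ^ b)).map π = ((ρB w).map π) ^ b := fun w => by
        rw [map_pow]; exact map_pow π.mapMatrix (ρB w) b
      rw [e, e, h1]
    obtain ⟨⟨a, ha⟩, a', ha'⟩ := hu b
    refine ⟨⟨a, ?_⟩, a', ?_⟩
    · rw [← ha, Matrix.trace_fin_two, Matrix.trace_fin_two, map_add, map_add]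
      exact congrArg₂ (· + ·) (congrFun (congrFun hb 0) 0) (congrFun (congrFun hb 1) 1)
    · rw [← ha', RingHom.map_det, RingHom.map_det]
      exact congrArg Matrix.det hb
  · rw [← pow_mul]
    exact hσ _
  · obtain ⟨⟨t, ht⟩, d, hd⟩ := h l hl hlEx P hP F hF
    let X : M₂ A := !![t, -d; 1, 0]
    have e := trace_pow_eq_of_trace_det (X := ρB F) (Y := X.map f)
      (by simp [X, Matrix.trace_fin_two, ← ht]) (by simp [X, Matrix.det_fin_two, ← hd]) b
    refine ⟨⟨(X ^ b).trace, ?_⟩, ⟨d ^ b, by rw [map_pow, Matrix.det_pow, ← hd, map_pow f]; rfl⟩⟩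
    rw [map_pow, e, show (X.map f) ^ b = (X ^ b).map f from (map_pow f.mapMatrix X b).symm,
      Matrix.trace_fin_two, Matrix.trace_fin_two, Matrix.map_apply, Matrix.map_apply, map_add f]

variable [IsAdicComplete (maximalIdeal O) O] [IsNoetherianRing A]

/-- **Descent to the coefficient ring of a point.** -/
theorem exists_descended (f : A →ₐ[O] B) (hf : Function.Injective f) (redA : A →+* k)
    (hred : redA.comp (algebraMap O A) = S.red) (ρB : Γℚ →* M₂ B)
    (hcont : ∀ m : ℕ, GaloisFactorsThroughFiniteLevel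
      ((Ideal.Quotient.mk (maximalIdeal B ^ m)).mapMatrix.toMonoidHom.comp ρB))
    (hmem : ∀ g, (ρB g).trace ∈ f.range ∧ (ρB g).det ∈ f.range)
    (hres : ∀ g, ∀ a : A, f a = (ρB g).trace → redA a = (S.anchor.ρ g).trace) :
    ∃ (R : GaloisRepAdic A) (b : Module.Basis (Fin 2) A R.V),
      (∀ g, (repMatrix b R.ρ g).map redA = S.anchor.ρ g) ∧
      ∀ g, f (repMatrix b R.ρ g).trace = (ρB g).trace ∧
        f (repMatrix b R.ρ g).det = (ρB g).det := by
  classical
  choose τ hτ using fun g => (hmem g).1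
  choose δ hδ using fun g => (hmem g).2
  haveI hlocA : IsLocalHom (algebraMap O A) :=
    FermatLib.MLT.HeckeRep.isLocalHom_of_finite (Algebra.ofId O A)
  haveI : IsAdicComplete (maximalIdeal A) A :=
    IsLocalRing.isAdicComplete_of_module_finite (𝒪 := O)
  haveI : HenselianLocalRing A :=
    { is_henselian := fun p hp a₀ h1 h2 => HenselianRing.is_henselian (I := maximalIdeal A) p hp a₀ h1
        (h2.map _) }
  have hsurj : Function.Surjective redA := fun x => by
    obtain ⟨c, rfl⟩ := S.red_surjective x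
    exact ⟨algebraMap O A c, RingHom.congr_fun hred c⟩
  have hker : RingHom.ker redA = maximalIdeal A :=
    IsLocalRing.eq_maximalIdeal (RingHom.ker_isMaximal_of_surjective _ hsurj)
  have hunit : ∀ a : A, redA a ≠ 0 → IsUnit a := fun a ha => by
    rw [← IsLocalRing.notMem_maximalIdeal, ← hker, RingHom.mem_ker]
    exact ha
  -- the split element
  obtain ⟨c, hc⟩ := S.anchor.exists_rot
  have htc : redA (τ c) = 1 := by
    rw [hres c (τ c) (hτ c), hc]
    simp only [rotMat, Matrix.trace_fin_two]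
    norm_num
    linear_combination S.anchor.omega_rel - S.anchor.two_eq_zero
  have hdc : redA (δ c) = 1 := by
    have htc2 : redA (τ (c * c)) = 1 := by
      rw [hres _ _ (hτ _), map_mul, hc]
      have h3 := S.anchor.omega_cube
      have h1 := S.anchor.omega_rel
      have h2 := S.anchor.two_eq_zero
      simp [rotMat, Matrix.trace_fin_two]
      grind
    have hrec : τ (c * c) = τ c * τ c - 2 * δ c := by
      refine hf ?_
      have h1 : f (τ c) = (ρB c).trace := hτ c
      have h2 : f (δ c) = (ρB c).det := hδ c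
      have h3 : f (τ (c * c)) = (ρB (c * c)).trace := hτ _
      rw [h3, map_sub, map_mul f, map_mul f, map_ofNat f, h1, h2, map_mul, Matrix.trace_fin_two,
        Matrix.trace_fin_two, Matrix.det_fin_two]
      simp [Matrix.mul_apply, Fin.sum_univ_two]
      ring
    -- squares of `rot` determine the determinant in characteristic two only up to this relation
    have h4 : redA (τ (c * c * c)) = 0 := by
      rw [hres _ _ (hτ _), map_mul, map_mul, hc]
      have h3 := S.anchor.omega_cube
      have h2 := S.anchor.two_eq_zero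
      simp [rotMat, Matrix.trace_fin_two]
      grind
    have hrec3 : τ (c * c * c) = τ c * τ (c * c) - δ c * τ c := by
      refine hf ?_
      have h1 : f (τ c) = (ρB c).trace := hτ c
      have h2 : f (δ c) = (ρB c).det := hδ c
      have h3 : f (τ (c * c)) = (ρB (c * c)).trace := hτ _
      have h5 : f (τ (c * c * c)) = (ρB (c * c * c)).trace := hτ _
      rw [h5, map_sub, map_mul f, map_mul f, h1, h2, h3, map_mul, map_mul,
        Matrix.trace_fin_two, Matrix.trace_fin_two, Matrix.trace_fin_two, Matrix.det_fin_two]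
      simp [Matrix.mul_apply, Fin.sum_univ_two]
      ring
    have h5 := congrArg redA hrec3
    rw [h4, map_sub, map_mul, map_mul, htc, htc2, one_mul, mul_one, eq_comm, sub_eq_zero] at h5
    exact h5.symm
  let ω := S.anchor.ω
  obtain ⟨a₀, ha₀⟩ := hsurj ω
  obtain ⟨r₁, hr₁, hr₁'⟩ := HenselianLocalRing.is_henselian (X ^ 2 - C (τ c) * X + C (δ c))
    (by monicity!) a₀ (by
      rw [← hker, RingHom.mem_ker]
      simp only [eval_add, eval_sub, eval_mul, eval_pow, eval_X, eval_C, map_add, map_sub, map_mul,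
        map_pow, ha₀, htc, hdc]
      linear_combination S.anchor.omega_rel - ω * S.anchor.two_eq_zero) (by
      refine hunit _ ?_
      simp only [derivative_X_pow, derivative_mul, derivative_C,
        derivative_X, eval_sub, eval_mul, eval_pow, eval_X, eval_C,
        zero_mul, mul_one, zero_add, add_zero, map_sub, map_mul, map_add, map_pow, Nat.cast_ofNat,
        eval_ofNat, map_ofNat, ha₀, htc, S.anchor.two_eq_zero, zero_sub, neg_ne_zero]
      exact one_ne_zero)
  have hred₁ : redA r₁ = ω := by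
    rw [← ha₀, ← sub_eq_zero, ← map_sub, ← RingHom.mem_ker, hker]
    exact hr₁'
  have hsep : IsUnit (r₁ - (τ c - r₁)) := hunit _ (by
    rw [map_sub, map_sub, hred₁, htc, show ω - (1 - ω) = 2 * ω - 1 by ring,
      S.anchor.two_eq_zero, zero_mul, zero_sub, neg_ne_zero]
    exact one_ne_zero)
  have hprod : r₁ * (τ c - r₁) = δ c := by
    have := hr₁
    simp only [IsRoot, eval_add, eval_sub, eval_mul, eval_pow, eval_X, eval_C] at this
    linear_combination -this
  obtain ⟨g, hg⟩ := S.anchor.hasFullSpan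
  have hgram : IsUnit (Matrix.of fun i j => τ (g i * g j)).det := hunit _ (by
    rw [RingHom.map_det]
    have : redA.mapMatrix (Matrix.of fun i j => τ (g i * g j)) = repGram S.anchor.ρ g := by
      ext i j
      show redA (τ (g i * g j)) = _
      rw [hres _ _ (hτ _), map_mul]
      rfl
    rw [this]
    exact hg.ne_zero)
  obtain ⟨R, -, htr, hcp⟩ := exists_galoisRepAdic_descent_of_split (f : A →+* B) hf ρB τ hτ
    (c := c) (r₁ := r₁) (r₂ := τ c - r₁) (by rw [add_sub_cancel]; exact (hτ c).symm)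
    (by rw [hprod]; exact (hδ c).symm) hsep g hgram fun m => by
      obtain ⟨m', hm'⟩ := FermatLib.MLT.HeckeRep.isClosedFamily_of_finite (𝒪 := O) (ι := Unit)
        (fun _ => f) (fun a ha => hf (by rw [ha (), map_zero])) m
      obtain ⟨L, hL, hfix⟩ := hcont m'
      refine ⟨L, hL, fun σ hσ x => hm' _ fun _ => ?_⟩
      rw [← Ideal.Quotient.eq_zero_iff_mem]
      show Ideal.Quotient.mk _ (f (τ (x * σ) - τ x)) = 0
      have h1 : f (τ (x * σ)) = (ρB (x * σ)).trace := hτ _
      have h2 : f (τ x) = (ρB x).trace := hτ _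
      have h3 : (ρB (x * σ)).map (Ideal.Quotient.mk (maximalIdeal B ^ m')) =
          (ρB x).map (Ideal.Quotient.mk (maximalIdeal B ^ m')) := by
        rw [map_mul, Matrix.map_mul,
          show (ρB σ).map (Ideal.Quotient.mk (maximalIdeal B ^ m')) = 1 from hfix σ hσ, mul_one]
      rw [map_sub, map_sub, h1, h2, sub_eq_zero, Matrix.trace_fin_two, Matrix.trace_fin_two,
        map_add, map_add]
      exact congrArg₂ (· + ·) (congrFun (congrFun h3 0) 0) (congrFun (congrFun h3 1) 1)
  let b₀ := adicBasis R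
  have htrA : ∀ σ, (repMatrix b₀ R.ρ σ).trace = τ σ := fun σ => by
    rw [trace_repMatrix]; exact htr σ
  obtain ⟨P, hP⟩ := exists_conj_of_trace_eq (ρ₁ := repMap redA (repMatrix b₀ R.ρ))
    (ρ₂ := S.anchor.ρ)
    (S.anchor.hasFullSpan.of_trace_eq fun σ => by rw [trace_repMap, htrA, hres _ _ (hτ σ)])
    fun σ => by rw [trace_repMap, htrA, hres _ _ (hτ σ)]
  -- lift the conjugating matrix
  choose lift hlift using hsurj
  let Q : M₂ A := (P : M₂ k).map lift
  have hQmap : Q.map redA = (P : M₂ k) := by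
    ext i j; exact hlift _
  have hQdet : IsUnit Q.det := hunit _ (by
    rw [RingHom.map_det, show redA.mapMatrix Q = (P : M₂ k) from hQmap]
    exact ((Matrix.isUnit_iff_isUnit_det _).mp P.isUnit).ne_zero)
  let Qu : GL (Fin 2) A := Matrix.nonsingInvUnit Q hQdet
  let b : Module.Basis (Fin 2) A R.V :=
    b₀.map ((b₀.equivFun.trans (Matrix.toLinearEquiv' ((Qu⁻¹ : GL (Fin 2) A) : M₂ A)
      (Units.invertible Qu⁻¹))).trans b₀.equivFun.symm)
  have hb : ∀ σ, repMatrix b R.ρ σ =
      Q * repMatrix b₀ R.ρ σ * ((Qu⁻¹ : GL (Fin 2) A) : M₂ A) := by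
    intro σ
    rw [repMatrix_apply, repMatrix_apply,
      ← basis_toMatrix_mul_linearMap_toMatrix_mul_basis_toMatrix b b₀ b b₀ (R.ρ σ)]
    have h1 : b₀.toMatrix b = ((Qu⁻¹ : GL (Fin 2) A) : M₂ A) := by
      ext i j
      rw [Module.Basis.toMatrix_apply, ← Module.Basis.equivFun_apply, Module.Basis.map_apply]
      simp only [LinearEquiv.trans_apply, LinearEquiv.apply_symm_apply]
      rw [show b₀.equivFun (b₀ j) = Pi.single j (1 : A) from by
        ext x; simp [Pi.single_apply, eq_comm]]
      show (((Qu⁻¹ : GL (Fin 2) A) : M₂ A) *ᵥ Pi.single j 1) i = _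
      rw [Matrix.mulVec_single_one]
      rfl
    have h2 : b.toMatrix b₀ = Q := by
      have e := b.toMatrix_mul_toMatrix_flip b₀
      rw [h1] at e
      calc b.toMatrix b₀ = b.toMatrix b₀ * (((Qu⁻¹ : GL (Fin 2) A) : M₂ A) * Qu) := by
            rw [Units.inv_mul, mul_one]
        _ = Q := by rw [← mul_assoc, e, one_mul]; rfl
    rw [h1, h2]
  refine ⟨R, b, fun σ => ?_, fun σ => ⟨?_, ?_⟩⟩
  · rw [hb, Matrix.map_mul, Matrix.map_mul, hQmap, hP σ]
    have hinv : ((Qu⁻¹ : GL (Fin 2) A) : M₂ A).map redA = ((P⁻¹ : GL (Fin 2) k) : M₂ k) := by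
      refine left_inv_eq_right_inv (a := (P : M₂ k)) ?_ (Units.mul_inv _)
      rw [← hQmap, ← Matrix.map_mul]
      rw [show ((Qu⁻¹ : GL (Fin 2) A) : M₂ A) * Q = 1 from Units.inv_mul Qu]
      exact Matrix.map_one _ (map_zero _) (map_one _)
    rw [hinv]
    rfl
  · rw [trace_repMatrix]
    exact (congrArg f (htr σ)).trans (hτ σ)
  · have h := congrArg (Polynomial.coeff · 0) (hcp σ)
    simp only [coeff_map, ← charpoly_repMatrix b, Matrix.charpoly_fin_two] at h
    simpa using h

end FermatLib.MLT.Two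

end
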