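import Fermat.Agent.MLT.Two.Sys.Defs
import Fermat.Agent.MLT.Two.AnchorOmega
import Fermat.Agent.Galois.RepMatrix
import Fermat.Agent.Galois.RepAdic
import Fermat.Agent.Galois.FrobeniusDensity

/-!
# Residual facts for the systems at an auxiliary level

The residual representation of a system has full span, has rotation elements fixing any given
roots of unity, and any continuous representation with the same traces and determinants at
Frobenius elements outside a finite set has the same traces everywhere.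
-/

set_option autoImplicit false

noncomputable section

open Matrix

namespace FermatLib.MLT.Two

open FermatLib.Galois

local notation "Qbar" => AlgebraicClosure ℚ
local notation "Γℚ" => (AlgebraicClosure ℚ ≃ₐ[ℚ] AlgebraicClosure ℚ)
local notation "M₂" R:max => Matrix (Fin 2) (Fin 2) R

section anchor

variable {k : Type} [Field k] (a : Anchor k)


theorem Anchor.hasFullSpan : HasFullSpan a.ρ := by
  obtain ⟨r, hr⟩ := a.exists_rot
  obtain ⟨s, hs⟩ := a.exists_swap
  refine ⟨![1, r, s, r * s], ?_⟩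
  have h2 := a.two_eq_zero
  have h1 := a.omega_rel
  have key : repGram a.ρ ![1, r, s, r * s] = !![0, 1, 0, 0; 1, 1, 0, 0; 0, 0, 0, 1; 0, 0, 1, 0] := by
    ext i j
    fin_cases i <;> fin_cases j <;>
      simp [repGram, hr, hs, rotMat, swapMat, Matrix.trace_fin_two, Matrix.mul_apply,
        Fin.sum_univ_two] <;> grind
  rw [key]
  simp [Matrix.det_succ_row_zero, Fin.sum_univ_succ, Fin.succAbove]

/-- Commutators of a rotation and a swap are rotations fixing all roots of unity. -/
theorem Anchor.exists_rot_modCycloChar (M : ℕ) [NeZero M] :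
    ∃ g : Γℚ, a.ρ g = rotMat a.ω 2 ∧ modCycloChar M g = 1 := by
  obtain ⟨r, hr⟩ := a.exists_rot
  obtain ⟨s, hs⟩ := a.exists_swap
  refine ⟨r * (s * r⁻¹ * s⁻¹), ?_, by simp [map_mul, map_inv]⟩
  have hR : rotMat a.ω 1 * rotMat a.ω 2 = 1 := by
    have h3 := a.omega_cube
    ext i j
    fin_cases i <;> fin_cases j <;> simp [rotMat, Matrix.mul_apply, Fin.sum_univ_two] <;>
      grind
  have hS : swapMat a.ω 0 * swapMat a.ω 0 = 1 := by
    ext i j
    fin_cases i <;> fin_cases j <;> simp [swapMat, Matrix.mul_apply, Fin.sum_univ_two]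
  have hinv : a.ρ r⁻¹ = rotMat a.ω 2 := by
    refine left_inv_eq_right_inv (a := a.ρ r) ?_ (hr ▸ hR)
    rw [← map_mul, inv_mul_cancel, map_one]
  have hinv' : a.ρ s⁻¹ = swapMat a.ω 0 := by
    refine left_inv_eq_right_inv (a := a.ρ s) ?_ (hs ▸ hS)
    rw [← map_mul, inv_mul_cancel, map_one]
  rw [map_mul, map_mul, map_mul, hr, hs, hinv, hinv']
  have h3 := a.omega_cube
  ext i j
  fin_cases i <;> fin_cases j <;> simp [rotMat, swapMat, Matrix.mul_apply, Fin.sum_univ_two] <;>
    grind

theorem Anchor.trace_rotMat_two : (rotMat a.ω 2).trace = 1 := by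
  simp only [rotMat, Matrix.trace_fin_two]
  norm_num
  linear_combination (a.ω ^ 2 - a.ω + 1) * a.omega_rel - a.two_eq_zero

end anchor

/-- Traces and determinants at an element determine those of its powers. -/
theorem trace_pow_eq_of_trace_det {R : Type*} [CommRing R] {X Y : M₂ R} (ht : X.trace = Y.trace)
    (hd : X.det = Y.det) (b : ℕ) : (X ^ b).trace = (Y ^ b).trace := by
  have rec2 : ∀ Z : M₂ R, ∀ b : ℕ,
      (Z ^ (b + 2)).trace = Z.trace * (Z ^ (b + 1)).trace - Z.det * (Z ^ b).trace := by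
    intro Z b
    have hCH : Z * Z = Z.trace • Z - Z.det • (1 : M₂ R) := by
      ext i j
      fin_cases i <;> fin_cases j <;>
        simp [Matrix.mul_apply, Fin.sum_univ_two, Matrix.trace_fin_two, Matrix.det_fin_two] <;> ring
    rw [pow_succ _ (b + 1), pow_succ _ b, mul_assoc, hCH, mul_sub, mul_smul_comm, mul_smul_comm,
      mul_one, Matrix.trace_sub, Matrix.trace_smul, Matrix.trace_smul, ← pow_succ, smul_eq_mul,
      smul_eq_mul]
  induction b using Nat.strong_induction_on with
  | _ b ih =>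
    match b with
    | 0 => simp
    | 1 => simpa using ht
    | b + 2 => rw [rec2, rec2, ih b (by omega), ih (b + 1) (by omega), ht, hd]

/-- Two matrix representations of finite level with equal traces and determinants at Frobenius
elements outside a finite set have equal traces. -/
theorem trace_eq_of_forall_frobenius {R : Type} [CommRing R] (ρ ρ' : Γℚ →* M₂ R)
    (hρ : GaloisFactorsThroughFiniteLevel ρ) (hρ' : GaloisFactorsThroughFiniteLevel ρ')
    (Ex : Finset ℕ)
    (h : ∀ ℓ : ℕ, ℓ.Prime → ℓ ∉ Ex → ∀ A : ValuationSubring Qbar, A.LiesOverPrime ℓ →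
      ∀ F : Γℚ, A.IsFrobeniusAt F ℓ → (ρ F).trace = (ρ' F).trace ∧ (ρ F).det = (ρ' F).det)
    (g : Γℚ) : (ρ g).trace = (ρ' g).trace := by
  obtain ⟨L, hL, h₁⟩ := hρ
  obtain ⟨L', hL', h₂⟩ := hρ'
  haveI := hL
  haveI := hL'
  refine (fun this => ?_) (forall_of_forall_isFrobeniusAt (P := fun g => ∀ b : ℕ,
    ((ρ g) ^ b).trace = ((ρ' g) ^ b).trace) Ex (L ⊔ L') (fun g g' hgg' hg b => ?_)
    (fun σ b hσ c => ?_) (fun ℓ hℓ hℓEx A hA F hF b => ?_) g 1)
  · simpa using this
  · have hfix : ∀ x ∈ L ⊔ L', (g⁻¹ * g') x = x := fun x hx => by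
      rw [AlgEquiv.mul_apply, ← hgg' x hx, ← AlgEquiv.mul_apply, inv_mul_cancel,
        AlgEquiv.one_apply]
    have e : g' = g * (g⁻¹ * g') := by group
    rw [e, map_mul ρ g, map_mul ρ' g, h₁ _ fun x hx => hfix x (le_sup_left (a := L) hx),
      h₂ _ fun x hx => hfix x (le_sup_right (a := L) hx), mul_one, mul_one]
    exact hg b
  · rw [map_pow, map_pow, ← pow_mul, ← pow_mul]
    exact hσ _
  · obtain ⟨ht, hd⟩ := h ℓ hℓ hℓEx A hA F hF
    exact trace_pow_eq_of_trace_det ht hd b

section system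

variable {O : Type} [CommRing O] {k : Type} [Field k] (S : System O k)

/-- Primes `≡ 1 (mod M)` outside a finite set at which the curve has odd trace. -/
theorem exists_prime_one_mod_red_ap (M : ℕ) [NeZero M] (Ex : Finset ℕ) :
    ∃ l : ℕ, l.Prime ∧ l ∉ Ex ∧ ¬ l ∣ 2 * S.anchor.N ∧ (l : ZMod M) = 1 ∧
      S.red (S.ap l : O) = 1 := by
  classical
  obtain ⟨g, hg, hgM⟩ := S.anchor.exists_rot_modCycloChar M
  obtain ⟨L, hL, hfix⟩ := S.anchor.finiteLevel
  obtain ⟨L', hL', hfix'⟩ := exists_finite_level_modCycloChar M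
  haveI := hL
  haveI := hL'
  obtain ⟨l, hl, hlEx, A, hA, σ, hσ, a, b, ha, hb⟩ := exists_isFrobeniusAt_agreeOn (L ⊔ L') g
    (Ex ∪ (2 * S.anchor.N).primeFactors ∪ M.primeFactors)
  simp only [Finset.mem_union, not_or] at hlEx
  have hl2N : ¬ l ∣ 2 * S.anchor.N := fun h =>
    hlEx.1.2 (Nat.mem_primeFactors.mpr ⟨hl, h, mul_ne_zero two_ne_zero S.anchor.squarefree.ne_zero⟩)
  have hlM : ¬ l ∣ M := fun h => hlEx.2 (Nat.mem_primeFactors.mpr ⟨hl, h, NeZero.ne M⟩)
  have key : ∀ u v : Γℚ, (∀ x ∈ L ⊔ L', u x = v x) →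
      S.anchor.ρ u = S.anchor.ρ v ∧ modCycloChar M u = modCycloChar M v := by
    intro u v h
    have hf : ∀ x ∈ L ⊔ L', (v⁻¹ * u) x = x := fun x hx => by
      rw [AlgEquiv.mul_apply, h x hx, ← AlgEquiv.mul_apply, inv_mul_cancel, AlgEquiv.one_apply]
    constructor
    · rw [show u = v * (v⁻¹ * u) by group, map_mul,
        hfix _ fun x hx => hf x (le_sup_left (a := L) hx), mul_one]
    · rw [show u = v * (v⁻¹ * u) by group, map_mul,
        hfix' _ ((IntermediateField.mem_fixingSubgroup_iff _ _).mpr fun x hx =>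
          hf x (le_sup_right (a := L) hx)), mul_one]
  obtain ⟨ha1, ha2⟩ := key σ (g ^ a) ha
  obtain ⟨hb1, -⟩ := key (σ ^ b) g hb
  rw [map_pow, hgM, one_pow] at ha2
  rw [map_pow, hg] at ha1 hb1
  refine ⟨l, hl, hlEx.1.1, hl2N, ?_, ?_⟩
  · have := modCycloChar_frobenius (n := M) hl hlM hA hσ
    rw [ha2, Units.val_one] at this
    exact this.symm
  have hl2 : l ≠ 2 := fun h => hl2N (by rw [h]; exact dvd_mul_right 2 _)
  obtain ⟨htr, -⟩ := S.frobenius l hl hl2 (fun h => hl2N (dvd_mul_of_dvd_right h 2)) A hA σ hσ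
  have hmap := congrArg Matrix.trace (S.map_eq σ)
  rw [Matrix.trace_fin_two, Matrix.map_apply, Matrix.map_apply, ← map_add,
    ← Matrix.trace_fin_two, htr] at hmap
  rw [hmap, ha1]
  have hcube : (rotMat S.anchor.ω 2) ^ 3 = 1 := by
    have h3 := S.anchor.omega_cube
    ext i j
    fin_cases i <;> fin_cases j <;>
      simp [rotMat, pow_succ, Matrix.mul_apply, Fin.sum_univ_two] <;> grind
  have hsplit : (rotMat S.anchor.ω 2) ^ a = (rotMat S.anchor.ω 2) ^ (a % 3) := pow_eq_pow_mod a hcube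
  have ha3 : a % 3 = 0 ∨ a % 3 = 1 ∨ a % 3 = 2 := by omega
  rcases ha3 with h | h | h <;> rw [hsplit, h]
  · exfalso
    rw [ha1, hsplit, h, pow_zero, one_pow] at hb1
    have := congrFun (congrFun hb1 0) 0
    simp [rotMat] at this
    have h4 : S.anchor.ω ^ 2 = 1 := by grind
    exact S.anchor.omega_ne_one (by linear_combination S.anchor.omega_cube - S.anchor.ω * h4)
  · rw [pow_one, S.anchor.trace_rotMat_two]
  · have h1 := S.anchor.omega_rel
    have h2 := S.anchor.two_eq_zero
    simp [rotMat, pow_succ, Matrix.trace_fin_two]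
    grind

end system

end FermatLib.MLT.Two

end
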