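import Fermat.Agent.MLT.Two.Sys.Chars
import Fermat.Agent.MLT.Two.Sys.Residual
import Fermat.Agent.MLT.BettiLocal
import Fermat.Agent.MLT.BettiLift
import Fermat.Agent.Basic.EigenChar
import Fermat.Agent.Modular.TwistSystemEigen

/-!
# A system twisted to trivial nebentype gives a point of a Hecke algebra of cusp forms
-/

set_option autoImplicit false

noncomputable section

open CongruenceSubgroup

namespace FermatLib.MLT.Two

open FermatLib.Modular

variable {O : Type} [CommRing O] {k : Type} [Field k] (S : System O k)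
  {ι : Type} [Fintype ι] {n : ℕ} {P : ι → AuxPlace}
  {K : Type} [Field K] [CharZero K]
  {χ : (ZMod (auxLevel S P))ˣ →* Kˣ} {lam : ℕ → K}

/-- A system has a common eigenvector of all Hecke operators. -/
theorem exists_eigen_all [IsAlgClosed K] {L : ℕ} [NeZero L] {χ : (ZMod L)ˣ →* Kˣ}
    (hne : goodEigen L χ lam ≠ ⊥) :
    ∃ (lam' : Nat.Primes → K) (x : bettiH1 (Gamma0 L) (nebenChar χ) K), x ≠ 0 ∧
      (∀ p, bettiHeckeOp L K χ p x = lam' p • x) ∧
      ∀ p : Nat.Primes, ¬ (p : ℕ) ∣ 2 * L → lam' p = lam p := by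
  let V := bettiH1 (Gamma0 L) (nebenChar χ) K
  haveI : Module.Finite K V := FermatLib.MLT.bettiH1_gamma0_finite K L (nebenChar χ)
  let W := goodEigen L χ lam
  let ev : BettiHeckeAlg K →+* Module.End K V := (bettiEval L χ K).toRingHom
  have hev : ∀ p : Nat.Primes, ev (MvPolynomial.X p) = bettiHeckeOp L K χ p :=
    fun p => bettiEval_X χ p
  have hW : ∀ t, ∀ w ∈ W, ev t w ∈ W := by
    intro t w hw
    refine mem_goodEigen.mpr fun l hl => ?_
    have hc : bettiHeckeOp L K χ l (ev t w) = ev t (bettiHeckeOp L K χ l w) := by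
      rw [← hev, ← Module.End.mul_apply, ← map_mul, mul_comm, map_mul, Module.End.mul_apply]
    rw [hc, mem_goodEigen.mp hw l hl, map_smul]
  let ρW : BettiHeckeAlg K →+* Module.End K W :=
    { toFun := fun t => (ev t).restrict (hW t)
      map_one' := LinearMap.ext fun w => Subtype.ext (by simp)
      map_mul' := fun s t => LinearMap.ext fun w => Subtype.ext (by simp)
      map_zero' := LinearMap.ext fun w => Subtype.ext (by simp)
      map_add' := fun s t => LinearMap.ext fun w => Subtype.ext (by simp) }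
  haveI : Nontrivial W := Submodule.nontrivial_iff_ne_bot.mpr hne
  have hker : RingHom.ker ρW ≠ ⊤ := RingHom.ker_ne_top _
  obtain ⟨m, hm, hle⟩ := Ideal.exists_le_maximal _ hker
  obtain ⟨v, c, hv, hvc, -⟩ := FermatLib.Basic.exists_eigenchar_ker_le ρW m hle
  refine ⟨fun p => c (MvPolynomial.X p), v, fun h => hv (Subtype.ext h), fun p => ?_, fun p hp => ?_⟩
  · have := congrArg Subtype.val (hvc (MvPolynomial.X p))
    rw [← hev]
    exact this
  · have h1 := congrArg Subtype.val (hvc (MvPolynomial.X p))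
    have h2 : ev (MvPolynomial.X p) (v : V) = lam p • (v : V) := by
      rw [hev]; exact mem_goodEigen.mp v.2 p hp
    by_contra h
    refine hv (Subtype.ext ((smul_eq_zero.mp (?_ : (c (MvPolynomial.X p) - lam p) • (v : V) = 0)
      ).resolve_left (sub_ne_zero.mpr h)))
    rw [sub_smul, ← h2, sub_eq_zero]
    exact h1.symm

/-- A residual system is not Eisenstein at some prime `≡ 1 (mod M)`. -/
theorem exists_prime_ne_succ_of_residual [IsLocalRing O] [Algebra O K] {L : ℕ} [NeZero L]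
    (hres : IsResidualSystem S L lam) (M : ℕ) [NeZero M] :
    ∃ l : Nat.Primes, ¬ (l : ℕ) ∣ 2 * L ∧ ((l : ℕ) : ZMod M) = 1 ∧ lam l ≠ (l : ℕ) + 1 := by
  obtain ⟨l, hl, hlEx, -, hlM, hred⟩ := exists_prime_one_mod_red_ap S M (2 * L).primeFactors
  have hl2L : ¬ l ∣ 2 * L := fun h =>
    hlEx (Nat.mem_primeFactors.mpr ⟨hl, h, mul_ne_zero two_ne_zero (NeZero.ne L)⟩)
  refine ⟨⟨l, hl⟩, hl2L, hlM, fun h => ?_⟩
  obtain ⟨a, ha, hnu⟩ := hres l hl hl2L
  refine hnu ?_
  have hodd : Odd l := hl.odd_of_ne_two fun h2 => hl2L (by rw [h2]; exact dvd_mul_right _ _)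
  have hk2 : S.red (((l + 1 : ℕ) : O)) = 0 := by
    obtain ⟨r, hr⟩ := hodd
    rw [map_natCast, hr, show 2 * r + 1 + 1 = 2 * (r + 1) by ring, Nat.cast_mul, Nat.cast_two,
      S.anchor.two_eq_zero, zero_mul]
  have hu : IsUnit (((l + 1 : ℕ) : O) - (S.ap l : O)) := by
    by_contra hnu'
    have hker : RingHom.ker S.red = IsLocalRing.maximalIdeal O :=
      IsLocalRing.eq_maximalIdeal (RingHom.ker_isMaximal_of_surjective _ S.red_surjective)
    have h0 : ((l + 1 : ℕ) : O) - (S.ap l : O) ∈ RingHom.ker S.red := hker ▸ hnu'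
    rw [RingHom.mem_ker, map_sub, hk2, hred, zero_sub, neg_eq_zero] at h0
    exact one_ne_zero h0
  have ha' : a = algebraMap O (integralClosure O K) ((l + 1 : ℕ) : O) := by
    refine Subtype.ext ?_
    rw [ha]
    show lam l = algebraMap O K _
    rw [map_natCast, h]
    push_cast
    rfl
  rw [ha', ← map_intCast (algebraMap O (integralClosure O K)), ← map_sub]
  exact hu.map _

variable (hP : IsDepth S n P)

open scoped Classical in
/-- The auxiliary primes at which `χ` is nontrivial. -/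
def auxTwistSet (χ : (ZMod (auxLevel S P))ˣ →* Kˣ) : Finset ℕ :=
  (Finset.univ.filter fun i => auxComp S P hP χ i ≠ 1).image fun i => (P i).q

/-- The twisted level. -/
def auxTwistLevel (χ : (ZMod (auxLevel S P))ˣ →* Kˣ) : ℕ :=
  auxLevel S P * ∏ q ∈ auxTwistSet S hP χ, q

omit [CharZero K] in
theorem auxTwistSet_spec {χ : (ZMod (auxLevel S P))ˣ →* Kˣ} {q : ℕ}
    (hq : q ∈ auxTwistSet S hP χ) : ∃ i, auxComp S P hP χ i ≠ 1 ∧ (P i).q = q := by
  classical
  simpa [auxTwistSet] using hq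

instance neZero_auxTwistLevel (χ : (ZMod (auxLevel S P))ˣ →* Kˣ) :
    NeZero (auxTwistLevel S hP χ) :=
  ⟨mul_ne_zero (NeZero.ne _) (Finset.prod_ne_zero_iff.mpr fun q hq => by
    obtain ⟨i, -, rfl⟩ := auxTwistSet_spec S hP hq
    exact (P i).hq.ne_zero)⟩

open scoped Classical in
/-- A family of characters indexed by all natural numbers. -/
def auxExtend (ψ : ∀ i, (ZMod (P i).q)ˣ →* Kˣ) (q : ℕ) : (ZMod q)ˣ →* Kˣ :=
  if h : ∃ i, (P i).q = q then h.choose_spec ▸ ψ h.choose else 1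

omit [CharZero K] in
theorem auxExtend_apply (hinj : Function.Injective fun i => (P i).q)
    (ψ : ∀ i, (ZMod (P i).q)ˣ →* Kˣ) (i : ι) : auxExtend ψ (P i).q = ψ i := by
  have h : ∃ j, (P j).q = (P i).q := ⟨i, rfl⟩
  rw [auxExtend, dif_pos h]
  have key : ∀ (j : ι) (e : (P j).q = (P i).q), e ▸ ψ j = ψ i := fun j e => by
    obtain rfl : j = i := hinj e
    rfl
  exact key _ _

omit [CharZero K] in
theorem twistFactor_auxExtend {χ : (ZMod (auxLevel S P))ˣ →* Kˣ}
    {ψ : ∀ i, (ZMod (P i).q)ˣ →* Kˣ} (hψ1 : ∀ i, auxComp S P hP χ i = 1 → ψ i = 1) {l : ℕ}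
    (hl : l.Coprime (auxLevel S P)) :
    Twist.twistFactor (auxTwistSet S hP χ) (auxExtend ψ) l = charVal (auxProd S P ψ) l := by
  classical
  rw [charVal, dif_pos hl, auxProd_apply, Units.coe_prod, Twist.twistFactor, auxTwistSet,
    Finset.prod_image fun a _ b _ h => hP.injective h]
  have hterm : ∀ i, MulChar.ofUnitHom (auxExtend ψ (P i).q) (l : ZMod (P i).q) =
      (ψ i (ZMod.unitsMap (dvd_auxLevel S P i) (ZMod.unitOfCoprime l hl)) : K) := fun i => by
    rw [auxExtend_apply hP.injective, Twist.ofUnitHom_natCast (hl.coprime_dvd_right (dvd_auxLevel S P i))]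
    congr 2
    exact Units.ext (by simp [ZMod.unitsMap_val, ZMod.cast_natCast (dvd_auxLevel S P i)])
  rw [Finset.prod_congr rfl fun i _ => hterm i]
  refine Finset.prod_subset (Finset.subset_univ _) fun i _ hi => ?_
  simp only [Finset.mem_filter, Finset.mem_univ, true_and, not_not] at hi
  rw [hψ1 i hi, MonoidHom.one_apply, Units.val_one]

omit [CharZero K] in
theorem auxChar_mul_sq {χ : (ZMod (auxLevel S P))ˣ →* Kˣ} (hχ : IsAuxChar S P n χ)
    {ψ : ∀ i, (ZMod (P i).q)ˣ →* Kˣ} (hψ : ∀ i, ψ i ^ 2 * auxComp S P hP χ i = 1)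
    (u : (ZMod (auxLevel S P))ˣ) : χ u * auxProd S P ψ u ^ 2 = 1 := by
  conv_lhs => rw [eq_auxProd_auxComp S P hP hχ]
  rw [auxProd_apply, auxProd_apply, ← Finset.prod_pow, ← Finset.prod_mul_distrib]
  refine Finset.prod_eq_one fun i _ => ?_
  rw [mul_comm, ← MonoidHom.pow_apply, ← MonoidHom.mul_apply, hψ i, MonoidHom.one_apply]

/-- The system twisted by `ψ`, `ψ² χ = 1`, as a point of the Hecke algebra. -/
theorem exists_twistedPoint [IsAlgClosed K] [IsLocalRing O] [Algebra O K]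
    (hχ : IsAuxChar S P n χ) (hres : IsResidualSystem S (auxLevel S P) lam)
    (hne : goodEigen (auxLevel S P) χ lam ≠ ⊥) {ψ : ∀ i, (ZMod (P i).q)ˣ →* Kˣ}
    (hψ : ∀ i, ψ i ^ 2 * auxComp S P hP χ i = 1)
    (hψ1 : ∀ i, auxComp S P hP χ i = 1 → ψ i = 1) :
    ∃ θ : ↥(CuspForm.heckeAlgebra (auxTwistLevel S hP χ) 2 (∅ : Set ℕ)) →+* K,
      ∀ (l : ℕ) (hl : l.Prime) (hlN : ¬ l ∣ auxTwistLevel S hP χ), l ≠ 2 →
        θ (CuspForm.heckeAlgebra.T hl hlN (Set.notMem_empty l)) =
          charVal (auxProd S P ψ) l * lam l := by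
  obtain ⟨lam', x, hx, heig, hlam⟩ := exists_eigen_all hne
  haveI : NeZero (auxLevel S P * ∏ q ∈ auxTwistSet S hP χ, q) := neZero_auxTwistLevel S hP χ
  obtain ⟨l₀, hl₀, hl₀M, hl₀ne⟩ := exists_prime_ne_succ_of_residual S hres (auxTwistLevel S hP χ)
  have hQ : ∀ q ∈ auxTwistSet S hP χ, q.Prime ∧ q ∣ auxLevel S P ∧ ¬ q ^ 2 ∣ auxLevel S P := by
    intro q hq
    obtain ⟨i, -, rfl⟩ := auxTwistSet_spec S hP hq
    refine ⟨(P i).hq, dvd_auxLevel S P i, fun h => (P i).hq.not_isUnit ?_⟩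
    exact auxLevel_squarefree S P hP _ (by rw [← pow_two]; exact h)
  obtain ⟨θ, hT, -, -⟩ := Twist.exists_twist_point (L := auxLevel S P)
    (Q := auxTwistSet S hP χ) (ψ := auxExtend ψ) hQ
    (fun q hq => by
      obtain ⟨i, hi, rfl⟩ := auxTwistSet_spec S hP hq
      rw [auxExtend_apply hP.injective]
      intro h
      have := hψ i
      rw [h] at this
      exact hi (MonoidHom.ext fun u => by simpa using DFunLike.congr_fun this u))
    (fun m hm => by
      rw [twistFactor_auxExtend S hP hψ1 hm, charVal, dif_pos hm,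
        ← Units.val_pow_eq_pow_val, ← Units.val_mul, auxChar_mul_sq S hP hχ hψ, Units.val_one])
    hx lam' (fun l _ => heig l) ⟨l₀, hl₀M, by rwa [hlam l₀ hl₀]⟩
  refine ⟨θ, fun l hl hlN hl2 => ?_⟩
  have hlL : ¬ l ∣ auxLevel S P := fun h => hlN (dvd_mul_of_dvd_left h _)
  refine (hT l hl hlN).trans ?_
  rw [twistFactor_auxExtend S hP hψ1 (hl.coprime_iff_not_dvd.mpr hlL), hlam ⟨l, hl⟩ ?_]
  intro h
  rcases hl.dvd_mul.mp h with h | h
  · exact hl2 ((Nat.prime_dvd_prime_iff_eq hl Nat.prime_two).mp h)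
  · exact hlL h

end FermatLib.MLT.Two

end
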