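import Fermat.Agent.Galois.RepDVR
import Fermat.Agent.Modular.TwistSystemEigen
import Mathlib.RingTheory.Ideal.GoingUp

/-!
# Coefficients containing roots of unity
-/

set_option autoImplicit false

noncomputable section

open Polynomial IsLocalRing

namespace FermatLib.MLT.Two

/-- A finite extension inside `K` of a complete discrete valuation ring, containing the `N`-th
roots of unity of `K`. -/
theorem exists_coeff_roots {O : Type} [CommRing O] [IsDomain O] [IsDiscreteValuationRing O]
    [IsAdicComplete (maximalIdeal O) O] [Finite (ResidueField O)] [CharZero O]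
    {K : Type} [Field K] [IsAlgClosed K] {j : O →+* K} (hj : Function.Injective j) {N : ℕ}
    (hN : N ≠ 0) :
    ∃ (O' : Type) (_ : CommRing O') (_ : IsDomain O') (_ : IsDiscreteValuationRing O')
      (_ : IsAdicComplete (maximalIdeal O') O') (_ : Finite (ResidueField O')) (_ : CharZero O')
      (e : O →+* O') (j' : O' →+* K),
      IsLocalHom e ∧ e.IsIntegral ∧ Function.Injective j' ∧ j'.comp e = j ∧
        ∀ z : K, z ^ N = 1 → z ∈ j'.range := by
  obtain ⟨O', _, _, _, _, _, _, _, _, hloc, hinj, hsp⟩ :=
    FermatLib.Galois.exists_dvr_extension_splits O ((X : O[X]) ^ N - C 1)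
      (monic_X_pow_sub_C 1 hN)
  have hint : Algebra.IsIntegral O O' := Algebra.IsIntegral.of_finite O O'
  obtain ⟨j', hj'⟩ := FermatLib.Modular.Twist.exists_ringHom_extends_field hinj j
  have hj'i : Function.Injective j' := by
    have hbot : (RingHom.ker j').comap (algebraMap O O') = ⊥ := by
      rw [RingHom.comap_ker, hj', (RingHom.injective_iff_ker_eq_bot j).mp hj]
    rw [RingHom.injective_iff_ker_eq_bot]
    exact Ideal.eq_bot_of_comap_eq_bot hbot
  refine ⟨O', inferInstance, inferInstance, inferInstance, inferInstance, inferInstance,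
    inferInstance, algebraMap O O', j', hloc, algebraMap_isIntegral_iff.mpr hint, hj'i, hj',
    fun z hz => ?_⟩
  rw [Polynomial.map_sub, Polynomial.map_pow, map_X, map_C, map_one] at hsp
  have hne' : ((X : O'[X]) ^ N - C 1).map j' ≠ 0 := by
    rw [Polynomial.map_sub, Polynomial.map_pow, map_X, map_C, map_one]
    exact (monic_X_pow_sub_C 1 hN).ne_zero
  have hmem : z ∈ (((X : O'[X]) ^ N - C 1).map j').roots := by
    rw [mem_roots hne', Polynomial.map_sub, Polynomial.map_pow, map_X, map_C, map_one, IsRoot.def,
      eval_sub, eval_pow, eval_X, eval_C, hz, sub_self]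
  rw [hsp.roots_map_of_injective hj'i, Multiset.mem_map] at hmem
  obtain ⟨a, -, ha⟩ := hmem
  exact ⟨a, ha⟩

end FermatLib.MLT.Two

end
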