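import Fermat.Agent.MLT.Two.Sys.Chars
import Fermat.Prelude.Def_GaloisRep_Adic
import Fermat.Prelude.Def_GaloisRep_LocalConditions
import Fermat.Agent.MLT.Two.Sys.TwistAdic
import Fermat.Agent.MLT.Two.Sys.InertiaLGCTwist
import Fermat.Agent.MLT.Two.Sys.InertiaLGCCoeff
import Fermat.Agent.MLT.Two.Sys.Residual
import Fermat.Agent.MLT.LGC.Main
import Fermat.Agent.Basic.FrobeniusExists
import Fermat.Agent.MLT.Odd.HeckeRepDescentPrep

/-!
# Inertia at an auxiliary prime through which the nebentype ramifies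

`ρ₀` is the representation of the system twisted to trivial nebentype by `ψ`, `ψ² χ = 1`.  At a
prime with `χ ≠ 1` on it, local-global compatibility gives the eigenvalues `ψ`, `ψ⁻¹` on inertia.
-/

set_option autoImplicit false

noncomputable section

open Polynomial CongruenceSubgroup

namespace FermatLib.MLT.Two

local notation "Qbar" => AlgebraicClosure ℚ
local notation "Γℚ" => (AlgebraicClosure ℚ ≃ₐ[ℚ] AlgebraicClosure ℚ)

variable {O : Type} [CommRing O] [IsDomain O] [IsDiscreteValuationRing O]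
  [IsAdicComplete (IsLocalRing.maximalIdeal O) O] [CharZero O]
  {k : Type} [Field k] [Finite k] (S : System O k)
  {ι : Type} [Fintype ι] {n : ℕ} {P : ι → AuxPlace}
  {K : Type} [Field K] [IsAlgClosed K] [CharZero K] [Algebra O K]
  {χ : (ZMod (auxLevel S P))ˣ →* Kˣ} {lam : ℕ → K}
  {O' : Type} [CommRing O'] [IsDomain O'] [IsDiscreteValuationRing O']
  [IsAdicComplete (IsLocalRing.maximalIdeal O') O'] [Finite (IsLocalRing.ResidueField O')]
  [CharZero O'] [Algebra O O'] [Module.Finite O O']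

theorem exists_prime_dvd_three_mod_four : ∀ {N : ℕ}, N % 4 = 3 →
    ∃ q, q.Prime ∧ q ∣ N ∧ q % 4 = 3 := by
  intro N
  induction N using Nat.strong_induction_on with
  | _ N ih =>
    intro h
    have hN1 : N ≠ 1 := by omega
    have hp := Nat.minFac_prime hN1
    obtain ⟨d, hd⟩ := Nat.minFac_dvd N
    rcases (by omega : N.minFac % 4 = 0 ∨ N.minFac % 4 = 1 ∨ N.minFac % 4 = 2 ∨
        N.minFac % 4 = 3) with h0 | h0 | h0 | h0
    · rw [hd, Nat.mul_mod, h0] at h; simp at h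
    · have hd3 : d % 4 = 3 := by rw [hd, Nat.mul_mod, h0] at h; omega
      have hlt : d < N := by
        rw [hd]
        exact lt_mul_left (by omega) hp.one_lt
      obtain ⟨q, hq, hqd, hq4⟩ := ih d hlt hd3
      exact ⟨q, hq, hd ▸ hqd.mul_left _, hq4⟩
    · rw [hd, Nat.mul_mod, h0] at h; omega
    · exact ⟨_, hp, Nat.minFac_dvd N, h0⟩

omit [IsDomain O] [IsDiscreteValuationRing O] [IsAdicComplete (IsLocalRing.maximalIdeal O) O]
  [CharZero O] [Finite k] in
/-- The characteristic polynomial on inertia at a prime where `χ` is nontrivial. -/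
theorem charpoly_inertia_of_comp_ne_one (hP : IsDepth S n P)
    (hO : Function.Injective (algebraMap O K)) (hχ : IsAuxChar S P n χ)
    (hres : IsResidualSystem S (auxLevel S P) lam) (hne : goodEigen (auxLevel S P) χ lam ≠ ⊥)
    {ψ : ∀ i, (ZMod (P i).q)ˣ →* Kˣ} (hψ : ∀ i, ψ i ^ 2 * auxComp S P hP χ i = 1)
    (hψ1 : ∀ i, auxComp S P hP χ i = 1 → ψ i = 1) (hψn : ∀ i u, ψ i u ^ 2 ^ (n + 1) = 1)
    {j' : O' →+* K} (hj' : Function.Injective j')
    (hj'O : j'.comp (algebraMap O O') = algebraMap O K)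
    {ρ₀ : GaloisRepAdic O'} (hirr : ρ₀.residual.IsAbsolutelyIrreducible)
    (hfrob : ∀ l : ℕ, l.Prime → ¬ l ∣ 2 * auxLevel S P →
      ∀ B : ValuationSubring Qbar, B.LiesOverPrime l → ∀ F : Γℚ, B.IsFrobeniusAt F l →
        (LinearMap.charpoly (ρ₀.ρ F)).map j' =
          X ^ 2 - C (charVal (auxProd S P ψ) l * lam l) * X + C (l : K))
    (i : ι) (hi : auxComp S P hP χ i ≠ 1) {τ : Γℚ} (hτ : τ ∈ (P i).A.inertiaSubgroupIn ℚ) :
    (LinearMap.charpoly (ρ₀.ρ τ)).map j' =
      (X - C (ψ i (FermatLib.Galois.modCycloChar (P i).q τ) : K)) *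
        (X - C ((ψ i (FermatLib.Galois.modCycloChar (P i).q τ))⁻¹ : Kˣ).val) := by
  classical
  have hq : (P i).q.Prime := (P i).hq
  have hqf : Fact (P i).q.Prime := ⟨hq⟩
  have h2f : Fact (Nat.Prime 2) := ⟨Nat.prime_two⟩
  have hq2 : (P i).q ≠ 2 := fun h => hP.prime_to i (by rw [h]; exact dvd_mul_right 2 _)
  obtain ⟨M, hM0, hqM, hNM, hgood, hLM, x₀, hx₀, hxe⟩ :=
    exists_singleComp_class S hP hχ hne hψ hψ1 i
  have := hM0
  obtain ⟨O₂, _, _, _, _, _, _, e, j₂, hloc, heint, hj₂, hje, hroots⟩ :=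
    exists_coeff_roots hj' (N := 2 ^ (n + 1)) (pow_ne_zero _ two_ne_zero)
  let : Algebra O₂ K := j₂.toAlgebra
  let r : O →+* O₂ := e.comp (algebraMap O O')
  have hr : j₂.comp r = algebraMap O K := by rw [← RingHom.comp_assoc, hje, hj'O]
  have hrinj : Function.Injective r := fun a b h => hO (by
    have := congrArg j₂ h
    rwa [← RingHom.comp_apply, ← RingHom.comp_apply, hr] at this)
  have hrint : r.IsIntegral :=
    RingHom.IsIntegral.trans _ _ (algebraMap_isIntegral_iff.mpr (Algebra.IsIntegral.of_finite O O'))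
      heint
  have : IsLocalHom r := hrint.isLocalHom hrinj
  have h2O : ¬ IsUnit (2 : O) := fun h => by
    have := h.map S.red
    rw [map_ofNat, S.anchor.two_eq_zero] at this
    exact not_isUnit_zero this
  have h2 : (2 : O₂) ∈ IsLocalRing.maximalIdeal O₂ := fun h =>
    h2O (isUnit_of_map_unit r _ (by rwa [map_ofNat]))
  have h2res : (2 : IsLocalRing.ResidueField O₂) = 0 := by
    rw [← map_ofNat (IsLocalRing.residue O₂) 2]
    exact (IsLocalRing.residue_eq_zero_iff _).mpr h2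
  -- the lift of `ψ i`
  have hlift : ∀ u, ∃ a : O₂ˣ, j₂ a = ψ i u := fun u => by
    obtain ⟨a, ha⟩ := hroots (ψ i u : K) (by
      rw [← Units.val_pow_eq_pow_val, hψn, Units.val_one])
    have ha1 : a ^ 2 ^ (n + 1) = 1 := hj₂ (by
      rw [map_pow, ha, ← Units.val_pow_eq_pow_val, hψn, Units.val_one, map_one])
    exact ⟨Units.ofPowEqOne a _ ha1 (pow_ne_zero _ two_ne_zero), ha⟩
  choose ψf hψf using hlift
  let ψ₂ : (ZMod (P i).q)ˣ →* O₂ˣ := MonoidHom.mk' ψf fun a b => Units.ext (hj₂ (by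
    rw [hψf, map_mul, Units.val_mul, Units.val_mul, map_mul j₂, hψf, hψf]))
  have hψ₂ : (Units.map (algebraMap O₂ K).toMonoidHom).comp ψ₂ = ψ i :=
    MonoidHom.ext fun u => Units.ext (hψf u)
  have hinv : ∀ u, j₂ (((ψ₂ u)⁻¹ : O₂ˣ) : O₂) = (((ψ i u)⁻¹ : Kˣ) : K) := fun u =>
    (congrArg Units.val (map_inv (Units.map j₂.toMonoidHom) (ψ₂ u))).trans
      (congrArg (fun z : Kˣ => ((z⁻¹ : Kˣ) : K)) (DFunLike.congr_fun hψ₂ u))
  let χ₂ : (ZMod (P i).q)ˣ →* O₂ˣ := (ψ₂ ^ 2)⁻¹
  have hχ₂ : (Units.map (algebraMap O₂ K).toMonoidHom).comp χ₂ = auxComp S P hP χ i := by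
    refine MonoidHom.ext fun u => ?_
    have h1 := DFunLike.congr_fun (hψ i) u
    rw [MonoidHom.mul_apply, MonoidHom.pow_apply, MonoidHom.one_apply] at h1
    rw [MonoidHom.comp_apply, MonoidHom.inv_apply, MonoidHom.pow_apply, map_inv, map_pow,
      ← MonoidHom.comp_apply, hψ₂]
    exact inv_eq_of_mul_eq_one_right h1
  obtain ⟨x, hx, hxe'⟩ : ∃ x : bettiH1 (Gamma0 ((P i).q * M))
      (nebenChar ((Units.map (algebraMap O₂ K).toMonoidHom).comp
        (χ₂.comp (ZMod.unitsMap (dvd_mul_right (P i).q M))))) K,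
      x ≠ 0 ∧ ∀ l : Nat.Primes, ¬ (l : ℕ) ∣ (P i).q * M * 2 →
        bettiHeckeOp ((P i).q * M) K ((Units.map (algebraMap O₂ K).toMonoidHom).comp
          (χ₂.comp (ZMod.unitsMap (dvd_mul_right (P i).q M)))) l x =
          (MulChar.ofUnitHom (ψ i)⁻¹ ((l : ℕ) : ZMod (P i).q) *
            (charVal (auxProd S P ψ) l * lam l)) • x := by
    rw [← MonoidHom.comp_assoc, hχ₂]
    exact ⟨x₀, hx₀, hxe⟩
  -- the twisted representation
  let φ : Γℚ →* O₂ˣ := (ψ₂⁻¹).comp (FermatLib.Galois.modCycloChar (P i).q)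
  have hφ : ∃ F : IntermediateField ℚ Qbar, FiniteDimensional ℚ F ∧
      ∀ σ ∈ F.fixingSubgroup, φ σ = 1 := by
    obtain ⟨F, hF, hfix⟩ := FermatLib.Galois.exists_finite_level_modCycloChar (P i).q
    exact ⟨F, hF, fun σ hσ => by rw [MonoidHom.comp_apply, hfix σ hσ, map_one]⟩
  let ρ₁ := ρ₀.baseChangeAlong e hloc
  let ρ₂ := twistAdic ρ₁ φ hφ
  have hdet₁ : ∀ σ, LinearMap.det (ρ₁.ρ σ) = e (LinearMap.det (ρ₀.ρ σ)) ∧
      ρ₁.trace σ = e (ρ₀.trace σ) := by
    intro σ
    have h := FermatLib.Galois.charpoly_baseChangeAlong e hloc ρ₀ σ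
    rw [FermatLib.Galois.adic_charpoly_eq, FermatLib.Galois.adic_charpoly_eq] at h
    simp only [Polynomial.map_add, Polynomial.map_sub, Polynomial.map_mul, Polynomial.map_pow,
      Polynomial.map_X, Polynomial.map_C] at h
    exact ⟨(eq_of_quadratic_eq h).2, (eq_of_quadratic_eq h).1⟩
  have hcp₀ : ∀ σ, (LinearMap.charpoly (ρ₀.ρ σ)).map j' =
      X ^ 2 - C (j' (ρ₀.trace σ)) * X + C (j' (LinearMap.det (ρ₀.ρ σ))) := fun σ => by
    simp [FermatLib.Galois.adic_charpoly_eq]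
  let target : ℕ → K := fun l =>
    MulChar.ofUnitHom (ψ i)⁻¹ (l : ZMod (P i).q) * (charVal (auxProd S P ψ) l * lam l)
  let lam₂ : Nat.Primes → O₂ := fun l =>
    if h : ∃ a, j₂ a = target l then h.choose else 0
  have hfrob₂ : ∀ (l : Nat.Primes), l ∈ LGC.goodPrimes (P i).q M 2 →
      ∀ hlq : Nat.Coprime (l : ℕ) (P i).q, ∀ B : ValuationSubring Qbar, B.LiesOverPrime l →
      ∀ σ : Γℚ, B.IsFrobeniusAt σ l →
        j₂ (ρ₂.trace σ) = target l ∧
          LinearMap.det (ρ₂.ρ σ) = (χ₂ (ZMod.unitOfCoprime (l : ℕ) hlq) : O₂) * (l : O₂) := by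
    intro l hl hlq B hB σ hσ
    have h := hfrob l l.2 (hgood l l.2 hl) B hB σ hσ
    rw [hcp₀] at h
    obtain ⟨ht, hd⟩ := eq_of_quadratic_eq h
    have hd' : LinearMap.det (ρ₀.ρ σ) = ((l : ℕ) : O') := hj' (by rw [hd, map_natCast])
    have hu : FermatLib.Galois.modCycloChar (P i).q σ = ZMod.unitOfCoprime (l : ℕ) hlq :=
      Units.ext (FermatLib.Galois.modCycloChar_frobenius l.2
        (fun h => hl ((h.mul_right M).mul_right 2)) hB hσ)
    constructor
    · show j₂ ((twistAdic ρ₁ φ hφ).trace σ) = _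
      rw [trace_twistAdic, map_mul, (hdet₁ σ).2, ← RingHom.comp_apply j₂ e, hje, ht]
      refine congrArg (· * _) ?_
      rw [FermatLib.Modular.Twist.ofUnitHom_natCast hlq, MonoidHom.comp_apply, hu,
        MonoidHom.inv_apply, MonoidHom.inv_apply]
      exact hinv _
    · show LinearMap.det ((twistAdic ρ₁ φ hφ).ρ σ) = _
      rw [det_twistAdic, (hdet₁ σ).1, hd', map_natCast, MonoidHom.comp_apply, hu,
        ← Units.val_pow_eq_pow_val, MonoidHom.inv_apply, inv_pow]
      rfl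
  have hlam₂ : ∀ l : Nat.Primes, l ∈ LGC.goodPrimes (P i).q M 2 → j₂ (lam₂ l) = target l := by
    intro l hl
    have : Fact (l : ℕ).Prime := ⟨l.2⟩
    have hlq : Nat.Coprime (l : ℕ) (P i).q :=
      l.2.coprime_iff_not_dvd.2 fun h => hl ((h.mul_right M).mul_right 2)
    obtain ⟨σ, hσ⟩ := FermatLib.Basic.exists_isFrobeniusAt l.2 _
      (FermatLib.Galois.padicPlace_liesOverPrime (l : ℕ))
    have hex : ∃ a, j₂ a = target l :=
      ⟨_, (hfrob₂ l hl hlq _ (FermatLib.Galois.padicPlace_liesOverPrime (l : ℕ)) σ hσ).1⟩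
    simp only [lam₂, dif_pos hex]
    exact hex.choose_spec
  have hsys : LGC.IsLgcSystem 2 (P i).q M χ₂ K lam₂ x ρ₂ := by
    refine
    { not_dvd := hqM
      mem_maximal := h2
      ne_one := fun h => hi (by rw [← hχ₂, h, MonoidHom.comp_one])
      pow_eq_one := ⟨n + 1, fun u => by
        have h1 : ψ₂ u ^ 2 ^ (n + 1) = 1 := Units.ext (hj₂ (by
          show j₂ ((ψf u ^ 2 ^ (n + 1) : O₂ˣ) : O₂) = _
          rw [Units.val_pow_eq_pow_val, map_pow, hψf, ← Units.val_pow_eq_pow_val, hψn,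
            Units.val_one, Units.val_one, map_one]))
        rw [MonoidHom.inv_apply, MonoidHom.pow_apply, inv_pow, ← pow_mul, mul_comm, pow_mul, h1,
          one_pow, inv_one]⟩
      exists_sqrt := ⟨ψ₂⁻¹, fun u => by
        rw [MonoidHom.inv_apply, MonoidHom.inv_apply, MonoidHom.pow_apply, inv_pow]⟩
      ne_zero := hx
      eigen := fun l hl => (hxe' l hl).trans (congrArg (· • x) (hlam₂ l hl).symm)
      nonEisenstein := ?_
      elliptic := Or.inl ⟨noEllipticTwo_of_dvd O₂ ?_, Or.inl ?_⟩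
      charpoly_frob := fun l hl hlq B hB σ hσ => by
        obtain ⟨ht, hd⟩ := hfrob₂ l hl hlq B hB σ hσ
        rw [FermatLib.Galois.adic_charpoly_eq, hd,
          hj₂ (ht.trans (hlam₂ l hl).symm)]
      residual_irreducible := isAbsolutelyIrreducible_twistAdic _ _ _
        (MLT.HeckeRep.residual_isAbsolutelyIrreducible_baseChange ρ₀ e hloc hirr) }
    · have : NeZero ((P i).q ^ 2 * M) := ⟨mul_ne_zero (pow_ne_zero 2 hq.ne_zero) (NeZero.ne M)⟩
      obtain ⟨l, hl, hlEx, -, hl1, hap⟩ :=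
        exists_prime_one_mod_red_ap S ((P i).q ^ 2 * M) ((P i).q * M * 2).primeFactors
      have hlg : ¬ l ∣ (P i).q * M * 2 := fun h => hlEx (Nat.mem_primeFactors.mpr
        ⟨hl, h, mul_ne_zero (mul_ne_zero hq.ne_zero (NeZero.ne M)) two_ne_zero⟩)
      have hlL := hgood l hl hlg
      refine ⟨⟨l, hl⟩, hlg, hl1, ?_⟩
      have hone : ∀ m, m ∣ (P i).q * M → (l : ZMod m) = 1 := fun m hm => by
        have hd : m ∣ (P i).q ^ 2 * M := hm.trans ⟨(P i).q, by ring⟩
        have := congrArg (ZMod.castHom hd (ZMod m)) hl1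
        rwa [map_natCast, map_one] at this
      have htarget : target l = lam l := by
        show MulChar.ofUnitHom _ (l : ZMod (P i).q) * (_ * lam l) = _
        rw [FermatLib.Modular.Twist.ofUnitHom_natCast_of_eq_one (hone _ (dvd_mul_right _ _)),
          charVal_auxProd S ψ (hl.coprime_iff_not_dvd.2 fun h => hlL (h.mul_left 2)),
          Finset.prod_eq_one fun j _ => FermatLib.Modular.Twist.ofUnitHom_natCast_of_eq_one
            (hone _ ((dvd_auxLevel S P j).trans hLM)) _, one_mul, one_mul]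
      have hlam : j₂ (lam₂ ⟨l, hl⟩) = lam l := (hlam₂ ⟨l, hl⟩ hlg).trans htarget
      obtain ⟨a, ha, hnu⟩ := hres l hl hlL
      let g : O₂ →+* integralClosure O K := j₂.codRestrict (integralClosure O K).toSubring fun b => by
        obtain ⟨p, hp, hpb⟩ := hrint b
        refine ⟨p, hp, ?_⟩
        rw [← hr, ← Polynomial.hom_eval₂, hpb, map_zero]
      have hcongr : lam₂ ⟨l, hl⟩ - r (S.ap l : O) ∈ IsLocalRing.maximalIdeal O₂ := fun hu => by
        refine hnu ?_
        convert hu.map g using 1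
        refine Subtype.ext ?_
        show (a : K) - ((S.ap l : integralClosure O K) : K) = j₂ (lam₂ ⟨l, hl⟩ - r (S.ap l : O))
        rw [map_sub, hlam, ha, ← RingHom.comp_apply j₂ r, hr, map_intCast]
        simp
      rw [← IsLocalRing.residue_eq_zero_iff, map_sub, sub_eq_zero, map_intCast, map_intCast] at hcongr
      rw [hcongr]
      obtain ⟨c, hc⟩ : Odd (S.ap l) := by
        rcases Int.even_or_odd (S.ap l) with ⟨c, hc⟩ | h
        · rw [hc, ← two_mul, Int.cast_mul, Int.cast_ofNat, map_mul, map_ofNat,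
            S.anchor.two_eq_zero, zero_mul] at hap
          exact absurd hap zero_ne_one
        · exact h
      obtain ⟨d, hd⟩ := hl.odd_of_ne_two fun h => hlL (by rw [h]; exact dvd_mul_right 2 _)
      rw [hc]
      simp only [hd, Int.cast_add, Int.cast_mul, Int.cast_one, Int.cast_ofNat, Nat.cast_add,
        Nat.cast_mul, Nat.cast_ofNat, Nat.cast_one, h2res, zero_mul, zero_add]
      rw [one_add_one_eq_two, h2res]
      exact one_ne_zero
    · have h4 : S.anchor.N % 4 = 3 := by have := S.anchor.level_mod; omega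
      obtain ⟨r', hr', hrN, hr4⟩ := exists_prime_dvd_three_mod_four h4
      exact Or.inr ⟨r', hr', (hrN.trans hNM).mul_left _, hr4⟩
    · rw [← IsLocalRing.notMem_maximalIdeal]
      intro h3
      refine (IsLocalRing.maximalIdeal O₂).ne_top_iff_one.mp
        (IsLocalRing.maximalIdeal.isMaximal O₂).ne_top ?_
      have := Ideal.sub_mem _ h3 h2
      norm_num at this
  have h := LGC.charpoly_inertia hj₂ hq2 hsys (P i).hA hτ
    fun ζ hζ => FermatLib.Galois.apply_eq_pow_modCycloChar (P i).q τ hζ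
  rw [charpoly_twistAdic] at h
  set u := FermatLib.Galois.modCycloChar (P i).q τ with hu
  have hexp : ∀ c : O₂, (X - 1) * (X - C c) = X ^ 2 - C (1 + c) * X + C c := fun c => by
    rw [map_add, map_one]; ring
  rw [hexp] at h
  obtain ⟨ht, hd⟩ := eq_of_quadratic_eq h
  have hc : (φ τ : O₂) ^ 2 = χ₂ u := by
    rw [← Units.val_pow_eq_pow_val]
    exact congrArg Units.val (inv_pow (ψ₂ u) 2)
  rw [← hc] at ht hd
  have hψu : j₂ ((φ τ : O₂ˣ) : O₂) = (((ψ i u)⁻¹ : Kˣ) : K) := hinv u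
  have ht' := congrArg j₂ ht
  rw [map_mul, map_add, map_pow, map_one, (hdet₁ τ).2, ← RingHom.comp_apply j₂ e, hje, hψu] at ht'
  have hd' := congrArg j₂ hd
  rw [map_mul, map_pow, (hdet₁ τ).1, ← RingHom.comp_apply j₂ e, hje, hψu,
    mul_eq_left₀ (pow_ne_zero 2 (Units.ne_zero _))] at hd'
  have htr : j' (ρ₀.trace τ) = (ψ i u : K) + (((ψ i u)⁻¹ : Kˣ) : K) := by
    apply mul_left_cancel₀ (Units.ne_zero (ψ i u)⁻¹)
    rw [ht', mul_add, Units.inv_mul, pow_two]
  rw [hcp₀, hd', htr, map_add, map_one]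
  have hmul : C (ψ i u : K) * C (((ψ i u)⁻¹ : Kˣ) : K) = 1 := by
    rw [← map_mul, Units.mul_inv, map_one]
  linear_combination -hmul

end FermatLib.MLT.Two

end
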