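import Fermat.Agent.Galois.NewformRepRoot
import Fermat.Agent.Igusa.SqFrobSheets
import Fermat.Agent.Igusa.MonoModularDatum

/-!
# The geometric input for new systems at an auxiliary prime
-/

set_option autoImplicit false
set_option linter.style.haveILetI false

noncomputable section

namespace FermatLib.MLT.Two

/-- The square of Frobenius on the new part of `J₀(q M)` (input of S35). -/
theorem sysSqFrobeniusOnNewPart : FermatLib.Galois.SqFrobeniusOnNewPart :=
  FermatLib.Igusa.Mono.sqFrobeniusOnNewPart_of_sheets fun _ _ _ _ _ hqM _ hA =>
    FermatLib.Igusa.Mono.exists_monoDatum_sheets' hqM hA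

end FermatLib.MLT.Two

end
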