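import Fermat.Agent.Modular.TwistSystemCusp
import Fermat.Agent.Modular.PeterssonHecke
import Fermat.Agent.Modular.HeckeFinite
import Mathlib.FieldTheory.Minpoly.IsIntegrallyClosed
import Mathlib.FieldTheory.Separable

/-!
# V4-Sys: semisimplicity of good Hecke operators, trivial character

A good operator `T l` on `S₂(Γ₀(N))` is killed by a separable integral polynomial, hence so is it
on cuspidal homomorphisms.  A generalised eigenclass which is not Eisenstein at one prime
`≡ 1 (mod N)` is cuspidal.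
-/

set_option autoImplicit false

noncomputable section

open scoped MatrixGroups
open CongruenceSubgroup ModularCurve ModularCurve.Period Polynomial

namespace FermatLib.MLT.Two.Semisimple

open FermatLib.Modular FermatLib.Modular.Twist FermatLib.MLT

variable {N : ℕ} [NeZero N]

/-- A good Hecke operator is killed by a separable integral polynomial. -/
theorem exists_separable_annihilator (ℓ : Nat.Primes) (hN : ¬ (ℓ : ℕ) ∣ N) :
    ∃ R : ℤ[X], (R.map (Int.castRingHom ℚ)).Separable ∧
      Polynomial.aeval (CuspForm.heckeAlgebra.T (k := 2) ℓ.2 hN (Set.notMem_empty (ℓ : ℕ))) R =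
        0 := by
  classical
  set t := CuspForm.heckeAlgebra.T (k := 2) ℓ.2 hN (Set.notMem_empty (ℓ : ℕ))
  have : Module.Finite ℤ (CuspForm.heckeAlgebra N 2 (∅ : Set ℕ)) :=
    Modular.heckeAlgebra_moduleFinite N 2 ∅
  obtain ⟨p, hpm, hp⟩ := Algebra.IsIntegral.isIntegral (R := ℤ) t
  set T : Module.End ℂ (CuspForm (Gamma0 N) 2) := CuspForm.heckeTLin 2 ℓ.2 hN with hT
  have hint : ∀ (c : ℂ), ((p.map (Int.castRingHom ℂ))).IsRoot c → IsIntegral ℤ c := fun c hc =>
    ⟨p, hpm, by simpa [Polynomial.eval_map] using hc⟩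
  let s : Finset ℤ[X] := ((p.map (Int.castRingHom ℂ)).roots.toFinset).image (minpoly ℤ)
  have hs : ∀ q ∈ s, q.Monic ∧ Irreducible (q.map (Int.castRingHom ℚ)) := by
    intro q hq
    obtain ⟨c, hc, rfl⟩ := Finset.mem_image.mp hq
    have hi := hint c (Polynomial.mem_roots'.mp (Multiset.mem_toFinset.mp hc)).2
    refine ⟨minpoly.monic hi, ?_⟩
    have := minpoly.isIntegrallyClosed_eq_field_fractions' ℚ hi
    rw [algebraMap_int_eq] at this
    exact this ▸ minpoly.irreducible hi.tower_top
  refine ⟨∏ q ∈ s, q, ?_, ?_⟩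
  · rw [Polynomial.map_prod]
    refine Polynomial.separable_prod' (fun a ha b hb hab => ?_)
      fun a ha => (hs a ha).2.separable
    refine ((hs a ha).2.coprime_iff_not_dvd).mpr fun h => hab ?_
    refine Polynomial.map_injective (Int.castRingHom ℚ) Int.cast_injective ?_
    exact Polynomial.eq_of_monic_of_associated ((hs a ha).1.map _) ((hs b hb).1.map _)
      ((hs a ha).2.associated_of_dvd (hs b hb).2 h)
  · refine Subtype.ext ?_
    have hval : ∀ P : ℤ[X], ((Polynomial.aeval t P : CuspForm.heckeAlgebra N 2 (∅ : Set ℕ)) :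
        Module.End ℂ (CuspForm (Gamma0 N) 2)) =
        Polynomial.aeval T (P.map (Int.castRingHom ℂ)) := fun P => by
      rw [← algebraMap_int_eq, Polynomial.aeval_map_algebraMap, hT,
        ← CuspForm.heckeAlgebra.coe_T ℓ.2 hN (Set.notMem_empty (ℓ : ℕ))]
      exact (Polynomial.aeval_algHom_apply (CuspForm.heckeAlgebra N 2 (∅ : Set ℕ)).val t P).symm
    rw [hval, ZeroMemClass.coe_zero]
    refine LinearMap.ker_eq_top.mp (top_le_iff.mp ?_)
    rw [← iSup_eigenspace_heckeTLin ℓ.2 hN]
    refine iSup_le fun c => fun v hv => LinearMap.mem_ker.mpr ?_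
    rcases eq_or_ne v 0 with rfl | hv0
    · exact map_zero _
    have hev : Module.End.HasEigenvector T c v := ⟨hv, hv0⟩
    have hpc : (p.map (Int.castRingHom ℂ)).IsRoot c := by
      have h1 := hval p
      rw [Polynomial.aeval_def, hp, ZeroMemClass.coe_zero] at h1
      have h2 := Module.End.aeval_apply_of_hasEigenvector (p := p.map (Int.castRingHom ℂ)) hev
      rw [← h1, LinearMap.zero_apply] at h2
      exact (smul_eq_zero.mp h2.symm).resolve_right hv0
    rw [Module.End.aeval_apply_of_hasEigenvector hev]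
    refine smul_eq_zero_of_left ?_ v
    rw [Polynomial.map_prod, Polynomial.eval_prod]
    refine Finset.prod_eq_zero (i := minpoly ℤ c) (Finset.mem_image_of_mem _
      (Multiset.mem_toFinset.mpr (Polynomial.mem_roots'.mpr
        ⟨(hpm.map _).ne_zero, hpc⟩))) ?_
    rw [Polynomial.eval_map]
    exact minpoly.aeval ℤ c

variable {K : Type} [Field K]

/-- A polynomial without double roots cuts a generalised eigenvector down to an eigenvector. -/
theorem eq_smul_of_separable {V : Type*} [AddCommGroup V] [Module K V] {T : Module.End K V}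
    {P : K[X]} (hP : P.Separable) {μ : K} {m : ℕ} {v : V}
    (hm : ((T - μ • (1 : Module.End K V)) ^ m) v = 0) (hPv : Polynomial.aeval T P v = 0) :
    T v = μ • v := by
  classical
  set A : K[X] := (X - C μ) ^ m
  have hA : Polynomial.aeval T A v = 0 := by
    simpa [A, Algebra.algebraMap_eq_smul_one] using hm
  set g := EuclideanDomain.gcd A P
  have hg : Polynomial.aeval T g v = 0 := by
    rw [show g = A * EuclideanDomain.gcdA A P + P * EuclideanDomain.gcdB A P from
      EuclideanDomain.gcd_eq_gcd_ab A P, mul_comm A, mul_comm P, map_add, map_mul, map_mul,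
      LinearMap.add_apply, Module.End.mul_apply, Module.End.mul_apply, hA, hPv, map_zero, map_zero,
      add_zero]
  obtain ⟨i, -, hi⟩ := (dvd_prime_pow (Polynomial.prime_X_sub_C μ) m).mp
    (EuclideanDomain.gcd_dvd_left A P)
  have hsq : Squarefree ((X - C μ) ^ i) :=
    hP.squarefree.squarefree_of_dvd (hi.dvd'.trans (EuclideanDomain.gcd_dvd_right A P))
  have hi1 : i ≤ 1 := by
    by_contra h
    exact Polynomial.not_isUnit_X_sub_C μ (hsq (X - C μ) (by
      rw [← sq]; exact pow_dvd_pow _ (by omega)))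
  obtain ⟨q, hq⟩ : g ∣ X - C μ := hi.dvd.trans ((pow_dvd_pow _ hi1).trans (by rw [pow_one]))
  have := congrArg (fun r => Polynomial.aeval T r v) hq
  simp only [mul_comm g, map_mul, Module.End.mul_apply, hg, map_zero, map_sub, Polynomial.aeval_X,
    Polynomial.aeval_C, LinearMap.sub_apply, Module.algebraMap_end_apply, sub_eq_zero] at this
  exact this

variable [CharZero K]

/-- A homomorphism vanishing at the conjugates of `T ^ N` is cuspidal. -/
theorem isCuspidalHom_of_apply_conj_T (φ : Additive (Gamma0 N) →+ K)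
    (h : ∀ (g : SL(2, ℤ)) (u : Gamma0 N), (u : SL(2, ℤ)) = g * ModularGroup.T ^ (N : ℤ) * g⁻¹ →
      φ (Additive.ofMul u) = 0) : IsCuspidalHom φ := by
  refine isCuspidalHom_of_isParabolicHom fun γ hγ => ?_
  obtain ⟨g, m, hg⟩ := exists_eq_conj_of_trace_sq_eq_four hγ
  have hmem : g * ModularGroup.T ^ (N : ℤ) * g⁻¹ ∈ Gamma0 N :=
    Gamma0_mem.2 (Gamma_mem.1 ((Gamma_normal N).conj_mem _
      (ModularGroup_T_pow_mem_Gamma N N dvd_rfl) g)).2.2.1
  set u : Gamma0 N := ⟨_, hmem⟩ with hu
  have h0 : φ (Additive.ofMul u) = 0 := h g u rfl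
  have hsq : (γ ^ 2) ^ (N : ℤ) = u ^ (2 * m) := by
    refine Subtype.ext ?_
    have hg2 : (γ : SL(2, ℤ)) ^ 2 = g * ModularGroup.T ^ (2 * m) * g⁻¹ := by
      rw [two_mul, zpow_add, pow_two]
      rcases hg with h | h <;> rw [h]
      · group
      · rw [neg_mul_neg]
        group
    rw [SubgroupClass.coe_zpow, SubgroupClass.coe_zpow, SubmonoidClass.coe_pow, hg2]
    show _ = (g * ModularGroup.T ^ (N : ℤ) * g⁻¹) ^ (2 * m)
    rw [conj_zpow, conj_zpow, ← zpow_mul, ← zpow_mul, mul_comm]
  have h3 := congrArg (fun z => φ (Additive.ofMul z)) hsq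
  simp only [ofMul_zpow, ofMul_pow, map_zsmul, map_nsmul, h0, smul_zero] at h3
  simpa [NeZero.ne N] using h3

omit [NeZero N] [CharZero K] in
/-- Classes with trivial character as homomorphisms. -/
theorem exists_homMap :
    ∃ Φ : bettiH1 (Gamma0 N) (nebenChar (1 : (ZMod N)ˣ →* Kˣ)) K →ₗ[K]
        (Additive (Gamma0 N) →+ K),
      Function.Injective Φ ∧ ∀ p x, Φ (bettiHeckeOp N K 1 p x) = heckeHomOp N K K p (Φ x) := by
  let F : bettiCocycles (Gamma0 N) (nebenChar (1 : (ZMod N)ˣ →* Kˣ)) K →ₗ[K]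
      (Additive (Gamma0 N) →+ K) :=
    { toFun := cocycleHom
      map_add' := fun a b => AddMonoidHom.ext fun γ => rfl
      map_smul' := fun a b => AddMonoidHom.ext fun γ => rfl }
  have hker : ∀ c, c ∈ bettiBoundaries (Gamma0 N) (nebenChar (1 : (ZMod N)ˣ →* Kˣ)) K ↔
      F c = 0 := by
    intro c
    constructor
    · intro hc
      obtain ⟨v, hv⟩ := mem_bettiBoundaries.1 hc
      refine AddMonoidHom.ext fun γ => ?_
      have := hv (Additive.toMul γ)
      rw [nebenChar_one_apply, one_smul, sub_self] at this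
      first
        | exact this
        | exact this.symm
    · intro hc
      refine mem_bettiBoundaries.2 ⟨0, fun γ => ?_⟩
      rw [smul_zero, sub_zero]
      exact (DFunLike.congr_fun hc (Additive.ofMul γ)).symm
  refine ⟨Submodule.liftQ _ F fun c hc => (hker c).1 hc, ?_, fun p x => ?_⟩
  · refine (injective_iff_map_eq_zero _).2 fun x hx => ?_
    obtain ⟨c, rfl⟩ := Submodule.Quotient.mk_surjective _ x
    exact (Submodule.Quotient.mk_eq_zero _).2 ((hker c).2 hx)
  · obtain ⟨c, rfl⟩ := Submodule.Quotient.mk_surjective _ x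
    rw [bettiHeckeOp, CosetSystem.transfer_mk]
    exact (heckeHomOp_cocycleHom c p).symm

/-- **Semisimplicity, trivial character.** -/
theorem bettiHeckeOp_eq_smul_trivial
    {x : bettiH1 (Gamma0 N) (nebenChar (1 : (ZMod N)ˣ →* Kˣ)) K}
    {l₀ : Nat.Primes} (hl₀ : ((l₀ : ℕ) : ZMod N) = 1) {ν : K} (hν : ν ≠ (l₀ : ℕ) + 1) {m₀ : ℕ}
    (hx₀ : ((bettiHeckeOp N K (1 : (ZMod N)ˣ →* Kˣ) l₀ - ν • (1 : Module.End K
      (bettiH1 (Gamma0 N) (nebenChar (1 : (ZMod N)ˣ →* Kˣ)) K))) ^ m₀) x = 0)
    {l : Nat.Primes} (hl : ¬ (l : ℕ) ∣ N) {μ : K} {m : ℕ}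
    (hx : ((bettiHeckeOp N K (1 : (ZMod N)ˣ →* Kˣ) l - μ • (1 : Module.End K
      (bettiH1 (Gamma0 N) (nebenChar (1 : (ZMod N)ˣ →* Kˣ)) K))) ^ m) x = 0) :
    bettiHeckeOp N K (1 : (ZMod N)ˣ →* Kˣ) l x = μ • x := by
  obtain ⟨Φ, hΦ, hΦT⟩ := exists_homMap (N := N) (K := K)
  have hpow : ∀ (p : Nat.Primes) (a : K) (j : ℕ) y,
      Φ (((bettiHeckeOp N K (1 : (ZMod N)ˣ →* Kˣ) p - a • (1 : Module.End K
          (bettiH1 (Gamma0 N) (nebenChar (1 : (ZMod N)ˣ →* Kˣ)) K))) ^ j) y) =
        ((heckeHomOp N K K p - a • (1 : Module.End K (Additive (Gamma0 N) →+ K))) ^ j) (Φ y) := by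
    intro p a j
    induction j with
    | zero => intro y; simp
    | succ j ih =>
      intro y
      rw [pow_succ, pow_succ, Module.End.mul_apply, Module.End.mul_apply, ih]
      simp [hΦT]
  set φ := Φ x with hφ
  have hcusp : IsCuspidalHom φ := by
    refine isCuspidalHom_of_apply_conj_T φ fun g u hu => ?_
    have hev : ∀ (j : ℕ) (ψ : Additive (Gamma0 N) →+ K),
        ((heckeHomOp N K K l₀ - ν • (1 : Module.End K (Additive (Gamma0 N) →+ K))) ^ j) ψ
        (Additive.ofMul u) = (((l₀ : ℕ) : K) + 1 - ν) ^ j * ψ (Additive.ofMul u) := by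
      intro j
      induction j with
      | zero => intro ψ; simp
      | succ j ih =>
        intro ψ
        have h1 := heckeHomOp_apply_conj_T (R := K) l₀ hl₀ g u hu ψ
        rw [pow_succ, Module.End.mul_apply, ih, LinearMap.sub_apply, LinearMap.smul_apply,
          Module.End.one_apply, AddMonoidHom.sub_apply, h1, AddMonoidHom.coe_smul, Pi.smul_apply,
          nsmul_eq_mul, smul_eq_mul]
        push_cast
        ring
    have h2 := hev m₀ φ
    rw [hφ, ← hpow, hx₀, map_zero, AddMonoidHom.zero_apply, eq_comm, mul_eq_zero] at h2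
    exact h2.resolve_left (pow_ne_zero _ (sub_ne_zero.mpr hν.symm))
  obtain ⟨R, hsep, hR⟩ := exists_separable_annihilator l hl
  let P : HeckeAlg := Polynomial.aeval (MvPolynomial.X l) R
  have hP : CuspForm.heckeEvalForms N 2 P = 0 := by
    rw [← hR]
    refine (Polynomial.aeval_algHom_apply (CuspForm.heckeEvalForms N 2).toIntAlgHom _ R).symm.trans
      ?_
    congr 2
    exact CuspForm.heckeEvalForms_heckeGen_of_not_dvd hl
  have hzero : Polynomial.aeval (heckeHomOp N K K l) (R.map (Int.castRingHom K)) φ = 0 := by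
    rw [← algebraMap_int_eq, Polynomial.aeval_map_algebraMap, ← heckeHomEval_heckeGen]
    have := heckeHomEval_eq_zero (R := K) hP hcusp
    rwa [show heckeHomEval N K K P = Polynomial.aeval (heckeHomEval N K K (heckeGen l)) R from
      (Polynomial.aeval_algHom_apply (heckeHomEval N K K).toIntAlgHom _ R).symm] at this
  have hsepK : (R.map (Int.castRingHom K)).Separable := by
    have := hsep.map (f := algebraMap ℚ K)
    rwa [Polynomial.map_map, RingHom.ext_int ((algebraMap ℚ K).comp (Int.castRingHom ℚ))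
      (Int.castRingHom K)] at this
  refine hΦ ?_
  rw [hΦT, map_smul]
  refine eq_smul_of_separable (m := m) hsepK ?_ hzero
  rw [← hpow, hx, map_zero]

end FermatLib.MLT.Two.Semisimple

end
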