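import Fermat.Agent.MLT.Two.Sys.KillsStep
import Fermat.Agent.MLT.Two.Sys.KillsInputs
import Fermat.Agent.MLT.Two.Sys.Inputs
import Fermat.Agent.MLT.Two.Sys.SemisimpleTrivial
import Fermat.Agent.MLT.Two.Sys.NonEisenstein
import Fermat.Agent.Galois.Deform.Mat
import Fermat.Agent.Modular.Newforms.Eigenforms
import Fermat.Agent.Basic.FrobeniusExists

/-!
# V4-Sys: the factors killing untwisted systems

An untwisted system at level `N ∏ q` either factors through level `N`, where the level polynomial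
vanishes, or is new at some auxiliary prime, where `(trace Frob_q)² = (q + 1)²`.
-/

set_option autoImplicit false

noncomputable section

open ModularCurve Polynomial CongruenceSubgroup ModularFormClass

namespace FermatLib.MLT.Two.Kills

open FermatLib.Galois

local notation "Qbar" => AlgebraicClosure ℚ
local notation "Γℚ" => (AlgebraicClosure ℚ ≃ₐ[ℚ] AlgebraicClosure ℚ)

/-- A Hecke polynomial vanishing at every eigenform of level `N` is nilpotent there. -/
theorem isNilpotent_awayHeckeEval (N : ℕ) [NeZero N] (S : Set ℕ) (pol : MvPolynomial ℕ ℤ)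
    (hS : ∀ r : ℕ, r.Prime → r ∣ N → r ∈ S)
    (hvars : ∀ ℓ ∈ pol.vars, ℓ.Prime ∧ ℓ ∉ S)
    (hkills : ∀ f : CuspForm (Gamma0 N) 2, f.IsNormalizedEigenform →
      MvPolynomial.aeval (fun ℓ => qCoeff f ℓ) pol = 0) :
    IsNilpotent (awayHeckeEval N S (MvPolynomial.aeval (awayHeckeGen S) pol)) := by
  classical
  rw [nilpotent_iff_mem_prime]
  intro P hP
  by_contra hx
  have := FermatLib.Modular.Newforms.finiteDimensional_cuspForm_Gamma0 N 2
  let val : CuspForm.heckeAlgebra N 2 S →+* Module.End ℂ (CuspForm (Gamma0 N) 2) :=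
    (CuspForm.heckeAlgebra N 2 S).val.toRingHom
  have hinj : Function.Injective val := Subtype.val_injective
  obtain ⟨v, χ, hv, heig, hker⟩ := FermatLib.Basic.exists_eigenchar_ker_le (K := ℂ) val P
    ((RingHom.injective_iff_ker_eq_bot _).mp hinj ▸ bot_le)
  let c : ℕ → ℂ := fun ℓ => χ (awayHeckeEval N S (awayHeckeGen S ℓ))
  obtain ⟨g, hg, hgl⟩ := FermatLib.Modular.Newforms.exists_normalizedEigenform_of_eigenvector S c v
    hv fun ℓ hℓ hℓN hℓS => (heig (CuspForm.heckeAlgebra.T hℓ hℓN hℓS)).trans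
      (congrArg (fun z => χ z • v) (awayHeckeEval_awayHeckeGen N hℓ hℓN hℓS).symm)
  have h0 := hkills g hg
  refine hx (hker (RingHom.mem_ker.mpr (Eq.trans ?_ h0)))
  refine MvPolynomial.hom_congr_vars
    (f₁ := (χ.comp (awayHeckeEval N S)).comp (MvPolynomial.aeval (awayHeckeGen S)).toRingHom)
    (f₂ := (MvPolynomial.aeval fun ℓ => qCoeff g ℓ).toRingHom) (RingHom.ext_int _ _)
    (fun ℓ hℓ _ => ?_) rfl
  show χ (awayHeckeEval N S (MvPolynomial.aeval (awayHeckeGen S) (MvPolynomial.X ℓ))) =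
    MvPolynomial.aeval (fun ℓ => qCoeff g ℓ) (MvPolynomial.X ℓ)
  rw [MvPolynomial.aeval_X, MvPolynomial.aeval_X]
  exact (hgl ℓ (hvars ℓ hℓ).1 (fun h => (hvars ℓ hℓ).2 (hS ℓ (hvars ℓ hℓ).1 h)) (hvars ℓ hℓ).2).symm

variable {O : Type} [CommRing O] {k : Type} [Field k] (S : System O k)
  {ι : Type} [Fintype ι] {n : ℕ} {P : ι → AuxPlace}
  {K : Type} [Field K] [CharZero K]
  {A : Type} [CommRing A] [IsDomain A] [IsLocalRing A] [IsNoetherianRing A]
  {j : A →+* K} {redA : A →+* k} {lam : ℕ → K}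
  {ρ : Γℚ →* Matrix (Fin 2) (Fin 2) A}

omit [IsDomain A] [IsNoetherianRing A] [CharZero K] in
theorem two_mem_maximalIdeal (redA : A →+* k) (h2 : (2 : k) = 0) :
    (2 : A) ∈ IsLocalRing.maximalIdeal A :=
  fun h => (h.map redA).ne_zero (by rw [map_ofNat, h2])

omit [IsDomain A] [IsNoetherianRing A] [CharZero K] in
theorem matCont_of_pointRep (h2 : (2 : A) ∈ IsLocalRing.maximalIdeal A)
    {χ μ : (ZMod (auxLevel S P))ˣ →* Kˣ} (hρ : IsPointRep S P j redA χ μ lam ρ) :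
    Deform.MatCont ρ := by
  intro m
  obtain ⟨L, hL, h⟩ := hρ.finiteLevel m
  refine ⟨L, hL, fun σ hσ a b => ?_⟩
  have h1 := congrFun (congrFun (h σ hσ) a) b
  have hmem : (ρ σ - 1) a b ∈ Ideal.span {(2 : A) ^ m} := by
    rw [← Ideal.Quotient.eq_zero_iff_mem, Matrix.sub_apply, map_sub, sub_eq_zero]
    refine h1.trans ?_
    simp [Matrix.one_apply, apply_ite (Ideal.Quotient.mk (Ideal.span {(2 : A) ^ m}))]
  exact (Ideal.span_singleton_le_iff_mem _).mpr (Ideal.pow_mem_pow h2 m) hmem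

/-- The kills, for any coefficient domain. -/
theorem aeval_eq_zero_or_trace_sq_aux (hgeom : SqFrobeniusOnNewPart)
    (h37 : ∀ M : ℕ, [NeZero M] → Attach.SpecializationInput M 2) (hP : IsDepth S n P)
    {B : ℕ} {pol : MvPolynomial ℕ ℤ} (hpol : IsLevelPolynomial S B pol) (hB : ∀ i, B < (P i).q)
    (hj : Function.Injective j) (hρ : IsPointRep S P j redA 1 1 lam ρ)
    (hne : goodEigen (auxLevel S P) (1 : (ZMod (auxLevel S P))ˣ →* Kˣ) lam ≠ ⊥) :
    MvPolynomial.aeval lam pol = 0 ∨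
      ∃ i, j (ρ (P i).F).trace ^ 2 = (((P i).q + 1 : ℕ) : K) ^ 2 := by
  classical
  set L := auxLevel S P with hL
  let Sbad : Finset ℕ := (2 * L).primeFactors
  have hbad : ∀ r : ℕ, r.Prime → (r ∈ Sbad ↔ r ∣ 2 * L) := fun r hr => by
    simp [Sbad, Nat.mem_primeFactors, hr, NeZero.ne L]
  have h2A : (2 : A) ∈ IsLocalRing.maximalIdeal A :=
    two_mem_maximalIdeal redA S.anchor.two_eq_zero
  let R : GaloisRepAdic A := Deform.toAdic ρ (matCont_of_pointRep S h2A hρ)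
  -- eigenvalues in `A`
  have hFrob : ∀ l : Nat.Primes, ∃ a : A, ¬ (l : ℕ) ∣ 2 * L → j a = lam l ∧
      ∀ B' : ValuationSubring Qbar, B'.LiesOverPrime l → ∀ F : Γℚ, B'.IsFrobeniusAt F l →
        (ρ F).trace = a ∧ (ρ F).det = ((l : ℕ) : A) := by
    intro l
    by_cases hl : (l : ℕ) ∣ 2 * L
    · exact ⟨0, fun h => absurd hl h⟩
    obtain ⟨B', hB'⟩ := FermatLib.Basic.exists_liesOverPrime l.2
    obtain ⟨F, hF⟩ := FermatLib.Basic.exists_isFrobeniusAt l.2 B' hB'
    have hone : charVal (1 : (ZMod L)ˣ →* Kˣ) l = 1 := by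
      rw [charVal, dif_pos (l.2.coprime_iff_not_dvd.mpr fun h => hl (h.mul_left 2))]
      rfl
    have key : ∀ B'' : ValuationSubring Qbar, B''.LiesOverPrime l → ∀ F' : Γℚ,
        B''.IsFrobeniusAt F' l → j (ρ F').trace = lam l ∧ (ρ F').det = ((l : ℕ) : A) := by
      intro B'' hB'' F' hF'
      obtain ⟨h1, h2⟩ := hρ.frobenius l l.2 hl B'' hB'' F' hF'
      rw [hone, one_mul] at h1
      rw [hone, one_pow, one_mul, one_mul, ← map_natCast j] at h2
      exact ⟨h1, hj h2⟩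
    exact ⟨(ρ F).trace, fun _ => ⟨(key B' hB' F hF).1, fun B'' hB'' F' hF' =>
      ⟨hj ((key B'' hB'' F' hF').1.trans (key B' hB' F hF).1.symm), (key B'' hB'' F' hF').2⟩⟩⟩
  choose a ha using hFrob
  let π : awayHeckeAlg (Sbad : Set ℕ) →+* A :=
    (MvPolynomial.aeval a).toRingHom.comp (awayHeckeAlg (Sbad : Set ℕ)).val.toRingHom
  have hgen : ∀ (ℓ : ℕ) (hℓ : ℓ.Prime), ℓ ∉ Sbad →
      π (awayHeckeGen (Sbad : Set ℕ) ℓ) = a ⟨ℓ, hℓ⟩ := fun ℓ hℓ hℓS => by
    show MvPolynomial.aeval a (awayHeckeGen (Sbad : Set ℕ) ℓ : HeckeAlg) = _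
    rw [coe_awayHeckeGen hℓ (fun h => hℓS (Finset.mem_coe.mp h))]
    exact MvPolynomial.aeval_X _ _
  have hchar : ∀ ℓ : ℕ, ℓ.Prime → ℓ ∉ Sbad → ∀ B' : ValuationSubring Qbar, B'.LiesOverPrime ℓ →
      ∀ τ : Γℚ, B'.IsFrobeniusAt τ ℓ → LinearMap.charpoly (R.ρ τ) =
        X ^ 2 - C (π (awayHeckeGen (Sbad : Set ℕ) ℓ)) * X + C ((ℓ : A)) := by
    intro ℓ hℓ hℓS B' hB' τ hτ
    obtain ⟨htr, hdet⟩ :=
      (ha ⟨ℓ, hℓ⟩ (fun h => hℓS ((hbad ℓ hℓ).mpr h))).2 B' hB' τ hτ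
    rw [← LinearMap.charpoly_toMatrix (R.ρ τ) (Deform.stdBasis ρ _), Deform.toMatrix_toAdic,
      Matrix.charpoly_fin_two, htr, hdet, hgen ℓ hℓ hℓS]
  -- the eigenclass is cuspidal
  obtain ⟨x, hx, hx0⟩ := Submodule.exists_mem_ne_zero_of_ne_bot hne
  obtain ⟨Φ, hΦ, hΦT⟩ := Semisimple.exists_homMap (N := L) (K := K)
  have hφ : ∀ l : Nat.Primes, ¬ (l : ℕ) ∣ 2 * L →
      Modular.heckeHomOp L K K l (Φ x) = lam l • Φ x := fun l hl => by
    rw [← hΦT, mem_goodEigen.mp hx l hl, map_smul]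
  have hφ0 : Φ x ≠ 0 := fun h => hx0 (hΦ (h.trans (map_zero _).symm))
  obtain ⟨l₀, hl₀E, hl₀1, hap⟩ := exists_prime_red_ap_ne_zero S L Sbad
  have hl₀ : ¬ (l₀ : ℕ) ∣ 2 * L := fun h => hl₀E ((hbad _ l₀.2).mpr h)
  have hne₀ : lam l₀ ≠ ((l₀ : ℕ) : K) + 1 := by
    intro heq
    obtain ⟨B', hB'⟩ := FermatLib.Basic.exists_liesOverPrime l₀.2
    obtain ⟨F, hF⟩ := FermatLib.Basic.exists_isFrobeniusAt l₀.2 B' hB'
    obtain ⟨hja, hF'⟩ := ha l₀ hl₀
    have htr : (ρ F).trace = (((l₀ : ℕ) + 1 : ℕ) : A) := hj (by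
      rw [(hF' B' hB' F hF).1, hja, heq, map_natCast, Nat.cast_add, Nat.cast_one])
    have hl2 : (l₀ : ℕ) ≠ 2 := fun h => hl₀ (h ▸ dvd_mul_right 2 L)
    have hlN : ¬ (l₀ : ℕ) ∣ S.anchor.N := fun h =>
      hl₀ ((h.trans (level_dvd_auxLevel S P)).mul_left 2)
    refine hap ?_
    have e := congrArg Matrix.trace ((hρ.map_eq F).trans (S.map_eq F).symm)
    rw [← (S.frobenius l₀ l₀.2 hl2 hlN B' hB' F hF).1]
    have e1 : ∀ {R' : Type} [CommRing R'] (f : R' →+* k) (Mx : Matrix (Fin 2) (Fin 2) R'),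
        (Mx.map f).trace = f Mx.trace := fun f Mx => by simp [Matrix.trace]
    rw [e1, e1, htr, map_natCast] at e
    rw [← e]
    obtain ⟨d, hd⟩ := l₀.2.odd_of_ne_two hl2
    rw [show (l₀ : ℕ) + 1 = 2 * (d + 1) by omega, Nat.cast_mul, Nat.cast_two,
      S.anchor.two_eq_zero, zero_mul]
  have hcusp : Modular.IsCuspidalHom (Φ x) :=
    Modular.Twist.isCuspidalHom_of_eigen (Φ x) l₀ hl₀1 hne₀ (hφ l₀ hl₀)
  have hev : ∀ u : awayHeckeAlg (Sbad : Set ℕ),
      Modular.heckeHomEval L K K (u : HeckeAlg) (Φ x) = j (π u) • Φ x := by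
    rintro ⟨u, hu⟩
    induction hu using Algebra.adjoin_induction with
    | mem u hu =>
      obtain ⟨l, hl, rfl⟩ := hu
      have hl' : ¬ (l : ℕ) ∣ 2 * L := fun h => hl (Finset.mem_coe.mpr ((hbad _ l.2).mpr h))
      show Modular.heckeHomEval L K K (heckeGen l) (Φ x) =
        j (MvPolynomial.aeval a (heckeGen l)) • Φ x
      rw [Modular.heckeHomEval_heckeGen, hφ l hl',
        show MvPolynomial.aeval a (heckeGen l) = a l from MvPolynomial.aeval_X _ _, (ha l hl').1]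
    | algebraMap r =>
      show Modular.heckeHomEval L K K (MvPolynomial.C r) (Φ x) = j (π (algebraMap ℤ _ r)) • Φ x
      rw [Modular.heckeHomEval_C_apply, eq_intCast, map_intCast, map_intCast,
        Int.cast_smul_eq_zsmul]
    | add u v hu hv ihu ihv =>
      show Modular.heckeHomEval L K K (u + v) (Φ x) = j (π (⟨u, hu⟩ + ⟨v, hv⟩)) • Φ x
      rw [map_add, map_add, map_add, LinearMap.add_apply, ihu, ihv, add_smul]
    | mul u v hu hv ihu ihv =>
      show Modular.heckeHomEval L K K (u * v) (Φ x) = j (π (⟨u, hu⟩ * ⟨v, hv⟩)) • Φ x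
      rw [map_mul, map_mul, map_mul, Module.End.mul_apply, ihv, map_smul, ihu, smul_smul,
        mul_comm]
  have hroot : ∀ u : awayHeckeAlg (Sbad : Set ℕ),
      formsHeckeEval L (u : HeckeAlg) = 0 → π u = 0 := fun u hu => by
    have h := hev u
    rw [Modular.heckeHomEval_eq_zero (by
      rw [← RingHom.congr_fun Attach.formsHeckeEval_eq_heckeEvalForms (u : HeckeAlg), hu]) hcusp]
      at h
    exact hj (by rw [map_zero]; exact (smul_eq_zero.mp h.symm).resolve_right hφ0)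
  -- descent through the auxiliary primes
  suffices key : ∀ (J : Finset ι) (M : ℕ) [NeZero M], M = S.anchor.N * ∏ i ∈ J, (P i).q →
      (∀ u : awayHeckeAlg (Sbad : Set ℕ), formsHeckeEval M (u : HeckeAlg) = 0 → π u = 0) →
      MvPolynomial.aeval lam pol = 0 ∨
        ∃ i, j (ρ (P i).F).trace ^ 2 = (((P i).q + 1 : ℕ) : K) ^ 2 from
    key Finset.univ L rfl hroot
  intro J
  induction J using Finset.induction with
  | empty =>
    intro M _ hM hfac
    rw [Finset.prod_empty, mul_one] at hM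
    subst hM
    left
    have hvars : ∀ ℓ ∈ pol.vars, ℓ.Prime ∧ ℓ ∉ (Sbad : Set ℕ) := fun ℓ hℓ => by
      obtain ⟨hp, hN, hle⟩ := hpol.vars_good ℓ hℓ
      refine ⟨hp, fun h => ?_⟩
      rw [Finset.mem_coe, hbad ℓ hp, hL, auxLevel, ← mul_assoc] at h
      rcases hp.dvd_mul.mp h with h | h
      · exact hN h
      · obtain ⟨i, -, hi⟩ := (hp.prime.dvd_finsetProd_iff _).mp h
        exact absurd ((Nat.prime_dvd_prime_iff_eq hp (P i).hq).mp hi ▸ hle) (not_le.mpr (hB i))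
    obtain ⟨m, hm⟩ := isNilpotent_awayHeckeEval S.anchor.N (Sbad : Set ℕ) pol
      (fun r hr h => Finset.mem_coe.mpr ((hbad r hr).mpr
        ((h.trans (level_dvd_auxLevel S P)).mul_left 2))) hvars hpol.kills
    set tp := MvPolynomial.aeval (awayHeckeGen (Sbad : Set ℕ)) pol with htp
    rw [← map_pow] at hm
    have h0 := hfac (tp ^ m) (by rw [← inclusion_awayHeckeEval, hm, map_zero])
    rw [map_pow] at h0
    have h1 : j (π tp) = MvPolynomial.aeval lam pol := by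
      rw [htp]
      refine MvPolynomial.hom_congr_vars
        (f₁ := (j.comp π).comp (MvPolynomial.aeval (awayHeckeGen (Sbad : Set ℕ))).toRingHom)
        (f₂ := (MvPolynomial.aeval lam).toRingHom) (RingHom.ext_int _ _) (fun ℓ hℓ _ => ?_) rfl
      show j (π (MvPolynomial.aeval _ (MvPolynomial.X ℓ))) =
        MvPolynomial.aeval lam (MvPolynomial.X ℓ)
      rw [MvPolynomial.aeval_X, MvPolynomial.aeval_X]
      show j (π (awayHeckeGen (Sbad : Set ℕ) ℓ)) = lam ℓ
      rw [hgen ℓ (hvars ℓ hℓ).1 (fun h => (hvars ℓ hℓ).2 (Finset.mem_coe.mpr h))]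
      exact (ha ⟨ℓ, (hvars ℓ hℓ).1⟩ fun h =>
        (hvars ℓ hℓ).2 (Finset.mem_coe.mpr ((hbad ℓ (hvars ℓ hℓ).1).mpr h))).1
    rw [← h1, eq_zero_of_pow_eq_zero h0, map_zero]
  | insert i J hiJ ih =>
    intro M _ hM hfac
    have hq := (P i).hq
    have : Fact (P i).q.Prime := ⟨hq⟩
    have : NeZero (P i).q := ⟨hq.ne_zero⟩
    set M' := S.anchor.N * ∏ i ∈ J, (P i).q with hM'
    rw [Finset.prod_insert hiJ, mul_left_comm, ← hM'] at hM
    subst hM
    have : NeZero M' := ⟨fun h => NeZero.ne ((P i).q * M') (by rw [h, mul_zero])⟩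
    by_cases hnew : ∃ t : awayHeckeAlg (Sbad : Set ℕ),
        formsHeckeEval M' (t : HeckeAlg) = 0 ∧ π t ≠ 0
    · obtain ⟨t, htM, ht⟩ := hnew
      refine Or.inr ⟨i, ?_⟩
      have hqM' : ¬ (P i).q ∣ M' := by
        intro h
        rcases hq.dvd_mul.mp h with h | h
        · exact hP.prime_to i (h.mul_left 2)
        · obtain ⟨i', hi', hd⟩ := (hq.prime.dvd_finsetProd_iff _).mp h
          exact hiJ (hP.injective ((Nat.prime_dvd_prime_iff_eq hq (P i').hq).mp hd) ▸ hi')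
      have hsub : ∀ r : ℕ, r.Prime → r ∣ (P i).q * M' → r ∈ Sbad := by
        intro r hr h
        refine (hbad r hr).mpr (Dvd.dvd.mul_left ?_ 2)
        rcases hr.dvd_mul.mp h with h | h
        · exact h.trans (dvd_auxLevel S P i)
        · refine h.trans (mul_dvd_mul_left _ ?_)
          exact Finset.prod_dvd_prod_of_subset J Finset.univ _ (Finset.subset_univ J)
      have hq2 : (P i).q ≠ 2 := fun h => hP.prime_to i (by rw [h]; exact dvd_mul_right 2 _)
      have := trace_sq_of_separating hgeom hqM' Nat.prime_two hq2 (h37 _) (O := A)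
        (by rwa [Nat.cast_two]) R ((hbad 2 Nat.prime_two).mpr (dvd_mul_right 2 L)) hsub π hfac
        hchar t htM ht (P i).hA (P i).hF
      rw [LinearMap.trace_eq_matrix_trace A (Deform.stdBasis ρ _), Deform.toMatrix_toAdic] at this
      rw [← map_pow, this, map_pow, map_natCast]
    · push Not at hnew
      exact ih M' rfl hnew

end FermatLib.MLT.Two.Kills

end
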