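import Fermat.Agent.Galois.NewformRepRoot
import Fermat.Agent.Galois.MazurP.DegeneracyHecke
import Fermat.Agent.Galois.AttachKummer
import Fermat.Agent.Modular.KummerHecke

/-!
# V4-Sys: new at a prime gives the eigenvalue `± q`

For a point of the Hecke algebra of level `q M`, given by polynomials away from a set `S`, and a
polynomial zero on forms of level `M` but not at the point, Frobenius at `q` has an eigenvalue
`± q`, so the square of its trace is `(q + 1)²`.
-/

set_option autoImplicit false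

noncomputable section

open ModularCurve Polynomial CongruenceSubgroup

namespace FermatLib.MLT.Two

open FermatLib.Galois

local notation "Qbar" => AlgebraicClosure ℚ
local notation "Γℚ" => (AlgebraicClosure ℚ ≃ₐ[ℚ] AlgebraicClosure ℚ)

/-- **New at `q` implies `(trace Frob_q)² = (q + 1)²`.** -/
theorem trace_sq_of_separating (hgeom : SqFrobeniusOnNewPart)
    {q M : ℕ} [Fact q.Prime] [NeZero q] [NeZero M] [NeZero (q * M)] (hqM : ¬ q ∣ M)
    {p : ℕ} (hp : p.Prime) (hqp : q ≠ p) (h37 : Attach.SpecializationInput (q * M) p)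
    {O : Type} [CommRing O] [IsDomain O] [IsLocalRing O] [IsNoetherianRing O]
    (hpO : (p : O) ∈ IsLocalRing.maximalIdeal O) (ρ : GaloisRepAdic O)
    {S : Finset ℕ} (hpS : p ∈ S) (hS : ∀ r : ℕ, r.Prime → r ∣ q * M → r ∈ S)
    (π : awayHeckeAlg (S : Set ℕ) →+* O)
    (hπ : ∀ t : awayHeckeAlg (S : Set ℕ), formsHeckeEval (q * M) (t : HeckeAlg) = 0 → π t = 0)
    (hchar : ∀ ℓ : ℕ, ℓ.Prime → ℓ ∉ S → ∀ B : ValuationSubring Qbar, B.LiesOverPrime ℓ →
      ∀ τ : Γℚ, B.IsFrobeniusAt τ ℓ → LinearMap.charpoly (ρ.ρ τ) =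
        X ^ 2 - C (π (awayHeckeGen (S : Set ℕ) ℓ)) * X + C ((ℓ : O)))
    (t : awayHeckeAlg (S : Set ℕ)) (htM : formsHeckeEval M (t : HeckeAlg) = 0) (ht : π t ≠ 0)
    {A : ValuationSubring Qbar} (hA : A.LiesOverPrime q) {σ : Γℚ} (hσ : A.IsFrobeniusAt σ q) :
    LinearMap.trace O ρ.V (ρ.ρ σ) ^ 2 = ((q + 1 : ℕ) : O) ^ 2 := by
  classical
  have hq : q.Prime := Fact.out
  have hK : ∀ (L : ℕ) [NeZero L], Attach.KummerHeckeIso L p := fun L _ =>
    Attach.kummerHeckeIso_of_equiv (FermatLib.Modular.kummerHeckeEquiv L p hp)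
  let instN := heckeModuleBar (q * M)
  let S₀ : Set ℕ := (S : Set ℕ)
  have hNS : ∀ r : ℕ, r.Prime → r ∣ q * M → r ∈ S₀ := fun r h h' => Finset.mem_coe.mpr (hS r h h')
  have hcommN := FermatLib.Modular.heckeOperatorsCommuteBar (q * M)
  have DN := Attach.torsionHeckeData hcommN Attach.galois_smul_heckeAlg
    Attach.holdsNearOne_smul_jzero (hK (q * M)) hp S₀ hNS
  have : SMulCommClass Γℚ (awayHeckeAlg S₀) (JZero (q * M)) :=
    ⟨fun g u x => Attach.galois_smul_heckeAlg g (u : HeckeAlg) x⟩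
  have : Module.Finite ℤ (CuspForm.heckeAlgebra (q * M) 2 S₀) :=
    FermatLib.Modular.heckeAlgebra_moduleFinite (q * M) 2 S₀
  have h₁ : M * 1 ∣ q * M := by simp
  have h₂ : M * q ∣ q * M := dvd_of_eq (mul_comm M q)
  have hle : awayHeckeAlg S₀ ≤ awayHeckeAlg {r : ℕ | r ∣ q * M} :=
    awayHeckeAlg_le fun ℓ hℓ => hNS ℓ ℓ.2 hℓ
  -- the point, on the Hecke algebra
  have hker : RingHom.ker (awayHeckeEval (q * M) S₀) ≤ RingHom.ker π := fun u hu => by
    rw [RingHom.mem_ker] at hu ⊢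
    exact hπ u (by rw [← inclusion_awayHeckeEval, hu, map_zero])
  let χ : CuspForm.heckeAlgebra (q * M) 2 S₀ →+* O :=
    (awayHeckeEval (q * M) S₀).liftOfSurjective DN.surjective ⟨π, hker⟩
  have hχ : ∀ u, χ (awayHeckeEval (q * M) S₀ u) = π u :=
    RingHom.liftOfRightInverse_comp_apply _ _ _ _
  have hroot : (LinearMap.charpoly (ρ.ρ σ)).IsRoot (q : O) ∨
      (LinearMap.charpoly (ρ.ρ σ)).IsRoot (-(q : O)) := by
    refine s35_isRoot_of_torsion_identity (P := awayHeckeAlg S₀) (J := JZero (q * M)) ρ hp hpO hpS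
      π (awayHeckeGen S₀) hchar ?_ DN.finite_level ?_ hq hqp hA hσ t ht ?_
    · intro ℓ hℓ hℓS B hB τ hτ k x hx
      have hℓNp : ¬ ℓ ∣ q * M * p := fun h => hℓS <| by
        rcases hℓ.dvd_mul.mp h with h | h
        · exact hS ℓ hℓ h
        · exact (Nat.prime_dvd_prime_iff_eq hℓ hp).mp h ▸ hpS
      have h := Attach.frobQuadratic_of_specialization h37 ℓ hℓ hℓNp B hB τ hτ x ⟨k, hx⟩
      rwa [← coe_awayHeckeGen (S := S₀) hℓ (fun h' => hℓS (Finset.mem_coe.mp h'))] at h
    · intro n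
      obtain ⟨s, η, hη, hlat⟩ := DN.lattice
      let η' : CuspForm.heckeAlgebra (q * M) 2 S₀ →+ (Fin s × Fin s → ℤ) :=
        AddMonoidHom.mk' (fun y x => η y x.1 x.2) fun y y' => funext fun x => by
          simp [map_add, Matrix.add_apply]
      obtain ⟨j', hj'⟩ := s35_exists_pow_dvd η' (fun y y' h => hη (Matrix.ext fun i j =>
        congrFun h (i, j))) p n
      refine ⟨j', fun u hu => ?_⟩
      obtain ⟨w, hw⟩ := hj' (awayHeckeEval (q * M) S₀ u) fun x =>
        hlat u j' (fun y hy => (Attach.awayAct_apply hcommN S₀ u y).trans (hu y hy)) x.1 x.2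
      rw [← hχ u, hw, map_nsmul, nsmul_eq_mul, Nat.cast_pow]
      exact Ideal.mul_mem_right _ _ (Ideal.pow_mem_pow hpO n)
    · intro k x hx
      exact s35_quartic_smul (MazurP.degPush 1 h₁) (MazurP.degPush q h₂) σ (q * q + 1) (q * q)
        (p ^ k) t x hx
        (s35_map_kills hp (dvd_mul_left M q) (hK M) ⟨t, hle t.2⟩ htM _
          (MazurP.degPush_one_hecke_smul h₁ (hle t.2)) x k hx)
        (s35_map_kills hp (dvd_mul_left M q) (hK M) ⟨t, hle t.2⟩ htM _
          (MazurP.degPush_prime_hecke_smul hqM h₂ (hle t.2)) x k hx)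
        (fun y hy hy₁ hy₂ => hgeom q M hqM h₁ h₂ A hA σ hσ (p ^ k)
          (Nat.one_le_iff_ne_zero.mpr (pow_ne_zero _ hp.ne_zero))
          (fun hd => hqp ((Nat.prime_dvd_prime_iff_eq hq hp).mp (hq.dvd_of_dvd_pow hd)))
          y hy hy₁ hy₂)
  have hdet : LinearMap.det (ρ.ρ σ) = (q : O) :=
    s35_det_frobenius_eq s35_frobeniusDense hp hpO ρ S
      (fun ℓ hℓ hℓS B hB τ hτ => s35_det_eq_of_charpoly ρ τ (hchar ℓ hℓ hℓS B hB τ hτ))
      hq hqp hA hσ
  let b := Module.finBasisOfFinrankEq O ρ.V ρ.finrank_eq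
  rw [← LinearMap.charpoly_toMatrix (ρ.ρ σ) b, Matrix.charpoly_fin_two, LinearMap.det_toMatrix,
    hdet, ← LinearMap.trace_eq_matrix_trace O b] at hroot
  set a := LinearMap.trace O ρ.V (ρ.ρ σ)
  have hq0 : (q : O) ≠ 0 := fun h => by
    have hone : ((Nat.gcd q p : ℕ) : O) ∈ IsLocalRing.maximalIdeal O := by
      rw [← Int.cast_natCast (R := O) (Nat.gcd q p), Nat.gcd_eq_gcd_ab, Int.cast_add, Int.cast_mul,
        Int.cast_mul, Int.cast_natCast, Int.cast_natCast, h, zero_mul, zero_add]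
      exact Ideal.mul_mem_right _ _ hpO
    rw [(Nat.coprime_primes hq hp).mpr hqp, Nat.cast_one] at hone
    exact (IsLocalRing.maximalIdeal.isMaximal O).ne_top ((Ideal.eq_top_iff_one _).mpr hone)
  push_cast
  rcases hroot with h | h <;> simp [IsRoot.def] at h
  · have : (q : O) * ((q : O) + 1 - a) = 0 := by linear_combination h
    rw [← sub_eq_zero.mp ((mul_eq_zero.mp this).resolve_left hq0)]
  · have : (q : O) * ((q : O) + 1 + a) = 0 := by linear_combination h
    have := (mul_eq_zero.mp this).resolve_left hq0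
    linear_combination (a - (q : O) - 1) * this

end FermatLib.MLT.Two

end
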