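import Fermat.Agent.MLT.Two.Sys.Attached
import Fermat.Agent.MLT.Two.Sys.InertiaLGC
import Fermat.Agent.Igusa.MonoTransferS34

/-!
# The twisted system at the auxiliary primes
-/

set_option autoImplicit false

noncomputable section

open IsLocalRing Polynomial

namespace FermatLib.MLT.Two

open FermatLib.Galois

local notation "Qbar" => AlgebraicClosure ℚ
local notation "Γℚ" => (AlgebraicClosure ℚ ≃ₐ[ℚ] AlgebraicClosure ℚ)

/-- The cyclotomic characters are compatible. -/
theorem unitsMap_modCycloChar {m n : ℕ} [NeZero m] [NeZero n] (h : m ∣ n) (σ : Γℚ) :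
    ZMod.unitsMap h (modCycloChar n σ) = modCycloChar m σ := by
  haveI : NeZero ((m : ℕ) : Qbar) := ⟨Nat.cast_ne_zero.mpr (NeZero.ne m)⟩
  obtain ⟨ζ, hζ⟩ := HasEnoughRootsOfUnity.exists_primitiveRoot Qbar m
  have hn : ζ ^ n = 1 := by
    obtain ⟨c, rfl⟩ := h
    rw [pow_mul, hζ.pow_eq_one, one_pow]
  refine Units.ext ?_
  rw [modCycloChar_apply m, modularCyclotomicCharacter_eq_natCast_of_apply _ hζ (σ : Qbar ≃+* Qbar)
    (apply_eq_pow_modCycloChar n σ hn), ZMod.unitsMap_val, ZMod.natCast_val]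

variable {O : Type} [CommRing O] {k : Type} [Field k] (S : System O k)
  {ι : Type} [Fintype ι] {n : ℕ} {P : ι → AuxPlace} {K : Type} [Field K]

/-- A character through the auxiliary primes on inertia at one of them. -/
theorem auxProd_modCycloChar_inertia (hP : IsDepth S n P) (ψ : ∀ i, (ZMod (P i).q)ˣ →* Kˣ) (i : ι)
    {τ : Γℚ} (hτ : τ ∈ (P i).A.inertiaSubgroupIn ℚ) :
    auxProd S P ψ (modCycloChar (auxLevel S P) τ) = ψ i (modCycloChar (P i).q τ) := by
  rw [auxProd_apply, Finset.prod_eq_single i]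
  · rw [unitsMap_modCycloChar]
  · intro j _ hji
    rw [unitsMap_modCycloChar, modCycloChar_inertia (P i).hq (fun h => hji (hP.injective
      ((Nat.prime_dvd_prime_iff_eq (P i).hq (P j).hq).mp h).symm)) (P i).hA hτ, map_one]
  · exact fun h => absurd (Finset.mem_univ i) h

variable [IsDomain O] [IsDiscreteValuationRing O] [IsAdicComplete (maximalIdeal O) O] [CharZero O]
  [Finite k] [IsAlgClosed K] [CharZero K] [Algebra O K]
  {χ : (ZMod (auxLevel S P))ˣ →* Kˣ} {lam : ℕ → K}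
  {O₁ : Type} [CommRing O₁] [IsDomain O₁] [IsDiscreteValuationRing O₁]
  [IsAdicComplete (maximalIdeal O₁) O₁] [Finite (ResidueField O₁)] [CharZero O₁]
  [Algebra O O₁] [Module.Finite O O₁]

/-- Trace and determinant of the twisted system on inertia at an auxiliary prime. -/
theorem trace_det_inertia (hP : IsDepth S n P) (hO : Function.Injective (algebraMap O K))
    (hχ : IsAuxChar S P n χ) (hres : IsResidualSystem S (auxLevel S P) lam)
    (hne : goodEigen (auxLevel S P) χ lam ≠ ⊥) {ψ : ∀ i, (ZMod (P i).q)ˣ →* Kˣ}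
    (hψ : ∀ i, ψ i ^ 2 * auxComp S P hP χ i = 1)
    (hψ1 : ∀ i, auxComp S P hP χ i = 1 → ψ i = 1) (hψn : ∀ i u, ψ i u ^ 2 ^ (n + 1) = 1)
    {j₁ : O₁ →+* K} (hj₁ : Function.Injective j₁)
    (hj₁O : j₁.comp (algebraMap O O₁) = algebraMap O K) {ρ₀ : GaloisRepAdic O₁}
    {π : ↥(CuspForm.heckeAlgebra (auxTwistLevel S hP χ) 2
      (↑(auxBadSet S hP χ) : Set ℕ)) →+* O₁}
    (H : IsAttachedPoint 2 (auxTwistLevel S hP χ) (auxBadSet S hP χ) ρ₀ π)
    (hfrob : ∀ l : ℕ, l.Prime → ¬ l ∣ 2 * auxLevel S P →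
      ∀ B : ValuationSubring Qbar, B.LiesOverPrime l → ∀ F : Γℚ, B.IsFrobeniusAt F l →
        (LinearMap.charpoly (ρ₀.ρ F)).map j₁ =
          X ^ 2 - C (charVal (auxProd S P ψ) l * lam l) * X + C (l : K))
    (i : ι) {τ : Γℚ} (hτ : τ ∈ (P i).A.inertiaSubgroupIn ℚ) :
    j₁ (ρ₀.trace τ) = (ψ i (modCycloChar (P i).q τ) : K) +
        ((ψ i (modCycloChar (P i).q τ))⁻¹ : Kˣ) ∧
      LinearMap.det (ρ₀.ρ τ) = 1 := by
  have hdet : LinearMap.det (ρ₀.ρ τ) = 1 := by
    refine Igusa.Mono.det_eq_one_of_mem_inertia Nat.prime_two H.mem ρ₀ (auxBadSet S hP χ)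
      (fun l hl hlS B hB F hF => ?_) (P i).hq
      (fun h => hP.prime_to i (by rw [h]; exact dvd_mul_right _ _)) (P i).hA hτ
    have h := H.charpoly_frob l hl (fun h' => hlS (H.level_subset l hl h')) hlS B hB F hF
    rw [LinearMap.det_eq_sign_charpoly_coeff, ρ₀.finrank_eq, h]
    simp
  refine ⟨?_, hdet⟩
  by_cases hi : auxComp S P hP χ i = 1
  · have hqL : (P i).q ∣ auxTwistLevel S hP χ := dvd_mul_of_dvd_left (dvd_auxLevel S P i) _
    have hq2 : ¬ (P i).q ^ 2 ∣ auxTwistLevel S hP χ := by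
      intro h
      have hcop : (P i).q.Coprime (∏ q ∈ auxTwistSet S hP χ, q) := by
        refine Nat.Coprime.prod_right fun q hq => ?_
        obtain ⟨j, hj, rfl⟩ := auxTwistSet_spec S hP hq
        exact (Nat.coprime_primes (P i).hq (P j).hq).mpr fun e => hj (hP.injective e ▸ hi)
      exact (P i).hq.not_isUnit (auxLevel_squarefree S P hP _
        (by rw [← pow_two]; exact (hcop.pow_left 2).dvd_of_dvd_mul_right h))
    have hsq := H.sub_one_mul_sub_one (sysTorsionGaloisInputs _ 2 Nat.prime_two) (P i).hq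
      (fun h => hP.prime_to i (by rw [h]; exact dvd_mul_right _ _)) hqL hq2 (P i).hA hτ hτ
    have hcp := Igusa.Mono.charpoly_eq_of_det_one_of_sq_zero ρ₀.finrank_eq _ hdet hsq
    rw [adic_charpoly_eq] at hcp
    have h1 := congrArg (fun p : O₁[X] => p.coeff 1) hcp
    have e : ((X : O₁[X]) - 1) ^ 2 = X ^ 2 - C 2 * X + C 1 := by
      rw [map_ofNat, map_one]; ring
    rw [e] at h1
    simp [coeff_one] at h1
    rw [hψ1 i hi, h1, map_ofNat, MonoidHom.one_apply, inv_one, Units.val_one]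
    norm_num
  · have hcp := charpoly_inertia_of_comp_ne_one S hP hO hχ hres hne hψ hψ1 hψn hj₁ hj₁O
      H.residual_absIrr hfrob i hi hτ
    rw [adic_charpoly_eq] at hcp
    set a : K := (ψ i (modCycloChar (P i).q τ) : K)
    set b : K := ((ψ i (modCycloChar (P i).q τ))⁻¹ : Kˣ).val
    have h1 := congrArg (fun p : K[X] => p.coeff 1) hcp
    have e : ((X : K[X]) - C a) * (X - C b) = X ^ 2 - C (a + b) * X + C (a * b) := by
      rw [map_add, map_mul]; ring
    rw [e] at h1
    simp at h1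
    linear_combination -h1

end FermatLib.MLT.Two

end
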