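import Fermat.Agent.MLT.Two.Sys.Attached
import Fermat.Agent.MLT.Odd.HeckeRepDescentPrep

/-!
# A point with good coefficients gives a residual system
-/

set_option autoImplicit false

noncomputable section

open IsLocalRing

namespace FermatLib.MLT.Two

variable {O : Type} [CommRing O] [IsDomain O] [IsDiscreteValuationRing O]
  [IsAdicComplete (maximalIdeal O) O] [CharZero O]
  {k : Type} [Field k] [Finite k] (S : System O k)
  {ι : Type} [Fintype ι] {n : ℕ} {P : ι → AuxPlace}
  {K : Type} [Field K] [CharZero K] [Algebra O K]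
  {μ : (ZMod (auxLevel S P))ˣ →* Kˣ} {lam : ℕ → K}
  {A : Type} [CommRing A] [IsLocalRing A] [Algebra O A] [Module.Finite O A]
  {j : A →+* K} {redA : A →+* k}

omit [IsDomain O] [IsDiscreteValuationRing O] [IsAdicComplete (maximalIdeal O) O] [CharZero O]
  [Finite k] [CharZero K] [IsLocalRing A] in
/-- Elements of a point are integral over `O`. -/
theorem isIntegral_point (hj : j.comp (algebraMap O A) = algebraMap O K) (a : A) :
    IsIntegral O (j a) :=
  (Algebra.IsIntegral.isIntegral (R := O) a).map
    ({ j with commutes' := RingHom.congr_fun hj } : A →ₐ[O] K)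

theorem isResidualSystem_of_point' (hO : Function.Injective (algebraMap O K))
    (hjinj : Function.Injective j)
    (hj : j.comp (algebraMap O A) = algebraMap O K)
    (hred : redA.comp (algebraMap O A) = S.red) (hμ : IsAuxChar S P n μ)
    (ht : ∀ l : ℕ, l.Prime → ¬ l ∣ 2 * auxLevel S P →
      ∃ a : A, j a = charVal μ l * lam l ∧ redA a = S.red (S.ap l : O)) :
    IsResidualSystem S (auxLevel S P) lam := by
  intro l hl hlL
  obtain ⟨a, ha, hra⟩ := ht l hl hlL
  have hcop : l.Coprime (auxLevel S P) :=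
    hl.coprime_iff_not_dvd.mpr fun h => hlL (dvd_mul_of_dvd_right h 2)
  rw [charVal, dif_pos hcop] at ha
  set w : Kˣ := μ (ZMod.unitOfCoprime l hcop) with hw
  have hwn : w⁻¹ ^ 2 ^ n = 1 := by rw [inv_pow, hμ.pow_eq_one, inv_one]
  haveI : Finite (ResidueField O) := finite_residueField_of_system S
  obtain ⟨gens, hgens⟩ := Module.finite_def.mp ‹Module.Finite O A›
  obtain ⟨O₂, _, _, _, _, _, _, _, _, _, j₂, hj₂, hj₂O, hmem⟩ :=
    exists_coeffRing hO (j '' (gens : Set A) ∪ {((w⁻¹ : Kˣ) : K)})
      ((gens.finite_toSet.image j).union (Set.finite_singleton _)) (by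
        rintro x (⟨t, -, rfl⟩ | rfl)
        · exact isIntegral_point hj t
        · exact IsIntegral.of_pow (n := 2 ^ n) (pow_pos two_pos _)
            (by rw [← Units.val_pow_eq_pow_val, hwn, Units.val_one]; exact isIntegral_one))
  obtain ⟨u, hu⟩ := hmem _ (Or.inr rfl)
  let j₂A : O₂ →ₐ[O] K := { j₂ with commutes' := RingHom.congr_fun hj₂O }
  have hjr : ∀ y : A, ∃ z : O₂, j₂ z = j y := fun y => by
    have hy : y ∈ Submodule.span O (gens : Set A) := hgens ▸ Submodule.mem_top
    induction hy using Submodule.span_induction with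
    | mem x hx => exact hmem _ (Or.inl ⟨x, hx, rfl⟩)
    | zero => exact ⟨0, by simp⟩
    | add x y _ _ hx hy =>
      obtain ⟨z₁, h₁⟩ := hx
      obtain ⟨z₂, h₂⟩ := hy
      exact ⟨z₁ + z₂, by rw [map_add, map_add, h₁, h₂]⟩
    | smul c x _ hx =>
      obtain ⟨z, hz⟩ := hx
      refine ⟨c • z, ?_⟩
      rw [Algebra.smul_def, Algebra.smul_def, map_mul, map_mul, hz, ← RingHom.comp_apply, hj₂O,
        ← hj]
      rfl
  choose g hg using hjr
  let fA : A →ₐ[O] O₂ :=
    { toFun := g
      map_one' := hj₂ (by rw [hg, map_one, map_one])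
      map_mul' := fun x y => hj₂ (by rw [hg, map_mul, map_mul, hg, hg])
      map_zero' := hj₂ (by rw [hg, map_zero, map_zero])
      map_add' := fun x y => hj₂ (by rw [hg, map_add, map_add, hg, hg])
      commutes' := fun c => hj₂ (by rw [hg, ← RingHom.comp_apply, ← RingHom.comp_apply, hj, hj₂O]) }
  haveI : IsLocalHom (fA : A →+* O₂) := FermatLib.MLT.HeckeRep.isLocalHom_of_finite fA
  have hsurj : Function.Surjective redA := fun x => by
    obtain ⟨c, rfl⟩ := S.red_surjective x
    exact ⟨algebraMap O A c, RingHom.congr_fun hred c⟩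
  have hker : RingHom.ker redA = maximalIdeal A :=
    IsLocalRing.eq_maximalIdeal (RingHom.ker_isMaximal_of_surjective _ hsurj)
  have hres_a : residue O₂ (g a) = residue O₂ (algebraMap O O₂ (S.ap l : O)) := by
    rw [← sub_eq_zero, ← map_sub, residue_eq_zero_iff, ← fA.commutes]
    show fA a - fA _ ∈ _
    rw [← map_sub]
    refine map_nonunit (fA : A →+* O₂) _ ?_
    rw [← hker, RingHom.mem_ker, map_sub, hra, ← RingHom.comp_apply, hred, sub_self]
  have h2 : (2 : ResidueField O₂) = 0 := by
    rw [← map_ofNat (residueEmbed S (O₁ := O₂)) 2, S.anchor.two_eq_zero, map_zero]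
  have hu1 : residue O₂ u = 1 := by
    refine eq_one_of_pow_two_pow (m := n) h2 ?_
    rw [← map_pow, show u ^ 2 ^ n = 1 from hj₂ (by
      rw [map_pow, hu, ← Units.val_pow_eq_pow_val, hwn, Units.val_one, map_one]), map_one]
  let jc : O₂ →ₐ[O] integralClosure O K := j₂A.codRestrict _ fun y =>
    (Algebra.IsIntegral.isIntegral (R := O) y).map j₂A
  refine ⟨jc (u * g a), ?_, ?_⟩
  · show j₂ (u * g a) = lam l
    rw [map_mul, hu, hg, ha, ← mul_assoc, Units.inv_mul, one_mul]
  · rw [← map_intCast (algebraMap O (integralClosure O K)), ← jc.commutes, ← map_sub]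
    haveI : IsLocalHom (jc : O₂ →+* integralClosure O K) :=
      (RingHom.IsIntegral.tower_top (algebraMap O O₂) (jc : O₂ →+* integralClosure O K) (by
        rw [AlgHom.comp_algebraMap]
        exact algebraMap_isIntegral_iff.mpr inferInstance)).isLocalHom
        (fun x y h => hj₂ (congrArg Subtype.val h))
    intro hu'
    have h' := isUnit_of_map_unit (jc : O₂ →+* integralClosure O K) _ hu'
    rw [← IsLocalRing.notMem_maximalIdeal, ← residue_eq_zero_iff, map_sub, map_mul, hu1, one_mul,
      hres_a, sub_self] at h'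
    exact h' rfl

end FermatLib.MLT.Two

end
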