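import Fermat.Agent.Galois.RepAdic
import Fermat.Agent.Galois.FlatTwist
import Fermat.Agent.Galois.TransferLevel
import Fermat.Prelude.Def_GaloisRep_LocalConditions
import Mathlib.RingTheory.Ideal.Quotient.Operations

/-!
# Twists by characters of finite level, and the matrix form of flatness
-/

set_option autoImplicit false

noncomputable section

open IsLocalRing

namespace FermatLib.MLT.Two

open FermatLib.Galois FermatLib.Galois.FlatModel

local notation "Qbar" => AlgebraicClosure ℚ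
local notation "Γℚ" => (AlgebraicClosure ℚ ≃ₐ[ℚ] AlgebraicClosure ℚ)

variable {A : Type} [CommRing A] [IsLocalRing A]

/-- The twist of an adic representation by a character of finite level. -/
def twistAdicRep (ρ : GaloisRepAdic A) (φ : Γℚ →* Aˣ) (hφ : GaloisFactorsThroughFiniteLevel φ) :
    GaloisRepAdic A where
  V := ρ.V
  finrank_eq := ρ.finrank_eq
  ρ :=
    { toFun := fun σ => (φ σ : A) • ρ.ρ σ
      map_one' := by simp
      map_mul' := fun σ τ => by
        rw [map_mul, map_mul, Units.val_mul, smul_mul_smul_comm] }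
  isAdicContinuous := fun m => by
    obtain ⟨L, hL, h⟩ := ρ.isAdicContinuous m
    obtain ⟨L', hL', h'⟩ := hφ
    haveI := hL
    haveI := hL'
    refine ⟨L ⊔ L', inferInstance, fun σ hσ v => ?_⟩
    show (φ σ : A) • ρ.ρ σ v - v ∈ _
    rw [h' σ fun x hx => hσ x (le_sup_right (a := L) hx), Units.val_one, one_smul]
    exact h σ (fun x hx => hσ x (le_sup_left (a := L) hx)) v

theorem twistAdicRep_apply (ρ : GaloisRepAdic A) (φ : Γℚ →* Aˣ)
    (hφ : GaloisFactorsThroughFiniteLevel φ) (σ : Γℚ) :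
    (twistAdicRep ρ φ hφ).ρ σ = (φ σ : A) • ρ.ρ σ := rfl

theorem trace_twistAdicRep (ρ : GaloisRepAdic A) (φ : Γℚ →* Aˣ)
    (hφ : GaloisFactorsThroughFiniteLevel φ) (σ : Γℚ) :
    (twistAdicRep ρ φ hφ).trace σ = (φ σ : A) * ρ.trace σ :=
  map_smul (LinearMap.trace A ρ.V) (φ σ : A) (ρ.ρ σ)

theorem det_twistAdicRep (ρ : GaloisRepAdic A) (φ : Γℚ →* Aˣ)
    (hφ : GaloisFactorsThroughFiniteLevel φ) (σ : Γℚ) :
    LinearMap.det ((twistAdicRep ρ φ hφ).ρ σ) = (φ σ : A) ^ 2 * LinearMap.det (ρ.ρ σ) := by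
  show LinearMap.det ((φ σ : A) • ρ.ρ σ) = _
  rw [LinearMap.det_smul, ρ.finrank_eq]

/-- Twisting by a character unramified at `p` preserves flatness at `p`. -/
theorem isFlatAt_twistAdicRep {p : ℕ} (hp : p.Prime) {ρ : GaloisRepAdic A} (φ : Γℚ →* Aˣ)
    (hφ : GaloisFactorsThroughFiniteLevel φ)
    (hunr : ∀ P : ValuationSubring Qbar, P.LiesOverPrime p →
      ∀ σ ∈ P.inertiaSubgroupIn ℚ, φ σ = 1) (hflat : ρ.IsFlatAt p) :
    (twistAdicRep ρ φ hφ).IsFlatAt p :=
  isFlatAt_twist hp φ hunr (LinearEquiv.refl A ρ.V) (fun _ _ => rfl) hflat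

/-- Flatness only depends on the representation up to equivalence. -/
theorem isFlatAt_of_isEquiv {p : ℕ} (hp : p.Prime) {ρ ρ' : GaloisRepAdic A}
    (h : ρ.IsEquiv ρ') (hflat : ρ.IsFlatAt p) : ρ'.IsFlatAt p := by
  obtain ⟨e⟩ := h
  exact isFlatAt_twist hp (1 : Γℚ →* Aˣ) (fun _ _ _ _ => rfl) e.toLinearEquiv
    (fun σ v => by rw [MonoidHom.one_apply, Units.val_one, one_smul]; exact e.map_apply σ v) hflat

variable (ρ : GaloisRepAdic A) (b : Module.Basis (Fin 2) A ρ.V)

/-- The matrices of an adic representation have finite level modulo an ideal containing a power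
of the maximal ideal. -/
theorem finiteLevel_repMatrix (I : Ideal A) (hI : ∃ n, maximalIdeal A ^ n ≤ I) :
    GaloisFactorsThroughFiniteLevel
      ((Ideal.Quotient.mk I).mapMatrix.toMonoidHom.comp (repMatrix b ρ.ρ)) := by
  obtain ⟨n, hn⟩ := hI
  obtain ⟨L, hL, h⟩ := ρ.isAdicContinuous n
  refine ⟨L, hL, fun σ hσ => ?_⟩
  ext i j
  show Ideal.Quotient.mk I (repMatrix b ρ.ρ σ i j) = (1 : Matrix (Fin 2) (Fin 2) (A ⧸ I)) i j
  have hmem : (repMatrix b ρ.ρ σ i j) - (1 : Matrix (Fin 2) (Fin 2) A) i j ∈ I := by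
    have := repr_mem_of_mem_smul_top b _ (h σ hσ (b j)) i
    rw [map_sub, Finsupp.sub_apply, b.repr_self, Finsupp.single_apply] at this
    rw [repMatrix_apply, LinearMap.toMatrix_apply, Matrix.one_apply]
    convert hn this using 3
    exact eq_comm
  rw [← sub_eq_zero, Matrix.one_apply]
  rw [← Ideal.Quotient.eq_zero_iff_mem, map_sub, Matrix.one_apply] at hmem
  convert hmem using 2
  split_ifs <;> simp

/-- Flatness, read on matrices. -/
theorem hasModelAt_repMatrix {p : ℕ} (hflat : ρ.IsFlatAt p) (I : Ideal A) (hI : Finite (A ⧸ I)) :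
    HasModelAt p (Fin 2 → A ⧸ I)
      fun σ v => ((repMatrix b ρ.ρ σ).map (Ideal.Quotient.mk I)).mulVec v := by
  have h := ((isFlatAt_iff_hasModelAt ρ p).1 hflat).2 I hI
  let g : ρ.V →+ (Fin 2 → A ⧸ I) :=
    { toFun := fun v i => Ideal.Quotient.mk I (b.repr v i)
      map_zero' := by ext i; simp
      map_add' := fun v w => by ext i; simp }
  have hg : ∀ v, g v = 0 ↔ v ∈ I • (⊤ : Submodule A ρ.V) := fun v =>
    ⟨fun hv => mem_smul_top_of_repr_mem b _ fun i =>
        Ideal.Quotient.eq_zero_iff_mem.1 (congrFun hv i),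
      fun hv => funext fun i =>
        Ideal.Quotient.eq_zero_iff_mem.2 (repr_mem_of_mem_smul_top b _ hv i)⟩
  let gI : (ρ.V ⧸ (I • ⊤ : Submodule A ρ.V)) →+ (Fin 2 → A ⧸ I) :=
    QuotientAddGroup.lift (I • (⊤ : Submodule A ρ.V)).toAddSubgroup g fun v hv => (hg v).2 hv
  have hbij : Function.Bijective gI := by
    refine ⟨(injective_iff_map_eq_zero gI).2 fun x hx => ?_, fun y => ?_⟩
    · obtain ⟨v, rfl⟩ := Submodule.Quotient.mk_surjective _ x
      exact (Submodule.Quotient.mk_eq_zero _).2 ((hg v).1 hx)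
    · choose z hz using fun i => Ideal.Quotient.mk_surjective (y i)
      refine ⟨Submodule.Quotient.mk (b.equivFun.symm z), funext fun i => ?_⟩
      show Ideal.Quotient.mk I (b.repr (b.equivFun.symm z) i) = y i
      rw [← Module.Basis.equivFun_apply, LinearEquiv.apply_symm_apply, hz]
  refine h.congr (AddEquiv.ofBijective gI hbij) fun σ x => ?_
  obtain ⟨v, rfl⟩ := Submodule.Quotient.mk_surjective _ x
  funext i
  show Ideal.Quotient.mk I (b.repr (ρ.ρ σ v) i) = _
  rw [← repMatrix_mulVec]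
  simp [Matrix.mulVec, dotProduct, g, gI]
  rfl

end FermatLib.MLT.Two

end
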