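import Fermat.Agent.MLT.Two.Sys.PointInertia
import Fermat.Agent.MLT.Two.Sys.Descent
import Fermat.Agent.MLT.Two.Sys.TwistRep
import Fermat.Agent.MLT.Two.Sys.PointSystem
import Fermat.Agent.MLT.Odd.HeckeRepFamily

/-!
# The representation at a point of the twisted module

The representation attached to the system twisted to trivial nebentype, twisted back by
`μ / ψ`, descends to the coefficients of the point and has every local property.
-/

set_option autoImplicit false

noncomputable section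

open IsLocalRing Polynomial

namespace FermatLib.MLT.Two

open FermatLib.Galois

local notation "Qbar" => AlgebraicClosure ℚ
local notation "Γℚ" => (AlgebraicClosure ℚ ≃ₐ[ℚ] AlgebraicClosure ℚ)
local notation "M₂" R:max => Matrix (Fin 2) (Fin 2) R

section prep

variable {O : Type} [CommRing O] {k : Type} [Field k] (S : System O k)
  {ι : Type} [Fintype ι] {n : ℕ} {P : ι → AuxPlace} {K : Type} [Field K]

/-- A character through the auxiliary primes is trivial on inertia at any other prime. -/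
theorem auxChar_modCycloChar_inertia {φ : (ZMod (auxLevel S P))ˣ →* Kˣ}
    (hφ : IsAuxChar S P n φ) {q : ℕ} (hq : q.Prime) (hne : ∀ i, (P i).q ≠ q)
    {B : ValuationSubring Qbar} (hB : B.LiesOverPrime q) {τ : Γℚ}
    (hτ : τ ∈ B.inertiaSubgroupIn ℚ) : φ (modCycloChar (auxLevel S P) τ) = 1 :=
  hφ.eq_one _ fun i => by
    rw [unitsMap_modCycloChar]
    exact modCycloChar_inertia hq (fun h =>
      hne i ((Nat.prime_dvd_prime_iff_eq hq (P i).hq).mp h).symm) hB hτ

/-- The product of a character and the inverse of another through the auxiliary primes. -/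
theorem isAuxChar_mul_inv {φ ψ : (ZMod (auxLevel S P))ˣ →* Kˣ} {m : ℕ}
    (hφ : IsAuxChar S P n φ) (hψ : IsAuxChar S P m ψ) (hnm : n ≤ m) :
    IsAuxChar S P m (φ * ψ⁻¹) := by
  refine ⟨fun u => ?_, fun u hu => ?_⟩
  · rw [MonoidHom.mul_apply, MonoidHom.inv_apply, mul_pow, inv_pow, hψ.pow_eq_one, inv_one, mul_one]
    obtain ⟨d, rfl⟩ := Nat.exists_eq_add_of_le hnm
    rw [pow_add, pow_mul, hφ.pow_eq_one, one_pow]
  · rw [MonoidHom.mul_apply, MonoidHom.inv_apply, hφ.eq_one u hu, hψ.eq_one u hu, inv_one, mul_one]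

end prep

/-- The trace of a change of coefficients. -/
theorem trace_baseChange_point {A B : Type} [CommRing A] [IsLocalRing A] [CommRing B]
    [IsLocalRing B] (f : A →+* B) (hf : IsLocalHom f) (ρ : GaloisRepAdic A) (σ : Γℚ) :
    (ρ.baseChangeAlong f hf).trace σ = f (ρ.trace σ) := by
  letI : Algebra A B := f.toAlgebra
  exact LinearMap.trace_baseChange (ρ.ρ σ) B

section point

variable {O : Type} [CommRing O] [IsDomain O] [IsDiscreteValuationRing O]
  [IsAdicComplete (maximalIdeal O) O] [CharZero O]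
  {k : Type} [Field k] [Finite k] (S : System O k)
  {K : Type} [Field K] [Algebra O K]
  {A : Type} [CommRing A] [IsLocalRing A] [Algebra O A] [Module.Finite O A]
  {j : A →+* K} {redA : A →+* k}
  {O₁ : Type} [CommRing O₁] [IsLocalRing O₁] [Algebra O O₁] [Module.Finite O O₁]
  [IsLocalHom (algebraMap O O₁)] {j₁ : O₁ →+* K}

omit [IsDomain O] [IsDiscreteValuationRing O] [IsAdicComplete (maximalIdeal O) O] [CharZero O]
  [IsLocalRing A] [IsLocalRing O₁] [IsLocalHom (algebraMap O O₁)] [Module.Finite O A]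
  [Module.Finite O O₁] in
/-- A point factors through a larger coefficient ring containing its generators. -/
theorem exists_algHom_point (hj₁ : Function.Injective j₁)
    (hj₁O : j₁.comp (algebraMap O O₁) = algebraMap O K)
    (hjO : j.comp (algebraMap O A) = algebraMap O K) (gens : Set A)
    (hgens : Submodule.span O gens = ⊤) (h : ∀ a ∈ gens, j a ∈ j₁.range) :
    ∃ f : A →ₐ[O] O₁, ∀ a, j₁ (f a) = j a := by
  have hjr : ∀ y : A, ∃ z : O₁, j₁ z = j y := fun y => by
    have hy : y ∈ Submodule.span O gens := hgens ▸ Submodule.mem_top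
    induction hy using Submodule.span_induction with
    | mem x hx => exact h x hx
    | zero => exact ⟨0, by simp⟩
    | add x y _ _ hx hy =>
      obtain ⟨z₁, h₁⟩ := hx
      obtain ⟨z₂, h₂⟩ := hy
      exact ⟨z₁ + z₂, by rw [map_add, map_add, h₁, h₂]⟩
    | smul c x _ hx =>
      obtain ⟨z, hz⟩ := hx
      refine ⟨c • z, ?_⟩
      rw [Algebra.smul_def, Algebra.smul_def, map_mul, map_mul, hz, ← RingHom.comp_apply, hj₁O,
        ← hjO]
      rfl
  choose g hg using hjr
  exact ⟨{
      toFun := g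
      map_one' := hj₁ (by rw [hg, map_one, map_one])
      map_mul' := fun x y => hj₁ (by rw [hg, map_mul, map_mul, hg, hg])
      map_zero' := hj₁ (by rw [hg, map_zero, map_zero])
      map_add' := fun x y => hj₁ (by rw [hg, map_add, map_add, hg, hg])
      commutes' := fun c => hj₁ (by
        rw [hg, ← RingHom.comp_apply, ← RingHom.comp_apply, hjO, hj₁O]) }, hg⟩

omit [IsAdicComplete (maximalIdeal O) O] [CharZero O] in
/-- The residue of an element of the point in a larger coefficient ring. -/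
theorem residue_map_point (f : A →ₐ[O] O₁) (hred : redA.comp (algebraMap O A) = S.red) (a : A) :
    residue O₁ (f a) = residueEmbed S (redA a) := by
  haveI : IsLocalHom (f : A →+* O₁) := FermatLib.MLT.HeckeRep.isLocalHom_of_finite f
  obtain ⟨c, hc⟩ := S.red_surjective (redA a)
  have hsurj : Function.Surjective redA := fun x => by
    obtain ⟨d, rfl⟩ := S.red_surjective x
    exact ⟨algebraMap O A d, RingHom.congr_fun hred d⟩
  have hker : RingHom.ker redA = maximalIdeal A :=
    IsLocalRing.eq_maximalIdeal (RingHom.ker_isMaximal_of_surjective _ hsurj)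
  rw [← hc, residueEmbed_red, ← sub_eq_zero, ← map_sub, residue_eq_zero_iff, ← f.commutes,
    ← map_sub]
  refine map_nonunit (f : A →+* O₁) _ ?_
  rw [← hker, RingHom.mem_ker, map_sub, ← RingHom.comp_apply, hred, hc, sub_self]

end point

variable {O : Type} [CommRing O] [IsDomain O] [IsDiscreteValuationRing O]
  [IsAdicComplete (maximalIdeal O) O] [CharZero O]
  {k : Type} [Field k] [Finite k] (S : System O k)
  {ι : Type} [Fintype ι] {n : ℕ} {P : ι → AuxPlace}
  {K : Type} [Field K] [IsAlgClosed K] [CharZero K] [Algebra O K]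
  {χ μ : (ZMod (auxLevel S P))ˣ →* Kˣ} {lam : ℕ → K}
  {A : Type} [CommRing A] [IsDomain A] [IsLocalRing A] [Algebra O A] [Module.Finite O A]
  {j : A →+* K} {redA : A →+* k}

/-- The representation at a point of the twisted module. -/
theorem exists_pointRep_aux (hP : IsDepth S n P) (hO : Function.Injective (algebraMap O K))
    (hχ : IsAuxChar S P n χ) (hμ : IsAuxChar S P n μ)
    (hj : Function.Injective j) (hjO : j.comp (algebraMap O A) = algebraMap O K)
    (hred : redA.comp (algebraMap O A) = S.red)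
    (hdiam : ∀ u, (χ u : K) ∈ j.range ∧ (μ u : K) ∈ j.range)
    (ht : ∀ l : ℕ, l.Prime → ¬ l ∣ 2 * auxLevel S P →
      ∃ a : A, j a = charVal μ l * lam l ∧ redA a = S.red (S.ap l : O))
    (hne : goodEigen (auxLevel S P) χ lam ≠ ⊥) :
    ∃ ρ : Γℚ →* M₂ A, IsPointRep S P j redA χ μ lam ρ := by
  classical
  haveI : Finite (ResidueField O) := finite_residueField_of_system S
  haveI : IsNoetherianRing A := IsNoetherianRing.of_finite O A
  haveI : Finite (ResidueField A) :=
    FermatLib.MLT.HeckeRep.finite_residueField_of_finite (𝒪 := O)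
  have hres : IsResidualSystem S (auxLevel S P) lam :=
    isResidualSystem_of_point' S hO hj hjO hred hμ ht
  -- the twist back
  obtain ⟨ψ, hψ, hψ1, hψn⟩ := exists_sqrt_inv_comp S P hP hχ
  set Ψ := auxProd S P ψ with hΨ
  have hΦ : IsAuxChar S P (n + 1) (μ * Ψ⁻¹) :=
    isAuxChar_mul_inv S hμ (isAuxChar_auxProd S P hψn) (Nat.le_succ n)
  have hχΨ : ∀ u, χ u * Ψ u ^ 2 = 1 := auxChar_mul_sq S hP hχ hψ
  -- coefficients
  obtain ⟨gens, hgens⟩ := Module.finite_def.mp ‹Module.Finite O A›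
  obtain ⟨O₁, _, _, _, _, _, _, _, _, _, j₁, hj₁, hj₁O, hs, ρ₀, π, H, htr₀, hfrob₀, hunr₀⟩ :=
    exists_attachedRep S hP hO hχ hres hne hψ hψ1 hψn
      (j '' (gens : Set A) ∪ Set.range fun u => ((μ * Ψ⁻¹) u : K))
      ((gens.finite_toSet.image j).union (Set.finite_range _)) (by
        rintro x (⟨t, -, rfl⟩ | ⟨u, rfl⟩)
        · exact isIntegral_point hjO t
        · refine IsIntegral.of_pow (n := 2 ^ (n + 1)) (pow_pos two_pos _) ?_
          rw [← Units.val_pow_eq_pow_val, hΦ.pow_eq_one u, Units.val_one]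
          exact isIntegral_one)
  obtain ⟨f, hf⟩ := exists_algHom_point hj₁ hj₁O hjO (gens : Set A) hgens
    fun a ha => hs _ (Or.inl ⟨a, ha, rfl⟩)
  have hfinj : Function.Injective f := fun a b h => hj (by rw [← hf, ← hf, h])
  choose v hv' using fun u => hs _ (Or.inr ⟨u, rfl⟩)
  have hv : ∀ u, j₁ (v u) = ((μ * Ψ⁻¹) u : K) := hv'
  let vHom : (ZMod (auxLevel S P))ˣ →* O₁ :=
    { toFun := v
      map_one' := hj₁ (by rw [hv, map_one, map_one, Units.val_one])
      map_mul' := fun x y => hj₁ (by rw [map_mul j₁, hv, hv, hv, map_mul, Units.val_mul]) }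
  let φ : Γℚ →* O₁ˣ := vHom.toHomUnits.comp (modCycloChar (auxLevel S P))
  have hφ : ∀ σ, j₁ (φ σ : O₁) = ((μ * Ψ⁻¹) (modCycloChar (auxLevel S P) σ) : K) := fun σ => hv _
  have hφres : ∀ σ, residue O₁ (φ σ : O₁) = 1 := fun σ => by
    refine eq_one_of_pow_two_pow (m := n + 1) ?_ ?_
    · rw [← map_ofNat (residueEmbed S (O₁ := O₁)) 2, S.anchor.two_eq_zero, map_zero]
    · rw [← map_pow, show (φ σ : O₁) ^ 2 ^ (n + 1) = 1 from hj₁ (by
        rw [map_pow, hφ, ← Units.val_pow_eq_pow_val, hΦ.pow_eq_one, Units.val_one, map_one]),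
        map_one]
  have hφ1 : ∀ σ, (μ * Ψ⁻¹) (modCycloChar (auxLevel S P) σ) = 1 → φ σ = 1 := fun σ h =>
    Units.ext (hj₁ (by rw [hφ, h, Units.val_one, Units.val_one, map_one]))
  have hφfin : GaloisFactorsThroughFiniteLevel φ := by
    obtain ⟨F, hF, h1⟩ := exists_finite_level_modCycloChar (auxLevel S P)
    exact ⟨F, hF, fun σ hσ => hφ1 σ (by
      rw [h1 σ ((IntermediateField.mem_fixingSubgroup_iff _ σ).mpr hσ), map_one])⟩
  let ρ₁ := twistAdicRep ρ₀ φ hφfin
  -- traces at Frobenius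
  have hcyc : ∀ l : ℕ, l.Prime → ¬ l ∣ 2 * auxLevel S P → ∀ B : ValuationSubring Qbar,
      B.LiesOverPrime l → ∀ F : Γℚ, B.IsFrobeniusAt F l →
      j₁ (ρ₁.trace F) = charVal μ l * lam l ∧
        j₁ (LinearMap.det (ρ₁.ρ F)) = charVal χ l * charVal μ l ^ 2 * (l : K) := by
    intro l hl hlL B hB F hF
    have hlN : ¬ l ∣ auxLevel S P := fun h => hlL (dvd_mul_of_dvd_right h 2)
    have hcop : l.Coprime (auxLevel S P) := hl.coprime_iff_not_dvd.mpr hlN
    have hu : modCycloChar (auxLevel S P) F = ZMod.unitOfCoprime l hcop :=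
      Units.ext (modCycloChar_frobenius hl hlN hB hF)
    have h := hfrob₀ l hl hlL B hB F hF
    rw [adic_charpoly_eq] at h
    have h0 := congrArg (fun p : K[X] => p.coeff 0) h
    have h1 := congrArg (fun p : K[X] => p.coeff 1) h
    simp [coeff_X] at h0 h1
    have e1 : ((μ * Ψ⁻¹) (ZMod.unitOfCoprime l hcop) : K) * (Ψ (ZMod.unitOfCoprime l hcop) : K) =
        μ (ZMod.unitOfCoprime l hcop) := by
      rw [← Units.val_mul]; simp
    have e2 : (χ (ZMod.unitOfCoprime l hcop) : K) * (Ψ (ZMod.unitOfCoprime l hcop) : K) ^ 2 = 1 := by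
      rw [← Units.val_pow_eq_pow_val, ← Units.val_mul, hχΨ, Units.val_one]
    constructor
    · rw [trace_twistAdicRep, map_mul, hφ, hu, h1]
      simp only [charVal, dif_pos hcop]
      linear_combination lam l * e1
    · rw [det_twistAdicRep, map_mul, map_pow, hφ, hu, h0]
      simp only [charVal, dif_pos hcop]
      linear_combination
        -(l : K) * ((μ * Ψ⁻¹) (ZMod.unitOfCoprime l hcop) : K) ^ 2 * e2 +
          (l : K) * (χ (ZMod.unitOfCoprime l hcop) : K) *
            (((μ * Ψ⁻¹) (ZMod.unitOfCoprime l hcop) : K) * (Ψ (ZMod.unitOfCoprime l hcop) : K) +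
              μ (ZMod.unitOfCoprime l hcop)) * e1
  -- residual traces
  have htr₁ : ∀ g, residue O₁ (ρ₁.trace g) = residueEmbed S (S.anchor.ρ g).trace := fun g => by
    rw [trace_twistAdicRep, map_mul, hφres, one_mul, htr₀]
  have hirr : ρ₁.residual.IsAbsolutelyIrreducible :=
    (isAbsolutelyIrreducible_iff_hasFullSpan _).mpr
      ((S.anchor.hasFullSpan.repMap (residueEmbed S (O₁ := O₁))).of_trace_eq fun g => by
        rw [residualMat, trace_repMatrix, trace_residual, htr₁, trace_repMap])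
  -- traces and determinants lie in the point
  let ρB := adicMat ρ₁
  have htrB : ∀ g, (ρB g).trace = ρ₁.trace g := fun g => trace_repMatrix _ _ g
  have hdetB : ∀ g, (ρB g).det = LinearMap.det (ρ₁.ρ g) := fun g => det_repMatrix _ _ g
  have hcont : ∀ m : ℕ, GaloisFactorsThroughFiniteLevel
      ((Ideal.Quotient.mk (maximalIdeal O₁ ^ m)).mapMatrix.toMonoidHom.comp ρB) := fun m =>
    finiteLevel_repMatrix ρ₁ (adicBasis ρ₁) _ ⟨m, le_rfl⟩
  have hmem : ∀ g, (ρB g).trace ∈ f.range ∧ (ρB g).det ∈ f.range := by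
    refine trace_det_mem_range f ρB hcont (2 * auxLevel S P).primeFactors
      fun l hl hlE B hB F hF => ?_
    have hlL : ¬ l ∣ 2 * auxLevel S P := fun h =>
      hlE (Nat.mem_primeFactors.mpr ⟨hl, h, mul_ne_zero two_ne_zero (NeZero.ne _)⟩)
    have hcop : l.Coprime (auxLevel S P) :=
      hl.coprime_iff_not_dvd.mpr fun h => hlL (dvd_mul_of_dvd_right h 2)
    obtain ⟨hT, hD⟩ := hcyc l hl hlL B hB F hF
    obtain ⟨a, ha, -⟩ := ht l hl hlL
    obtain ⟨⟨c, hc⟩, d, hd⟩ := hdiam (ZMod.unitOfCoprime l hcop)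
    refine ⟨⟨a, hj₁ ?_⟩, ⟨c * d ^ 2 * (l : A), hj₁ ?_⟩⟩
    · show j₁ (f a) = _
      rw [hf, ha, htrB, hT]
    · show j₁ (f _) = _
      rw [hf, hdetB, hD, map_mul, map_mul, map_pow, map_natCast, hc, hd]
      simp only [charVal, dif_pos hcop]
  obtain ⟨R, b, hmap, htd⟩ := exists_descended S f hfinj redA hred ρB hcont hmem fun g a ha => by
    refine (residueEmbed S (O₁ := O₁)).injective ?_
    rw [← residue_map_point S f hred, ha, htrB, htr₁]
  set ρA := repMatrix b R.ρ with hρA
  have hjtr : ∀ g, j (ρA g).trace = j₁ (ρ₁.trace g) := fun g => by rw [← hf, (htd g).1, htrB]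
  have hjdet : ∀ g, j (ρA g).det = j₁ (LinearMap.det (ρ₁.ρ g)) := fun g => by
    rw [← hf, (htd g).2, hdetB]
  obtain ⟨Q, hQ⟩ := exists_conj_of_trace_eq (ρ₁ := ρB) (ρ₂ := repMap (f : A →+* O₁) ρA)
    ((hasFullSpan_adicMat_iff ρ₁).mpr hirr) fun g => by
      rw [trace_repMap]; exact ((htd g).1).symm
  have hρBone : ∀ τ, φ τ = 1 → ρ₀.ρ τ = 1 → ρB τ = 1 := fun τ h1 h2 => by
    show LinearMap.toMatrixAlgEquiv (adicBasis ρ₁) (ρ₁.ρ τ) = 1
    rw [twistAdicRep_apply, h1, Units.val_one, one_smul, h2]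
    exact map_one _
  have hfmat : Function.Injective fun M : M₂ A => M.map f := Matrix.map_injective hfinj
  have h2O : maximalIdeal O = Ideal.span {(2 : O)} := by
    rw [← ker_red_eq_maximalIdeal S, S.ker_red]
  have hI : ∀ m : ℕ, ∃ r, maximalIdeal A ^ r ≤ Ideal.span {(2 : A) ^ m} := fun m => by
    obtain ⟨r, hr⟩ := FermatLib.MLT.HeckeRep.exists_maximalIdeal_pow_le_map (𝒪 := O) (B := A) m
    refine ⟨r, hr.trans (le_of_eq ?_)⟩
    rw [h2O, Ideal.span_singleton_pow, Ideal.map_span, Set.image_singleton, map_pow, map_ofNat]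
  have hL2 : ¬ 2 ∣ auxLevel S P := two_not_dvd_auxLevel S P hP
  have h2q : ∀ i, (P i).q ≠ 2 := fun i h => hL2 (h ▸ dvd_auxLevel S P i)
  have hflat : R.IsFlatAt 2 := by
    haveI : Fact (Nat.Prime 2) := ⟨Nat.prime_two⟩
    have h₀ : ρ₀.IsFlatAt 2 := H.isFlatAt (sysTorsionGaloisInputs _ 2 Nat.prime_two)
      (sysTorsionModel _ 2 fun h => hL2 ((dvd_auxTwistLevel_iff S Nat.prime_two).mp h))
    have h₁ : ρ₁.IsFlatAt 2 := isFlatAt_twistAdicRep Nat.prime_two φ hφfin
      (fun B hB σ hσ => hφ1 σ (auxChar_modCycloChar_inertia S hΦ Nat.prime_two h2q hB hσ)) h₀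
    have hlocf : IsLocalHom (f : A →+* O₁) := FermatLib.MLT.HeckeRep.isLocalHom_of_finite f
    refine FermatLib.MLT.HeckeRep.isFlatAt_of_family (ι := Unit) (B := fun _ => O₁)
      (φ := fun _ => (f : A →+* O₁)) (fun _ => hlocf)
      (FermatLib.MLT.HeckeRep.isClosedFamily_of_finite (𝒪 := O) (fun _ => f)
        fun a ha => hfinj (by rw [ha (), map_zero])) fun _ => ?_
    refine isFlatAt_of_isEquiv Nat.prime_two (adic_isEquiv_of_trace_eq hirr fun σ => ?_) h₁
    rw [trace_baseChange_point, ← htrB, ← (htd σ).1]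
    exact congrArg f (trace_repMatrix b R.ρ σ)
  refine ⟨ρA,
    { map_eq := hmap
      finiteLevel := fun m => finiteLevel_repMatrix R b _ (hI m)
      flat := fun m => hasModelAt_repMatrix R b hflat _ (IsLocalRing.finite_quotient_iff.2 (hI m))
      unramified := fun q hq hq2 hqN hqP B hB τ hτ => hfmat ?_
      level := fun q hq hqN B hB τ hτ τ' hτ' => hfmat ?_
      frobenius := fun l hl hlL B hB F hF => by rw [hjtr, hjdet]; exact hcyc l hl hlL B hB F hF
      inertia := fun i τ hτ => ?_ }⟩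
  · have hqL : ¬ q ∣ 2 * auxLevel S P := by
      intro h
      rcases hq.dvd_mul.mp h with h | h
      · exact hq2 ((Nat.prime_dvd_prime_iff_eq hq Nat.prime_two).mp h)
      rcases hq.dvd_mul.mp h with h | h
      · exact hqN h
      · obtain ⟨i, -, hi⟩ := (Prime.dvd_finsetProd_iff hq.prime _).mp h
        exact hqP i ((Nat.prime_dvd_prime_iff_eq hq (P i).hq).mp hi).symm
    have e : ρB τ = 1 := hρBone τ
      (hφ1 τ (auxChar_modCycloChar_inertia S hΦ hq hqP hB hτ)) (hunr₀ q hq hqL B hB τ hτ)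
    show repMap (f : A →+* O₁) ρA τ = (1 : M₂ A).map f
    rw [hQ, e, mul_one, Units.mul_inv, Matrix.map_one _ (map_zero f) (map_one f)]
  · have hqP : ∀ i, (P i).q ≠ q := fun i h => hP.prime_to i (h ▸ dvd_mul_of_dvd_right hqN 2)
    have hq2 : q ≠ 2 := fun h => hL2 (h ▸ hqN.trans (level_dvd_auxLevel S P))
    have hqL' : q ∣ auxTwistLevel S hP χ :=
      (dvd_auxTwistLevel_iff S hq).mpr (hqN.trans (level_dvd_auxLevel S P))
    have hqq : ¬ q ^ 2 ∣ auxTwistLevel S hP χ := by
      intro h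
      have hcop : q.Coprime (∏ x ∈ auxTwistSet S hP χ, x) := by
        refine Nat.Coprime.prod_right fun x hx => ?_
        obtain ⟨i, -, rfl⟩ := auxTwistSet_spec S hP hx
        exact (Nat.coprime_primes hq (P i).hq).mpr fun e => hqP i e.symm
      exact hq.not_isUnit (auxLevel_squarefree S P hP _
        (by rw [← pow_two]; exact (hcop.pow_left 2).dvd_of_dvd_mul_right h))
    have h0 := H.sub_one_mul_sub_one (sysTorsionGaloisInputs _ 2 Nat.prime_two) hq hq2 hqL' hqq
      hB hτ' hτ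
    have e : ∀ σ ∈ B.inertiaSubgroupIn ℚ,
        ρB σ = LinearMap.toMatrixAlgEquiv (adicBasis ρ₁) (ρ₀.ρ σ) := fun σ hσ => by
      show LinearMap.toMatrixAlgEquiv (adicBasis ρ₁) (ρ₁.ρ σ) = _
      rw [twistAdicRep_apply, hφ1 σ (auxChar_modCycloChar_inertia S hΦ hq hqP hB hσ),
        Units.val_one, one_smul]
    have e0 : (ρB τ - 1) * (ρB τ' - 1) = 0 := by
      rw [e τ hτ, e τ' hτ', ← map_one (LinearMap.toMatrixAlgEquiv (adicBasis ρ₁)), ← map_sub,
        ← map_sub, ← map_mul]
      exact (congrArg _ h0).trans (map_zero _)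
    have e1 : ∀ σ, (ρA σ - 1).map f =
        (Q : M₂ O₁) * (ρB σ - 1) * ((Q⁻¹ : GL (Fin 2) O₁) : M₂ O₁) := fun σ => by
      rw [mul_sub, sub_mul, mul_one, Units.mul_inv, ← hQ σ, Matrix.map_sub _ (map_sub f),
        Matrix.map_one _ (map_zero f) (map_one f)]
      rfl
    show ((ρA τ - 1) * (ρA τ' - 1)).map f = (0 : M₂ A).map f
    rw [Matrix.map_mul, e1, e1, Matrix.map_zero _ (map_zero f)]
    simp only [mul_assoc, Units.inv_mul_cancel_left]
    rw [← mul_assoc (ρB τ - 1), e0, zero_mul, mul_zero]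
  · obtain ⟨hT, hD⟩ := trace_det_inertia S hP hO hχ hres hne hψ hψ1 hψn hj₁ hj₁O H hfrob₀ i hτ
    set c := modCycloChar (auxLevel S P) τ with hc
    have hψc : ψ i (modCycloChar (P i).q τ) = Ψ c :=
      (auxProd_modCycloChar_inertia S hP ψ i hτ).symm
    rw [hjtr, hjdet, trace_twistAdicRep, det_twistAdicRep, map_mul, map_mul, map_pow, hφ, ← hc,
      hT, hψc, hD, map_one, mul_one]
    have hχc : χ c = (Ψ c ^ 2)⁻¹ := eq_inv_of_mul_eq_one_left (hχΨ c)
    rw [hχc, MonoidHom.mul_apply, MonoidHom.inv_apply]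
    simp only [Units.val_mul, Units.val_inv_eq_inv_val, Units.val_pow_eq_pow_val]
    have hne0 : (Ψ c : K) ≠ 0 := (Ψ c).ne_zero
    constructor <;> field_simp

end FermatLib.MLT.Two

end
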